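import Mathlib
import Fermat.Prelude.Def_FLTPrelim_Ramification
import Fermat.Prelude.Def_GaloisRep_Flat
import Fermat.Agent.Lib.Frobenius.Exists
import Fermat.Agent.Lib.Frobenius.KeyLemma
import Fermat.Agent.Lib.FlatMod.RatLoc

/-!
# S19 / route R-G, seat PL (helper12): places of `ℚ̄` over `ℓ`

Blueprint `NOTES/blueprint-FF-S19.md`, §3 (PL).  `Kb = ℚ̄`, `R = ratLocalizedAt ℓ = ℤ_(ℓ)`,
`Bint = integralClosure R Kb`.

* (b) `pl_mem_of_isIntegral` : an element integral over `ℤ_(ℓ)` lies in every valuation subring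
  over `ℓ`;  `pl_isIntegral_of_forall_conj` : if all conjugates of `x` lie in ONE valuation subring
  `A₀` over `ℓ`, then `x` is integral over `ℤ_(ℓ)`;  `pl_isIntegral_iff_forall_conj`,
  `pl_isIntegral_iff_forall_mem`;  `pl_mem_ratLoc_iff` (`A ∩ ℚ = ℤ_(ℓ)`);
  units: `pl_isUnit_iff_forall_conj`.
* (a) `pl_exists_smul_eq` : `G_ℚ` is transitive on the valuation subrings of `ℚ̄` over `ℓ`.
* (c) `pl_exists_of_isMaximal` : every maximal ideal of `Bint` is the centre of a valuation subring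
  over `ℓ`.
* (d) `pl_residueConj σ A : k(A) ≃+* k(σ • A)` with `pl_residueConj_residue`.
-/

set_option autoImplicit false

noncomputable section

open GaloisRep Polynomial
open scoped Pointwise

namespace Fermat.Agent.FF

local notation "Kb" => AlgebraicClosure ℚ
local notation "GK" => (AlgebraicClosure ℚ ≃ₐ[ℚ] AlgebraicClosure ℚ)
local notation "Bint" p => integralClosure (ratLocalizedAt p) Kb

attribute [local instance] Fermat.Agent.FrobExists.isAlgebraic_Qb
  Fermat.Agent.FrobExists.isAlgClosure_Qb Fermat.Agent.FrobExists.isInvariant_Zb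

variable {ℓ : ℕ}

/-! ### (b) integrality -/

/-- An integer prime to `ℓ` has valuation `1` at a valuation subring over `ℓ`. -/
theorem pl_valuation_natCast (A : ValuationSubring Kb) (hA : A.LiesOverPrime ℓ) {n : ℕ}
    (hn : n.Coprime ℓ) : A.valuation (n : Kb) = 1 := by
  have hℓv : A.valuation (ℓ : Kb) < 1 := hA
  have hle : A.valuation (n : Kb) ≤ 1 := (A.valuation_le_one_iff _).2 (natCast_mem A n)
  rcases lt_or_eq_of_le hle with hlt | heq
  · exfalso
    have hcop' : IsCoprime (ℓ : ℤ) (n : ℤ) := Nat.isCoprime_iff_coprime.mpr hn.symm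
    obtain ⟨a, b, hab⟩ := hcop'
    have h1 : ((a : Kb)) * (ℓ : Kb) + (b : Kb) * (n : Kb) = 1 := by
      have := congrArg (Int.cast : ℤ → Kb) hab
      push_cast at this
      exact this
    have ha : A.valuation (a : Kb) ≤ 1 := (A.valuation_le_one_iff _).2 (intCast_mem A a)
    have hb : A.valuation (b : Kb) ≤ 1 := (A.valuation_le_one_iff _).2 (intCast_mem A b)
    have h2 : A.valuation ((a : Kb) * (ℓ : Kb) + (b : Kb) * (n : Kb)) < 1 := by
      apply Valuation.map_add_lt
      · rw [map_mul]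
        exact lt_of_le_of_lt (mul_le_of_le_one_left' ha) hℓv
      · rw [map_mul]
        exact lt_of_le_of_lt (mul_le_of_le_one_left' hb) hlt
    rw [h1, map_one] at h2
    exact lt_irrefl _ h2
  · exact heq

/-- the valuation of a rational number in terms of numerator and denominator. -/
theorem pl_valuation_rat (A : ValuationSubring Kb) (q : ℚ) :
    A.valuation (algebraMap ℚ Kb q) =
      A.valuation ((q.num : ℤ) : Kb) / A.valuation ((q.den : ℕ) : Kb) := by
  conv_lhs => rw [← Rat.num_div_den q]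
  rw [map_div₀, map_intCast, map_natCast, map_div₀]

/-- `ℤ_(ℓ) ⊆ A` for every valuation subring `A` over `ℓ`. -/
theorem pl_ratLoc_mem (A : ValuationSubring Kb) (hA : A.LiesOverPrime ℓ) {q : ℚ}
    (hq : q ∈ ratLocalizedAt ℓ) : algebraMap ℚ Kb q ∈ A := by
  rw [← A.valuation_le_one_iff, pl_valuation_rat, pl_valuation_natCast A hA hq, div_one]
  exact (A.valuation_le_one_iff _).2 (intCast_mem A _)

/-- `A ∩ ℚ ⊆ ℤ_(ℓ)` for every valuation subring `A` over the prime `ℓ`. -/
theorem pl_mem_ratLoc_of_mem (hℓ : ℓ.Prime) (A : ValuationSubring Kb) (hA : A.LiesOverPrime ℓ)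
    {q : ℚ} (hq : algebraMap ℚ Kb q ∈ A) : q ∈ ratLocalizedAt ℓ := by
  show q.den.Coprime ℓ
  by_contra hcon
  have hdvd : ℓ ∣ q.den := by
    by_contra h
    exact hcon ((Nat.Prime.coprime_iff_not_dvd hℓ).mpr h).symm
  have hnum : q.num.natAbs.Coprime ℓ := by
    have h1 : q.num.natAbs.Coprime q.den := q.reduced
    exact Nat.Coprime.coprime_dvd_right hdvd h1
  have hv1 : A.valuation ((q.num : ℤ) : Kb) = 1 := by
    have h2 := pl_valuation_natCast A hA hnum
    rcases Int.natAbs_eq q.num with h | h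
    · have h3 : ((q.num : ℤ) : Kb) = ((q.num.natAbs : ℕ) : Kb) := by
        conv_lhs => rw [h]
        rw [Int.cast_natCast]
      rw [h3]
      exact h2
    · have h3 : ((q.num : ℤ) : Kb) = -((q.num.natAbs : ℕ) : Kb) := by
        conv_lhs => rw [h]
        rw [Int.cast_neg, Int.cast_natCast]
      rw [h3, Valuation.map_neg]
      exact h2
  have hv2 : A.valuation ((q.den : ℕ) : Kb) < 1 := by
    obtain ⟨m, hm⟩ := hdvd
    rw [hm]
    push_cast
    rw [map_mul]
    have hℓv : A.valuation (ℓ : Kb) < 1 := hA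
    have hmv : A.valuation (m : Kb) ≤ 1 := (A.valuation_le_one_iff _).2 (natCast_mem A m)
    exact lt_of_le_of_lt (mul_le_of_le_one_right' hmv) hℓv
  have hv3 : A.valuation ((q.den : ℕ) : Kb) ≠ 0 := by
    rw [Valuation.ne_zero_iff]
    exact_mod_cast q.den_ne_zero
  have hq' := (A.valuation_le_one_iff _).2 hq
  rw [pl_valuation_rat, hv1, div_le_iff₀ (zero_lt_iff.mpr hv3), one_mul] at hq'
  exact absurd hv2 (not_lt.mpr hq')

/-- `A ∩ ℚ = ℤ_(ℓ)`. -/
theorem pl_mem_ratLoc_iff (hℓ : ℓ.Prime) (A : ValuationSubring Kb) (hA : A.LiesOverPrime ℓ)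
    (q : ℚ) : q ∈ ratLocalizedAt ℓ ↔ algebraMap ℚ Kb q ∈ A :=
  ⟨pl_ratLoc_mem A hA, pl_mem_ratLoc_of_mem hℓ A hA⟩

/-- the inclusion `ℤ_(ℓ) → A`. -/
def pl_incl (A : ValuationSubring Kb) (hA : A.LiesOverPrime ℓ) : ratLocalizedAt ℓ →+* A where
  toFun q := ⟨algebraMap ℚ Kb (q : ℚ), pl_ratLoc_mem A hA q.2⟩
  map_one' := Subtype.ext (by simp)
  map_mul' x y := Subtype.ext (by simp)
  map_zero' := Subtype.ext (by simp)
  map_add' x y := Subtype.ext (by simp)

/-- **(b)** an element integral over `ℤ_(ℓ)` lies in every valuation subring over `ℓ`. -/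
theorem pl_mem_of_isIntegral (A : ValuationSubring Kb) (hA : A.LiesOverPrime ℓ) {x : Kb}
    (hx : IsIntegral (ratLocalizedAt ℓ) x) : x ∈ A := by
  obtain ⟨p, hp, hpx⟩ := hx
  have h1 : IsIntegral A x := by
    refine ⟨p.map (pl_incl A hA), hp.map _, ?_⟩
    rw [eval₂_map]
    exact hpx
  obtain ⟨y, hy⟩ := (IsIntegrallyClosed.isIntegral_iff (R := A) (K := Kb)).mp h1
  rw [← hy]
  exact y.2

/-- **(b)** if all conjugates of `x` lie in ONE valuation subring `A₀` over `ℓ`, then `x` is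
integral over `ℤ_(ℓ)`. -/
theorem pl_isIntegral_of_forall_conj (hℓ : ℓ.Prime) (A₀ : ValuationSubring Kb)
    (hA : A₀.LiesOverPrime ℓ) {x : Kb} (h : ∀ σ : GK, σ x ∈ A₀) :
    IsIntegral (ratLocalizedAt ℓ) x := by
  classical
  have hxint : IsIntegral ℚ x := Algebra.IsIntegral.isIntegral x
  set p : ℚ[X] := minpoly ℚ x with hp
  have hpm : p.Monic := minpoly.monic hxint
  have hsplit : (p.map (algebraMap ℚ Kb)).Splits := IsAlgClosed.splits _
  have hprod := hsplit.eq_prod_roots_of_monic (hpm.map _)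
  -- the roots are conjugates of `x`, hence in `A₀`
  have hroots : ∀ y ∈ (p.map (algebraMap ℚ Kb)).roots, y ∈ A₀ := by
    intro y hy
    have h1 : IsConjRoot ℚ x y := (isConjRoot_iff_mem_minpoly_aroots hxint).mpr hy
    obtain ⟨σ, hσ⟩ := h1.exists_algEquiv
    have h2 : y = σ⁻¹ x := by
      rw [← hσ]
      exact (σ.symm_apply_apply y).symm
    rw [h2]
    exact h σ⁻¹
  -- so the polynomial lifts to `A₀`
  have hlift : p.map (algebraMap ℚ Kb) ∈ lifts A₀.subtype := by
    rw [hprod]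
    refine Subsemiring.multiset_prod_mem _ _ ?_
    intro f hf
    obtain ⟨y, hy, rfl⟩ := Multiset.mem_map.mp hf
    rw [mem_lifts]
    refine ⟨X - C ⟨y, hroots y hy⟩, ?_⟩
    simp
  -- hence its coefficients are in `ℤ_(ℓ)`
  have hcoeff : ∀ n, p.coeff n ∈ ratLocalizedAt ℓ := by
    intro n
    apply pl_mem_ratLoc_of_mem hℓ A₀ hA
    obtain ⟨a, ha⟩ := (lifts_iff_coeff_lifts _).mp hlift n
    rw [coeff_map] at ha
    rw [← ha]
    exact a.2
  have hlift' : p ∈ lifts (ratLocalizedAt ℓ).subtype := by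
    rw [lifts_iff_coeff_lifts]
    intro n
    exact ⟨⟨p.coeff n, hcoeff n⟩, rfl⟩
  obtain ⟨q, hq, -, hqm⟩ := lifts_and_natDegree_eq_and_monic hlift' hpm
  refine ⟨q, hqm, ?_⟩
  have h3 : eval₂ (algebraMap (ratLocalizedAt ℓ) Kb) x q =
      eval₂ (algebraMap ℚ Kb) x (q.map (ratLocalizedAt ℓ).subtype) := by
    rw [eval₂_map]
    rfl
  rw [h3, hq]
  exact minpoly.aeval ℚ x

/-- conjugates of integral elements are integral. -/
theorem pl_isIntegral_conj {x : Kb} (hx : IsIntegral (ratLocalizedAt ℓ) x) (σ : GK) :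
    IsIntegral (ratLocalizedAt ℓ) (σ x) := by
  obtain ⟨p, hp, hpx⟩ := hx
  refine ⟨p, hp, ?_⟩
  have h1 : eval₂ (algebraMap (ratLocalizedAt ℓ) Kb) (σ x) p =
      σ (eval₂ (algebraMap (ratLocalizedAt ℓ) Kb) x p) := by
    rw [eval₂_eq_sum, eval₂_eq_sum, Polynomial.sum, Polynomial.sum, map_sum]
    refine Finset.sum_congr rfl fun n _ => ?_
    rw [map_mul, map_pow]
    congr 1
    exact (σ.commutes _).symm
  rw [h1, hpx, map_zero]

/-- **(b)** `x ∈ Bint` iff all conjugates of `x` lie in `A₀`. -/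
theorem pl_isIntegral_iff_forall_conj (hℓ : ℓ.Prime) (A₀ : ValuationSubring Kb)
    (hA : A₀.LiesOverPrime ℓ) (x : Kb) :
    IsIntegral (ratLocalizedAt ℓ) x ↔ ∀ σ : GK, σ x ∈ A₀ :=
  ⟨fun hx σ => pl_mem_of_isIntegral A₀ hA (pl_isIntegral_conj hx σ),
    pl_isIntegral_of_forall_conj hℓ A₀ hA⟩

/-- a conjugate of a valuation subring over `ℓ` lies over `ℓ`. -/
theorem pl_liesOver_smul (A : ValuationSubring Kb) (hA : A.LiesOverPrime ℓ) (σ : GK) :
    (σ • A).LiesOverPrime ℓ := by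
  show (ℓ : Kb) ∈ (σ • A).nonunits
  have h1 : (ℓ : Kb) ∈ A.nonunits := hA
  rw [ValuationSubring.mem_nonunits_iff_or] at h1 ⊢
  rcases h1 with h1 | h1
  · exact Or.inl h1
  · right
    intro hcon
    apply h1
    rw [ValuationSubring.mem_pointwise_smul_iff_inv_smul_mem] at hcon
    have h2 : σ⁻¹ • ((ℓ : Kb))⁻¹ = ((ℓ : Kb))⁻¹ := by
      show σ⁻¹ ((ℓ : Kb))⁻¹ = _
      rw [map_inv₀, map_natCast]
    rwa [h2] at hcon

/-- **(b)** `x ∈ Bint` iff `x` lies in every valuation subring over `ℓ`. -/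
theorem pl_isIntegral_iff_forall_mem (hℓ : ℓ.Prime) (x : Kb) :
    IsIntegral (ratLocalizedAt ℓ) x ↔
      ∀ A : ValuationSubring Kb, A.LiesOverPrime ℓ → x ∈ A := by
  constructor
  · intro hx A hA
    exact pl_mem_of_isIntegral A hA hx
  · intro h
    obtain ⟨A₀, hA₀⟩ := Fermat.Agent.FrobExists.exists_valuationSubring_liesOver ℓ hℓ
    apply pl_isIntegral_of_forall_conj hℓ A₀ hA₀
    intro σ
    have h1 := h (σ⁻¹ • A₀) (pl_liesOver_smul A₀ hA₀ σ⁻¹)
    rw [ValuationSubring.mem_pointwise_smul_iff_inv_smul_mem, inv_inv] at h1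
    exact h1

/-- the exact form wanted by the assembly (seat F). -/
theorem mem_of_isIntegral_of_liesOverPrime {p : ℕ} [Fact p.Prime] (A : ValuationSubring Kb)
    (hA : A.LiesOverPrime p) {x : Kb} (hx : IsIntegral (ratLocalizedAt p) x) : x ∈ A :=
  pl_mem_of_isIntegral A hA hx

/-! ### units -/

theorem pl_mul_mem_nonunits (A : ValuationSubring Kb) {x y : Kb} (hx : x ∈ A.nonunits)
    (hy : y ∈ A) : x * y ∈ A.nonunits := by
  rw [ValuationSubring.mem_nonunits_iff] at hx ⊢
  rw [map_mul]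
  exact lt_of_le_of_lt (mul_le_of_le_one_right' ((A.valuation_le_one_iff _).2 hy)) hx

/-- **(b), units**: `u ∈ Bint` is a unit iff no conjugate of `u` is a nonunit of `A₀`. -/
theorem pl_isUnit_iff_forall_conj (hℓ : ℓ.Prime) (A₀ : ValuationSubring Kb)
    (hA : A₀.LiesOverPrime ℓ) (u : Bint ℓ) :
    IsUnit u ↔ ∀ σ : GK, σ (u : Kb) ∉ A₀.nonunits := by
  constructor
  · rintro ⟨⟨u, v, huv, hvu⟩, rfl⟩ σ hcon
    have h1 : (u : Kb) * (v : Kb) = 1 := congrArg Subtype.val huv
    have h2 : σ (u : Kb) * σ (v : Kb) = 1 := by rw [← map_mul, h1, map_one]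
    have hv : σ (v : Kb) ∈ A₀ := pl_mem_of_isIntegral A₀ hA (pl_isIntegral_conj v.2 σ)
    have h3 := pl_mul_mem_nonunits A₀ hcon hv
    rw [h2, ValuationSubring.mem_nonunits_iff, map_one] at h3
    exact lt_irrefl _ h3
  · intro h
    have hu0 : (u : Kb) ≠ 0 := by
      intro h0
      apply h 1
      show (1 : GK) (u : Kb) ∈ A₀.nonunits
      rw [h0]
      exact A₀.nonunits.zero_mem
    have hinv : IsIntegral (ratLocalizedAt ℓ) (u : Kb)⁻¹ := by
      apply pl_isIntegral_of_forall_conj hℓ A₀ hA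
      intro σ
      have h1 := h σ
      rw [ValuationSubring.mem_nonunits_iff_or, not_or, not_not] at h1
      rw [map_inv₀]
      exact h1.2
    refine ⟨⟨u, ⟨(u : Kb)⁻¹, hinv⟩, ?_, ?_⟩, rfl⟩
    · exact Subtype.ext (mul_inv_cancel₀ hu0)
    · exact Subtype.ext (inv_mul_cancel₀ hu0)

/-! ### (a) transitivity -/

open Fermat.Agent.FrobExists in
/-- A valuation subring of `ℚ̄` is determined by its centre on the algebraic integers. -/
theorem pl_le_of_centre_eq {A A' : ValuationSubring Kb} (h : centre A = centre A') :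
    A ≤ A' := by
  intro x hx
  obtain ⟨s, hs, hsu, hsx⟩ := exists_integral_mul A x hx
  have hs' : s ∉ A'.nonunits := by
    intro hcon
    apply hsu
    have h1 : (⟨s, hs⟩ : Zb) ∈ centre A' := (mem_centre_iff A' _).mpr hcon
    rw [← h] at h1
    exact (mem_centre_iff A _).mp h1
  rw [ValuationSubring.mem_nonunits_iff_or, not_or, not_not] at hs'
  have hsx' : s * x ∈ A' := mem_valuationSubring_of_isIntegral A' hsx
  have e : x = s⁻¹ * (s * x) := by
    rw [← mul_assoc, inv_mul_cancel₀ hs'.1, one_mul]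
  rw [e]
  exact A'.mul_mem _ _ hs'.2 hsx'

open Fermat.Agent.FrobExists in
theorem pl_eq_of_centre_eq {A A' : ValuationSubring Kb} (h : centre A = centre A') : A = A' :=
  le_antisymm (pl_le_of_centre_eq h) (pl_le_of_centre_eq h.symm)

/-- nonunits of a conjugate. -/
theorem pl_mem_nonunits_smul_iff (σ : GK) (A : ValuationSubring Kb) (x : Kb) :
    x ∈ (σ • A).nonunits ↔ σ⁻¹ x ∈ A.nonunits := by
  rw [ValuationSubring.mem_nonunits_iff_or, ValuationSubring.mem_nonunits_iff_or,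
    ValuationSubring.mem_pointwise_smul_iff_inv_smul_mem]
  have h1 : σ⁻¹ • x⁻¹ = (σ⁻¹ x)⁻¹ := by
    show σ⁻¹ x⁻¹ = _
    rw [map_inv₀]
  rw [h1]
  have h2 : σ⁻¹ x = 0 ↔ x = 0 := map_eq_zero_iff _ (σ⁻¹ : GK).injective
  rw [h2]

open Fermat.Agent.FrobExists in
/-- The centre of a conjugate. -/
theorem pl_centre_smul (g : GK) (A : ValuationSubring Kb) :
    centre (g • A) = g • centre A := by
  ext b
  rw [Ideal.mem_pointwise_smul_iff_inv_smul_mem, mem_centre_iff, mem_centre_iff,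
    pl_mem_nonunits_smul_iff]
  rfl

/-- an integer is a nonunit of a valuation subring over `ℓ` iff it is divisible by `ℓ`. -/
theorem pl_intCast_mem_nonunits_iff (hℓ : ℓ.Prime) (A : ValuationSubring Kb)
    (hA : A.LiesOverPrime ℓ) (n : ℤ) : ((n : ℤ) : Kb) ∈ A.nonunits ↔ (ℓ : ℤ) ∣ n := by
  constructor
  · intro h
    by_contra hcon
    have hcop : n.natAbs.Coprime ℓ := by
      rw [Nat.coprime_comm, Nat.Prime.coprime_iff_not_dvd hℓ]
      intro h1
      exact hcon (Int.natCast_dvd.mpr h1)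
    have h2 := pl_valuation_natCast A hA hcop
    rw [ValuationSubring.mem_nonunits_iff] at h
    rcases Int.natAbs_eq n with h3 | h3
    · have h4 : ((n : ℤ) : Kb) = ((n.natAbs : ℕ) : Kb) := by
        conv_lhs => rw [h3]
        rw [Int.cast_natCast]
      rw [h4, h2] at h
      exact lt_irrefl _ h
    · have h4 : ((n : ℤ) : Kb) = -((n.natAbs : ℕ) : Kb) := by
        conv_lhs => rw [h3]
        rw [Int.cast_neg, Int.cast_natCast]
      rw [h4, Valuation.map_neg, h2] at h
      exact lt_irrefl _ h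
  · rintro ⟨m, rfl⟩
    have hℓ' : (ℓ : Kb) ∈ A.nonunits := hA
    have h1 := pl_mul_mem_nonunits A hℓ' (intCast_mem A m)
    push_cast
    exact h1

open Fermat.Agent.FrobExists in
/-- **(a) Transitivity**: `G_ℚ` acts transitively on the valuation subrings of `ℚ̄` over `ℓ`. -/
theorem pl_exists_smul_eq (hℓ : ℓ.Prime) (A A' : ValuationSubring Kb)
    (hA : A.LiesOverPrime ℓ) (hA' : A'.LiesOverPrime ℓ) : ∃ σ : GK, σ • A = A' := by
  let _ : TopologicalSpace Zb := ⊥
  have : DiscreteTopology Zb := ⟨rfl⟩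
  have := continuousSMul_Zb
  have hunder : (centre A).under ℤ = (centre A').under ℤ := by
    ext n
    rw [Ideal.mem_comap, Ideal.mem_comap, mem_centre_iff, mem_centre_iff]
    have h1 : ((algebraMap ℤ Zb n : Zb) : Kb) = ((n : ℤ) : Kb) := by
      simp
    rw [h1, pl_intCast_mem_nonunits_iff hℓ A hA, pl_intCast_mem_nonunits_iff hℓ A' hA']
  obtain ⟨g, hg⟩ := Algebra.IsInvariant.exists_smul_of_under_eq_of_profinite
    (A := ℤ) (G := GK) (centre A) (centre A') hunder
  refine ⟨g, ?_⟩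
  apply pl_eq_of_centre_eq
  rw [pl_centre_smul]
  exact hg.symm

/-- the exact form wanted by the assembly (seat F). -/
theorem exists_smul_eq_of_liesOverPrime {p : ℕ} [hp : Fact p.Prime] (A A' : ValuationSubring Kb)
    (hA : A.LiesOverPrime p) (hA' : A'.LiesOverPrime p) : ∃ σ : GK, σ • A = A' :=
  pl_exists_smul_eq hp.out A A' hA hA'

/-! ### (c) maximal ideals of `Bint` -/

/-- `ℓ` lies in every maximal ideal of `Bint`. -/
theorem pl_prime_mem_of_isMaximal [Fact ℓ.Prime] (M : Ideal (Bint ℓ)) [hM : M.IsMaximal] :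
    (ℓ : Bint ℓ) ∈ M := by
  have h1 : (M.comap (algebraMap (ratLocalizedAt ℓ) (Bint ℓ))).IsMaximal :=
    Ideal.isMaximal_comap_of_isIntegral_of_isMaximal (R := ratLocalizedAt ℓ) M
  have h2 := IsLocalRing.eq_maximalIdeal h1
  have h3 : (ℓ : ratLocalizedAt ℓ) ∈ IsLocalRing.maximalIdeal (ratLocalizedAt ℓ) := by
    rw [IsLocalRing.mem_maximalIdeal]
    exact (Fermat.Agent.FlatMod.ratLoc_irreducible_p (p := ℓ)).not_isUnit
  rw [← h2, Ideal.mem_comap] at h3
  simpa using h3

/-- **(c)** every maximal ideal of `Bint` is the centre of a valuation subring over `ℓ`. -/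
theorem pl_exists_of_isMaximal [Fact ℓ.Prime] (M : Ideal (Bint ℓ)) [hM : M.IsMaximal] :
    ∃ A : ValuationSubring Kb, A.LiesOverPrime ℓ ∧
      ∀ x : Bint ℓ, x ∈ M ↔ (x : Kb) ∈ A.nonunits := by
  obtain ⟨A, hle, hsub⟩ := Ideal.image_subset_nonunits_valuationSubring
    (A := (integralClosure (ratLocalizedAt ℓ) Kb).toSubring) M hM.ne_top
  have hmem : ∀ x : Bint ℓ, x ∈ M → (x : Kb) ∈ A.nonunits := fun x hx => hsub ⟨x, hx, rfl⟩
  refine ⟨A, ?_, fun x => ⟨hmem x, fun hx => ?_⟩⟩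
  · have h1 := hmem _ (pl_prime_mem_of_isMaximal M)
    show (ℓ : Kb) ∈ A.nonunits
    simpa using h1
  · -- the nonunits of `A` in `Bint` form a proper ideal containing `M`
    let φ : (Bint ℓ) →+* A :=
      { toFun := fun y => ⟨(y : Kb), hle y.2⟩
        map_one' := rfl
        map_mul' := fun _ _ => rfl
        map_zero' := rfl
        map_add' := fun _ _ => rfl }
    have hN : M ≤ Ideal.comap φ (IsLocalRing.maximalIdeal A) := by
      intro y hy
      rw [Ideal.mem_comap, ← ValuationSubring.coe_mem_nonunits_iff]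
      exact hmem y hy
    have hNtop : Ideal.comap φ (IsLocalRing.maximalIdeal A) ≠ ⊤ :=
      Ideal.comap_ne_top _ (IsLocalRing.maximalIdeal.isMaximal A).ne_top
    have hMN := hM.eq_of_le hNtop hN
    rw [hMN, Ideal.mem_comap, ← ValuationSubring.coe_mem_nonunits_iff]
    exact hx

/-! ### (d) residue fields of conjugate valuation subrings -/

/-- `σ` maps `A` isomorphically onto `σ • A`. -/
def pl_conjEquiv (σ : GK) (A : ValuationSubring Kb) : A ≃+* ↥(σ • A) where
  toFun a := ⟨σ a, by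
    rw [ValuationSubring.mem_pointwise_smul_iff_inv_smul_mem]
    show σ⁻¹ (σ (a : Kb)) ∈ A
    have : σ⁻¹ (σ (a : Kb)) = a := σ.symm_apply_apply _
    rw [this]
    exact a.2⟩
  invFun b := ⟨σ⁻¹ (b : Kb), by
    have := b.2
    rw [ValuationSubring.mem_pointwise_smul_iff_inv_smul_mem] at this
    exact this⟩
  left_inv a := Subtype.ext (σ.symm_apply_apply _)
  right_inv b := Subtype.ext (σ.apply_symm_apply _)
  map_mul' a b := Subtype.ext (map_mul σ _ _)
  map_add' a b := Subtype.ext (map_add σ _ _)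

@[simp] theorem pl_coe_conjEquiv (σ : GK) (A : ValuationSubring Kb) (a : A) :
    ((pl_conjEquiv σ A a : ↥(σ • A)) : Kb) = σ (a : Kb) := rfl

/-- **(d)** the isomorphism of residue fields `k(A) ≃ k(σ • A)` induced by `σ`. -/
def residueEquivSMul (σ : GK) (A : ValuationSubring Kb) :
    IsLocalRing.ResidueField A ≃+* IsLocalRing.ResidueField ↥(σ • A) :=
  IsLocalRing.ResidueField.mapEquiv (pl_conjEquiv σ A)

theorem residueEquivSMul_residue (σ : GK) (A : ValuationSubring Kb) (a : Kb) (ha : a ∈ A)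
    (ha' : σ a ∈ σ • A) :
    residueEquivSMul σ A (IsLocalRing.residue A ⟨a, ha⟩) =
      IsLocalRing.residue ↥(σ • A) ⟨σ a, ha'⟩ := by
  unfold residueEquivSMul
  rw [IsLocalRing.ResidueField.mapEquiv_apply, IsLocalRing.ResidueField.map_residue]
  rfl

end Fermat.Agent.FF
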