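import Mathlib

/-!
# FF / S19, route R-G, seat K: Khuri-Makdisi addition in coordinates — definitions (helper2)

`KMData R n₁ n₂ n₄ rx ry e₁ e₂` is the coordinate data of one Khuri-Makdisi addition step over a
commutative ring `R`:

* `m₁` : structure constants of the multiplication `V1 × V1 → V2`
  (`b¹ i * b¹ j = ∑ k, m₁ i j k • b² k`),
* `m₂` : structure constants of `V2 × V2 → V4`,
* `Γx`, `Γy` : matrices whose columns generate `W_x`, `W_y ⊆ V1`,
* `E₁` : matrix whose columns generate `L(T - E) ⊆ V1`,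
* `E₂` : matrix whose columns generate `X = L(2T - E) ⊆ V2`.

The pointwise Khuri-Makdisi result is defined choice-free (submodules of `Fin n → R`):

* `d.u α = Γx_{α.1} * Γy_{α.2}`                                             (S1)
* `d.cross = {z : α ↦ z α ∈ X | z α * u β = z β * u α}`                      (S2)
* `d.Y = span {z α | z ∈ d.cross}`                                          (S3)
* `d.W₃ = {s | ∀ i, s * (E₁)_i ∈ d.Y}`                                      (S4)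

`KMGood d ρ I₀` (over a field) collects the pointwise rank statements to be proved by
Riemann-Roch: `dim cross = 1`, `dim Y = ρ`, `dim W₃ = r₃`, and the chart condition
(`W₃` meets the coordinate subspace `{s | s ∘ I₀ = 0}` trivially).
-/

set_option autoImplicit false

open Matrix

namespace Fermat.Agent.KMRing

/-- coordinate data of one Khuri-Makdisi addition step. -/
structure KMData (R : Type*) (n₁ n₂ n₄ rx ry e₁ e₂ : ℕ) where
  /-- structure constants of `V1 × V1 → V2` -/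
  m₁ : Fin n₁ → Fin n₁ → Fin n₂ → R
  /-- structure constants of `V2 × V2 → V4` -/
  m₂ : Fin n₂ → Fin n₂ → Fin n₄ → R
  /-- columns generate `W_x ⊆ V1` -/
  Γx : Matrix (Fin n₁) (Fin rx) R
  /-- columns generate `W_y ⊆ V1` -/
  Γy : Matrix (Fin n₁) (Fin ry) R
  /-- columns generate `L(T - E) ⊆ V1` -/
  E₁ : Matrix (Fin n₁) (Fin e₁) R
  /-- columns generate `X = L(2T - E) ⊆ V2` -/
  E₂ : Matrix (Fin n₂) (Fin e₂) R

variable {R : Type*} {S : Type*} {n₁ n₂ n₄ rx ry e₁ e₂ : ℕ}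

namespace KMData

/-- base change of the data. -/
def map [CommRing R] [CommRing S] (d : KMData R n₁ n₂ n₄ rx ry e₁ e₂) (f : R →+* S) :
    KMData S n₁ n₂ n₄ rx ry e₁ e₂ where
  m₁ := fun i j k => f (d.m₁ i j k)
  m₂ := fun i j k => f (d.m₂ i j k)
  Γx := d.Γx.map f
  Γy := d.Γy.map f
  E₁ := d.E₁.map f
  E₂ := d.E₂.map f

variable [CommRing R] (d : KMData R n₁ n₂ n₄ rx ry e₁ e₂)

/-- the multiplication `V1 × V1 → V2` in coordinates. -/
def mul₁ (v w : Fin n₁ → R) : Fin n₂ → R := fun k => ∑ i, ∑ j, d.m₁ i j k * v i * w j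

/-- the multiplication `V2 × V2 → V4` in coordinates. -/
def mul₂ (v w : Fin n₂ → R) : Fin n₄ → R := fun k => ∑ i, ∑ j, d.m₂ i j k * v i * w j

theorem mul₁_apply (v w : Fin n₁ → R) (k : Fin n₂) :
    d.mul₁ v w k = ∑ i, ∑ j, d.m₁ i j k * v i * w j := rfl

theorem mul₂_apply (v w : Fin n₂ → R) (k : Fin n₄) :
    d.mul₂ v w k = ∑ i, ∑ j, d.m₂ i j k * v i * w j := rfl

theorem mul₁_add_left (v v' w : Fin n₁ → R) : d.mul₁ (v + v') w = d.mul₁ v w + d.mul₁ v' w := by
  ext k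
  simp only [mul₁_apply, Pi.add_apply, ← Finset.sum_add_distrib]
  refine Finset.sum_congr rfl fun i _ => Finset.sum_congr rfl fun j _ => ?_
  ring

theorem mul₁_smul_left (c : R) (v w : Fin n₁ → R) : d.mul₁ (c • v) w = c • d.mul₁ v w := by
  ext k
  simp only [mul₁_apply, Pi.smul_apply, smul_eq_mul, Finset.mul_sum]
  refine Finset.sum_congr rfl fun i _ => Finset.sum_congr rfl fun j _ => ?_
  ring

theorem mul₁_zero_left (w : Fin n₁ → R) : d.mul₁ 0 w = 0 := by
  ext k
  simp [mul₁_apply]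

theorem mul₂_add_left (v v' w : Fin n₂ → R) : d.mul₂ (v + v') w = d.mul₂ v w + d.mul₂ v' w := by
  ext k
  simp only [mul₂_apply, Pi.add_apply, ← Finset.sum_add_distrib]
  refine Finset.sum_congr rfl fun i _ => Finset.sum_congr rfl fun j _ => ?_
  ring

theorem mul₂_smul_left (c : R) (v w : Fin n₂ → R) : d.mul₂ (c • v) w = c • d.mul₂ v w := by
  ext k
  simp only [mul₂_apply, Pi.smul_apply, smul_eq_mul, Finset.mul_sum]
  refine Finset.sum_congr rfl fun i _ => Finset.sum_congr rfl fun j _ => ?_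
  ring

theorem mul₂_zero_left (w : Fin n₂ → R) : d.mul₂ 0 w = 0 := by
  ext k
  simp [mul₂_apply]

/-- (S1) the generators `u α = Γx_{α.1} * Γy_{α.2}` of `U = W_x · W_y ⊆ V2`. -/
def u (α : Fin rx × Fin ry) : Fin n₂ → R :=
  d.mul₁ (fun i => d.Γx i α.1) (fun i => d.Γy i α.2)

/-- `X = L(2T - E) ⊆ V2`: the column space of `E₂`. -/
def X : Submodule R (Fin n₂ → R) := LinearMap.range d.E₂.mulVecLin

/-- (S2) the cross space `Hm = {z ∈ X^A | z α * u β = z β * u α}`. -/
def cross : Submodule R (Fin rx × Fin ry → Fin n₂ → R) where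
  carrier := {z | (∀ α, z α ∈ d.X) ∧ ∀ α β, d.mul₂ (z α) (d.u β) = d.mul₂ (z β) (d.u α)}
  zero_mem' := by
    refine ⟨fun α => d.X.zero_mem, fun α β => ?_⟩
    simp only [Pi.zero_apply, mul₂_zero_left]
  add_mem' := by
    rintro z z' ⟨hz, hzz⟩ ⟨hz', hzz'⟩
    refine ⟨fun α => d.X.add_mem (hz α) (hz' α), fun α β => ?_⟩
    simp only [Pi.add_apply, mul₂_add_left, hzz α β, hzz' α β]
  smul_mem' := by
    rintro c z ⟨hz, hzz⟩
    refine ⟨fun α => d.X.smul_mem c (hz α), fun α β => ?_⟩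
    simp only [Pi.smul_apply, mul₂_smul_left, hzz α β]

theorem mem_cross {z : Fin rx × Fin ry → Fin n₂ → R} :
    z ∈ d.cross ↔ (∀ α, z α ∈ d.X) ∧ ∀ α β, d.mul₂ (z α) (d.u β) = d.mul₂ (z β) (d.u α) :=
  Iff.rfl

/-- (S3) `Y = span {z α | z ∈ Hm}`. -/
def Y : Submodule R (Fin n₂ → R) :=
  Submodule.span R {v | ∃ z ∈ d.cross, ∃ α, v = z α}

/-- (S4) the Khuri-Makdisi result `W₃ = {s ∈ V1 | s * L(T - E) ⊆ Y}`
(tested on the columns of `E₁`). -/
def W₃ : Submodule R (Fin n₁ → R) where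
  carrier := {s | ∀ i, d.mul₁ s (fun b => d.E₁ b i) ∈ d.Y}
  zero_mem' := by
    intro i
    simp only [mul₁_zero_left]
    exact d.Y.zero_mem
  add_mem' := by
    intro s s' hs hs' i
    rw [mul₁_add_left]
    exact d.Y.add_mem (hs i) (hs' i)
  smul_mem' := by
    intro c s hs i
    rw [mul₁_smul_left]
    exact d.Y.smul_mem c (hs i)

theorem mem_W₃ {s : Fin n₁ → R} : s ∈ d.W₃ ↔ ∀ i, d.mul₁ s (fun b => d.E₁ b i) ∈ d.Y :=
  Iff.rfl

end KMData

/-- the pointwise rank statements of one Khuri-Makdisi step over a field: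
`dim Hm = 1`, `dim Y = ρ`, `dim W₃ = r₃`, and `W₃ ∩ {s | s ∘ I₀ = 0} = 0`. -/
structure KMGood {K : Type*} [Field K] (d : KMData K n₁ n₂ n₄ rx ry e₁ e₂) (ρ : ℕ) {r₃ : ℕ}
    (I₀ : Fin r₃ → Fin n₁) : Prop where
  finrank_cross : Module.finrank K d.cross = 1
  finrank_Y : Module.finrank K d.Y = ρ
  finrank_W₃ : Module.finrank K d.W₃ = r₃
  chart : ∀ s ∈ d.W₃, (∀ i, s (I₀ i) = 0) → s = 0

end Fermat.Agent.KMRing
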