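/-
FF / S19, route R-G, seat F (assembly, helper97): the INTERFACE between the geometric side and
the formal side.

`KMGeom` is what the geometric side (seats D1, D2, FIB, GAL, C') has to deliver for the finite
Galois module `W = J₀(M)[ℓ^k]`:

* an index set `T = ∀ i, Fib i` of tuples of places (in `Lib/FlatMod/OrderDatum.lean`,
  `isFlat_of_coords_towers`, the sets `Fib i` carry the separating functions `t i`, `s i`);
* Galois-invariant integral structure constants `m₁`, `m₂`;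
* for every tuple `τ` and every `w ∈ W` the echelon matrix `Γ τ w` of `L(T - D_w^τ)`, and the
  matrix `X τ` of a basis of `L(2T - E_τ)` with an integral left inverse `Lx τ`;
* integrality, equivariance, separation;
* the pointwise Khuri-Makdisi statements `KMGood` over `ℚ̄` (at every pair of points) and over the
  residue field of ONE valuation ring `A₀` over `p` (for every integral model of the data).
-/
import Mathlib
import Fermat.Prelude.Def_FLTPrelim_Ramification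
import Fermat.Prelude.Def_GaloisRep_Flat
import Fermat.Agent.Lib.FF.KMRingDefs

set_option autoImplicit false

noncomputable section

namespace Fermat.Agent.FF

open GaloisRep Fermat.Agent.KMRing

local notation "Kb" => AlgebraicClosure ℚ
local notation "GK" => (AlgebraicClosure ℚ ≃ₐ[ℚ] AlgebraicClosure ℚ)

/-- the Khuri-Makdisi data at a pair of points `(x, y)` for the tuple `τ`:
`Γx = Γ x`, `Γy = Γ y`, `E₁ = Γ 0` (the divisor of `0` is `E_τ` itself), `E₂ = X`. -/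
def kmDataAt {W : Type} [AddCommGroup W] {n₁ n₂ n₄ r e₂ : ℕ}
    (m₁ : Fin n₁ → Fin n₁ → Fin n₂ → Kb) (m₂ : Fin n₂ → Fin n₂ → Fin n₄ → Kb)
    (Γ : W → Matrix (Fin n₁) (Fin r) Kb) (X : Matrix (Fin n₂) (Fin e₂) Kb) (x y : W) :
    KMData Kb n₁ n₂ n₄ r r r e₂ where
  m₁ := m₁
  m₂ := m₂
  Γx := Γ x
  Γy := Γ y
  E₁ := Γ 0
  E₂ := X

/-- **The geometric input of the formal assembly.** -/
structure KMGeom (p : ℕ) (W : Type) [AddCommGroup W] (act : GK → W → W)
    {n : Type} (Fib : n → Type) (perm : ∀ i, GK → Fib i → Fib i)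
    (n₁ n₂ n₄ r e₂ : ℕ) where
  /-- expected dimension of `Y = L(2T - D₃ - E)` -/
  ρ : ℕ
  /-- the pivot rows -/
  I₀ : Fin r → Fin n₁
  /-- structure constants `L(T) × L(T) → L(2T)` -/
  m₁ : Fin n₁ → Fin n₁ → Fin n₂ → Kb
  /-- structure constants `L(2T) × L(2T) → L(4T)` -/
  m₂ : Fin n₂ → Fin n₂ → Fin n₄ → Kb
  /-- echelon matrix of `L(T - D_w^τ)` -/
  Γ : (∀ i, Fib i) → W → Matrix (Fin n₁) (Fin r) Kb
  /-- basis matrix of `L(2T - E_τ)` -/
  X : (∀ i, Fib i) → Matrix (Fin n₂) (Fin e₂) Kb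
  /-- a left inverse of `X τ` -/
  Lx : (∀ i, Fib i) → Matrix (Fin e₂) (Fin n₂) Kb
  m₁_int : ∀ i j k, IsIntegral (ratLocalizedAt p) (m₁ i j k)
  m₂_int : ∀ i j k, IsIntegral (ratLocalizedAt p) (m₂ i j k)
  m₁_fix : ∀ (σ : GK) i j k, σ (m₁ i j k) = m₁ i j k
  m₂_fix : ∀ (σ : GK) i j k, σ (m₂ i j k) = m₂ i j k
  Γ_int : ∀ τ w i a, IsIntegral (ratLocalizedAt p) (Γ τ w i a)
  X_int : ∀ τ i a, IsIntegral (ratLocalizedAt p) (X τ i a)
  Lx_int : ∀ τ a i, IsIntegral (ratLocalizedAt p) (Lx τ a i)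
  Lx_mul_X : ∀ τ, Lx τ * X τ = 1
  Γ_ech : ∀ τ w, (Γ τ w).submatrix I₀ id = 1
  Γ_equiv : ∀ τ (σ : GK) w i a, Γ (fun i => perm i σ (τ i)) (act σ w) i a = σ (Γ τ w i a)
  X_equiv : ∀ τ (σ : GK) i a, X (fun i => perm i σ (τ i)) i a = σ (X τ i a)
  Lx_equiv : ∀ τ (σ : GK) a i, Lx (fun i => perm i σ (τ i)) a i = σ (Lx τ a i)
  sep : ∀ w w' : W, (∀ τ, Γ τ w = Γ τ w') → w = w'
  /-- Khuri-Makdisi over `ℚ̄`, at every pair of points -/
  good_gen : ∀ τ x y, KMGood (kmDataAt m₁ m₂ (Γ τ) (X τ) x y) ρ I₀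
  /-- the result of the Khuri-Makdisi steps is `L(T - D_(x+y)^τ)` -/
  sum_gen : ∀ τ x y,
    LinearMap.range (Γ τ (x + y)).mulVecLin = (kmDataAt m₁ m₂ (Γ τ) (X τ) x y).W₃
  /-- the ONE place -/
  A₀ : ValuationSubring Kb
  hA₀ : A₀.LiesOverPrime p
  /-- Khuri-Makdisi over the residue field of `A₀`, for every integral model of the data -/
  good_cl : ∀ τ x y (d : KMData A₀ n₁ n₂ n₄ r r r e₂),
    d.map A₀.subtype = kmDataAt m₁ m₂ (Γ τ) (X τ) x y →
      KMGood (d.map (IsLocalRing.residue A₀)) ρ I₀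

end Fermat.Agent.FF
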