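import Mathlib

/-!
# S19 / route R-G: the constant-rank package (pure algebra)   (helper2)

For a matrix `Φ` over a commutative ring `R` such that

* `MinorsVanish Φ r` : all `(r+1)`-minors of `Φ` vanish, and
* `MinorsUnit Φ r`   : the `r`-minors of `Φ` generate the unit ideal,

we construct a *generalized inverse* `Ψ` (`Φ * Ψ * Φ = Φ`), hence `range Φ` and `ker Φ` are direct
summands whose formation commutes with every base change, and whose rank at every field-valued
point is `r`.  We also give the *echelon form* of `range Φ` in a chart where the `r`-minors with a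
fixed set of rows generate the unit ideal, and the pointwise criteria for the two hypotheses.

Main statements (namespace `Fermat.Agent.FF`):
* `det_pow_mul_bordered`, `pow_smul_bordered_eq_zero` : the (scaled) bordered-minor identity;
* `exists_genInv` : `MinorsVanish Φ r → MinorsUnit Φ r → ∃ Ψ, Φ * Ψ * Φ = Φ`;
* `GenInv.*` : consequences of `Φ * Ψ * Φ = Φ` (idempotents, complements, base change);
* `exists_echelon`, `echelon_unique` : the echelon form in a chart;
* `minorsVanish_of_forall_map`, `minorsUnit_of_isIntegral` : pointwise checks;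
* `rank_map_eq` : the rank at a field-valued point.
-/

set_option autoImplicit false

open Matrix

namespace Fermat.Agent.FF

variable {R : Type*} [CommRing R]

section Bordered

variable {ι : Type*} [Fintype ι] [DecidableEq ι]

/-- **Scaled bordered-minor identity.**  For the bordered matrix `B = [[A, b], [c, d]]`:
`det (adj A) * det A * det B = (det A) ^ #ι * (det A * d - c · adj A · b)`. -/
theorem det_pow_mul_bordered (A : Matrix ι ι R) (b c : ι → R) (d : R) :
    A.adjugate.det * A.det *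
        (fromBlocks A (replicateCol (Fin 1) b) (replicateRow (Fin 1) c)
          (fun _ _ => d)).det =
      A.det ^ Fintype.card ι * (A.det * d - c ⬝ᵥ (A.adjugate *ᵥ b)) := by
  have hM1 : (fromBlocks A.adjugate (0 : Matrix ι (Fin 1) R)
      (-(replicateRow (Fin 1) c * A.adjugate)) (A.det • (1 : Matrix (Fin 1) (Fin 1) R))).det =
        A.adjugate.det * A.det := by
    rw [det_fromBlocks_zero₁₂, det_smul, det_one, mul_one, Fintype.card_fin, pow_one]
  have hprod : fromBlocks A.adjugate (0 : Matrix ι (Fin 1) R)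
      (-(replicateRow (Fin 1) c * A.adjugate)) (A.det • (1 : Matrix (Fin 1) (Fin 1) R)) *
        fromBlocks A (replicateCol (Fin 1) b) (replicateRow (Fin 1) c) (fun _ _ => d) =
      fromBlocks (A.det • (1 : Matrix ι ι R)) (A.adjugate * replicateCol (Fin 1) b) 0
        (fun _ _ => A.det * d - c ⬝ᵥ (A.adjugate *ᵥ b)) := by
    rw [fromBlocks_multiply]
    congr 1
    · rw [Matrix.zero_mul, add_zero, adjugate_mul]
    · rw [Matrix.zero_mul, add_zero]
    · rw [Matrix.neg_mul, Matrix.mul_assoc, adjugate_mul, Matrix.mul_smul, Matrix.mul_one,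
        Matrix.smul_mul, Matrix.one_mul]
      ext i j
      simp
    · ext i j
      simp only [Matrix.neg_mul, Matrix.add_apply, Matrix.neg_apply, Matrix.smul_mul,
        Matrix.one_mul, Matrix.smul_apply, smul_eq_mul]
      rw [Matrix.mul_assoc, Matrix.mul_apply]
      simp only [replicateRow_apply, dotProduct, mulVec, Matrix.mul_apply, replicateCol_apply]
      ring
  rw [← hM1, ← det_mul, hprod, det_fromBlocks_zero₂₁, det_smul, det_one, mul_one]
  congr 1
  rw [det_unique]

end Bordered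

section Minors

variable {n m : ℕ}

/-- all `(r+1)`-minors of `Φ` vanish. -/
def MinorsVanish (Φ : Matrix (Fin n) (Fin m) R) (r : ℕ) : Prop :=
  ∀ (I : Fin (r + 1) → Fin n) (J : Fin (r + 1) → Fin m), (Φ.submatrix I J).det = 0

/-- the `r`-minors of `Φ` generate the unit ideal. -/
def MinorsUnit (Φ : Matrix (Fin n) (Fin m) R) (r : ℕ) : Prop :=
  Ideal.span {d : R | ∃ (I : Fin r → Fin n) (J : Fin r → Fin m),
    d = (Φ.submatrix I J).det} = ⊤

/-- the `r`-minors of `Φ` with rows `I₀` generate the unit ideal ("chart condition"). -/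
def MinorsUnitRows (Φ : Matrix (Fin n) (Fin m) R) {r : ℕ} (I₀ : Fin r → Fin n) : Prop :=
  Ideal.span {d : R | ∃ J : Fin r → Fin m, d = (Φ.submatrix I₀ J).det} = ⊤

theorem MinorsUnitRows.minorsUnit {Φ : Matrix (Fin n) (Fin m) R} {r : ℕ} {I₀ : Fin r → Fin n}
    (h : MinorsUnitRows Φ I₀) : MinorsUnit Φ r := by
  rw [MinorsUnit, eq_top_iff, ← h]
  apply Ideal.span_mono
  rintro d ⟨J, rfl⟩
  exact ⟨I₀, J, rfl⟩

/-- the partial generalized inverse attached to the block `(I, J)`. -/
def blockInv (Φ : Matrix (Fin n) (Fin m) R) {r : ℕ} (I : Fin r → Fin n) (J : Fin r → Fin m) :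
    Matrix (Fin m) (Fin n) R :=
  (1 : Matrix (Fin m) (Fin m) R).submatrix id J * (Φ.submatrix I J).adjugate *
    (1 : Matrix (Fin n) (Fin n) R).submatrix I id

theorem mul_one_submatrix (Φ : Matrix (Fin n) (Fin m) R) {r : ℕ} (J : Fin r → Fin m) :
    Φ * (1 : Matrix (Fin m) (Fin m) R).submatrix id J = Φ.submatrix id J := by
  ext i j
  simp [Matrix.mul_apply, Matrix.one_apply]

theorem one_submatrix_mul' (Φ : Matrix (Fin n) (Fin m) R) {r : ℕ} (I : Fin r → Fin n) :
    (1 : Matrix (Fin n) (Fin n) R).submatrix I id * Φ = Φ.submatrix I id := by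
  ext i j
  simp [Matrix.mul_apply, Matrix.one_apply]

theorem mul_blockInv_mul (Φ : Matrix (Fin n) (Fin m) R) {r : ℕ} (I : Fin r → Fin n)
    (J : Fin r → Fin m) :
    Φ * blockInv Φ I J * Φ =
      Φ.submatrix id J * (Φ.submatrix I J).adjugate * Φ.submatrix I id := by
  rw [blockInv, ← Matrix.mul_assoc, ← Matrix.mul_assoc, mul_one_submatrix, Matrix.mul_assoc,
    one_submatrix_mul']

/-- **Bordered-minor identity for a matrix whose `(r+1)`-minors vanish**:
`δ ^ r • (Φ_{·J} adj(Φ_{IJ}) Φ_{I·}) = δ ^ (r+1) • Φ`, `δ = det Φ_{IJ}`. -/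
theorem pow_smul_bordered (Φ : Matrix (Fin n) (Fin m) R) {r : ℕ} (h : MinorsVanish Φ r)
    (I : Fin r → Fin n) (J : Fin r → Fin m) :
    (Φ.submatrix I J).det ^ r •
        (Φ.submatrix id J * (Φ.submatrix I J).adjugate * Φ.submatrix I id) =
      (Φ.submatrix I J).det ^ (r + 1) • Φ := by
  ext i j
  have key := det_pow_mul_bordered (Φ.submatrix I J) (fun k => Φ (I k) j) (fun l => Φ i (J l))
    (Φ i j)
  have hB : fromBlocks (Φ.submatrix I J) (replicateCol (Fin 1) fun k => Φ (I k) j)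
      (replicateRow (Fin 1) fun l => Φ i (J l)) (fun _ _ => Φ i j) =
        Φ.submatrix (Sum.elim I fun _ => i) (Sum.elim J fun _ => j) := by
    ext a b
    rcases a with a | a <;> rcases b with b | b <;> rfl
  have hdet : (Φ.submatrix (Sum.elim I fun _ : Fin 1 => i)
      (Sum.elim J fun _ : Fin 1 => j)).det = 0 := by
    rw [← det_submatrix_equiv_self (finSumFinEquiv (m := r) (n := 1)).symm]
    exact h _ _
  rw [hB, hdet, mul_zero, Fintype.card_fin] at key
  have h2 : (Φ.submatrix I J).det ^ r * ((fun l => Φ i (J l)) ⬝ᵥ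
      ((Φ.submatrix I J).adjugate *ᵥ fun k => Φ (I k) j)) =
        (Φ.submatrix I J).det ^ (r + 1) * Φ i j := by
    have := key.symm
    rw [mul_sub, sub_eq_zero] at this
    rw [← this]
    ring
  rw [Matrix.smul_apply, Matrix.smul_apply, smul_eq_mul, smul_eq_mul, ← h2]
  congr 1
  rw [Matrix.mul_assoc, Matrix.mul_apply]
  simp only [dotProduct, mulVec, Matrix.mul_apply, Matrix.submatrix_apply, id]

theorem pow_smul_mul_blockInv_mul (Φ : Matrix (Fin n) (Fin m) R) {r : ℕ}
    (h : MinorsVanish Φ r) (I : Fin r → Fin n) (J : Fin r → Fin m) :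
    (Φ.submatrix I J).det ^ r • (Φ * blockInv Φ I J * Φ) =
      (Φ.submatrix I J).det ^ (r + 1) • Φ := by
  rw [mul_blockInv_mul, pow_smul_bordered Φ h]

/-- a partition of unity by `(r+1)`-st powers of the `r`-minors. -/
theorem MinorsUnit.exists_coeff {Φ : Matrix (Fin n) (Fin m) R} {r : ℕ} (h : MinorsUnit Φ r)
    (k : ℕ) :
    ∃ c : (Fin r → Fin n) × (Fin r → Fin m) → R,
      ∑ α, c α * (Φ.submatrix α.1 α.2).det ^ k = 1 := by
  have hrange : {d : R | ∃ (I : Fin r → Fin n) (J : Fin r → Fin m),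
      d = (Φ.submatrix I J).det} =
        Set.range fun α : (Fin r → Fin n) × (Fin r → Fin m) => (Φ.submatrix α.1 α.2).det := by
    ext d
    constructor
    · rintro ⟨I, J, rfl⟩
      exact ⟨(I, J), rfl⟩
    · rintro ⟨α, rfl⟩
      exact ⟨α.1, α.2, rfl⟩
  have h1 := Ideal.span_pow_eq_top _ h k
  rw [hrange, ← Set.range_comp] at h1
  have h2 : (1 : R) ∈ Ideal.span (Set.range ((fun x => x ^ k) ∘
      fun α : (Fin r → Fin n) × (Fin r → Fin m) => (Φ.submatrix α.1 α.2).det)) := by
    rw [h1]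
    trivial
  obtain ⟨c, hc⟩ := (Ideal.mem_span_range_iff_exists_fun).mp h2
  exact ⟨c, hc⟩

theorem MinorsUnitRows.exists_coeff {Φ : Matrix (Fin n) (Fin m) R} {r : ℕ}
    {I₀ : Fin r → Fin n} (h : MinorsUnitRows Φ I₀) (k : ℕ) :
    ∃ c : (Fin r → Fin m) → R, ∑ J, c J * (Φ.submatrix I₀ J).det ^ k = 1 := by
  have hrange : {d : R | ∃ J : Fin r → Fin m, d = (Φ.submatrix I₀ J).det} =
        Set.range fun J : Fin r → Fin m => (Φ.submatrix I₀ J).det := by
    ext d
    constructor
    · rintro ⟨J, rfl⟩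
      exact ⟨J, rfl⟩
    · rintro ⟨J, rfl⟩
      exact ⟨J, rfl⟩
  have h1 := Ideal.span_pow_eq_top _ h k
  rw [hrange, ← Set.range_comp] at h1
  have h2 : (1 : R) ∈ Ideal.span (Set.range ((fun x => x ^ k) ∘
      fun J : Fin r → Fin m => (Φ.submatrix I₀ J).det)) := by
    rw [h1]
    trivial
  obtain ⟨c, hc⟩ := (Ideal.mem_span_range_iff_exists_fun).mp h2
  exact ⟨c, hc⟩

/-- **(CR1)** a matrix of constant rank `r` has a generalized inverse. -/
theorem exists_genInv (Φ : Matrix (Fin n) (Fin m) R) {r : ℕ} (h1 : MinorsVanish Φ r)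
    (h2 : MinorsUnit Φ r) : ∃ Ψ : Matrix (Fin m) (Fin n) R, Φ * Ψ * Φ = Φ := by
  obtain ⟨c, hc⟩ := h2.exists_coeff (r + 1)
  refine ⟨∑ α, (c α * (Φ.submatrix α.1 α.2).det ^ r) • blockInv Φ α.1 α.2, ?_⟩
  rw [Matrix.mul_sum, Matrix.sum_mul]
  have hterm : ∀ α : (Fin r → Fin n) × (Fin r → Fin m),
      Φ * ((c α * (Φ.submatrix α.1 α.2).det ^ r) • blockInv Φ α.1 α.2) * Φ =
        (c α * (Φ.submatrix α.1 α.2).det ^ (r + 1)) • Φ := by
    intro α
    rw [Matrix.mul_smul, Matrix.smul_mul, mul_smul, pow_smul_mul_blockInv_mul Φ h1, ← mul_smul]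
  rw [Finset.sum_congr rfl fun α _ => hterm α, ← Finset.sum_smul, hc, one_smul]

end Minors

section GenInv

variable {n m : ℕ} {Φ : Matrix (Fin n) (Fin m) R} {Ψ : Matrix (Fin m) (Fin n) R}

/-- `Ψ` is a generalized inverse of `Φ`. -/
def IsGenInv (Φ : Matrix (Fin n) (Fin m) R) (Ψ : Matrix (Fin m) (Fin n) R) : Prop :=
  Φ * Ψ * Φ = Φ

theorem IsGenInv.eq' (h : IsGenInv Φ Ψ) : Φ * Ψ * Φ = Φ := h

theorem IsGenInv.isIdempotentElem_left (h : IsGenInv Φ Ψ) : IsIdempotentElem (Φ * Ψ) := by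
  unfold IsIdempotentElem
  rw [← Matrix.mul_assoc, h.eq']

theorem IsGenInv.isIdempotentElem_right (h : IsGenInv Φ Ψ) : IsIdempotentElem (Ψ * Φ) := by
  unfold IsIdempotentElem
  rw [Matrix.mul_assoc, ← Matrix.mul_assoc Φ, h.eq']

/-- **(CR2)** `range Φ` is the range of the idempotent `Φ Ψ`. -/
theorem IsGenInv.range_eq (h : IsGenInv Φ Ψ) :
    LinearMap.range Φ.mulVecLin = LinearMap.range (Φ * Ψ).mulVecLin := by
  apply le_antisymm
  · rintro _ ⟨v, rfl⟩
    refine ⟨Φ.mulVecLin v, ?_⟩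
    simp only [Matrix.mulVecLin_apply, Matrix.mulVec_mulVec, h.eq']
  · rintro _ ⟨v, rfl⟩
    refine ⟨Ψ.mulVecLin v, ?_⟩
    simp only [Matrix.mulVecLin_apply, Matrix.mulVec_mulVec]

/-- **(CR2)** `ker Φ` is the kernel of the idempotent `Ψ Φ`. -/
theorem IsGenInv.ker_eq (h : IsGenInv Φ Ψ) :
    LinearMap.ker Φ.mulVecLin = LinearMap.ker (Ψ * Φ).mulVecLin := by
  ext v
  simp only [LinearMap.mem_ker, Matrix.mulVecLin_apply]
  constructor
  · intro hv
    rw [← Matrix.mulVec_mulVec, hv, Matrix.mulVec_zero]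
  · intro hv
    have h1 : (Φ * Ψ * Φ) *ᵥ v = 0 := by
      rw [Matrix.mul_assoc, ← Matrix.mulVec_mulVec, hv, Matrix.mulVec_zero]
    rwa [h.eq'] at h1

/-- **(CR2)** `ker Φ` is the range of the idempotent `1 - Ψ Φ`: explicit generators. -/
theorem IsGenInv.ker_eq_range (h : IsGenInv Φ Ψ) :
    LinearMap.ker Φ.mulVecLin = LinearMap.range (1 - Ψ * Φ).mulVecLin := by
  ext v
  simp only [LinearMap.mem_ker, LinearMap.mem_range, Matrix.mulVecLin_apply]
  constructor
  · intro hv
    refine ⟨v, ?_⟩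
    rw [Matrix.sub_mulVec, Matrix.one_mulVec, ← Matrix.mulVec_mulVec, hv, Matrix.mulVec_zero,
      sub_zero]
  · rintro ⟨w, rfl⟩
    rw [Matrix.mulVec_mulVec, Matrix.mul_sub, Matrix.mul_one, ← Matrix.mul_assoc, h.eq',
      sub_self, Matrix.zero_mulVec]

theorem isIdempotentElem_mulVecLin {k : ℕ} {E : Matrix (Fin k) (Fin k) R}
    (hE : IsIdempotentElem E) : IsIdempotentElem E.mulVecLin := by
  unfold IsIdempotentElem at hE ⊢
  rw [Module.End.mul_eq_comp, ← Matrix.mulVecLin_mul, hE]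

/-- **(CR2)** `range Φ` is a direct summand of `Rⁿ`. -/
theorem IsGenInv.isCompl_range (h : IsGenInv Φ Ψ) :
    IsCompl (LinearMap.range Φ.mulVecLin) (LinearMap.ker (Φ * Ψ).mulVecLin) := by
  rw [h.range_eq]
  exact LinearMap.IsIdempotentElem.isCompl (isIdempotentElem_mulVecLin h.isIdempotentElem_left)

/-- **(CR2)** `ker Φ` is a direct summand of `Rᵐ`. -/
theorem IsGenInv.isCompl_ker (h : IsGenInv Φ Ψ) :
    IsCompl (LinearMap.ker Φ.mulVecLin) (LinearMap.range (Ψ * Φ).mulVecLin) := by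
  rw [h.ker_eq]
  exact (LinearMap.IsIdempotentElem.isCompl
    (isIdempotentElem_mulVecLin h.isIdempotentElem_right)).symm

variable {S : Type*} [CommRing S]

/-- **(CR3)** generalized inverses are stable under base change. -/
theorem IsGenInv.map (h : IsGenInv Φ Ψ) (f : R →+* S) : IsGenInv (Φ.map f) (Ψ.map f) := by
  unfold IsGenInv
  rw [← Matrix.map_mul, ← Matrix.map_mul, h.eq']

theorem map_mulVec_comp (f : R →+* S) (Φ : Matrix (Fin n) (Fin m) R) (v : Fin m → R) :
    (Φ.map f) *ᵥ (f ∘ v) = f ∘ (Φ *ᵥ v) := by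
  ext i
  simp [Matrix.mulVec, dotProduct, map_sum]

/-- **(CR3)** the range commutes with base change (no hypothesis). -/
theorem range_map_eq_span (f : R →+* S) (Φ : Matrix (Fin n) (Fin m) R) :
    LinearMap.range (Φ.map f).mulVecLin =
      Submodule.span S ((fun v : Fin n → R => f ∘ v) ''
        (LinearMap.range Φ.mulVecLin : Set (Fin n → R))) := by
  apply le_antisymm
  · rw [Matrix.range_mulVecLin, Submodule.span_le]
    rintro _ ⟨j, rfl⟩
    apply Submodule.subset_span
    refine ⟨Φ.col j, ?_, ?_⟩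
    · rw [Matrix.range_mulVecLin]
      exact Submodule.subset_span ⟨j, rfl⟩
    · ext i
      rfl
  · rw [Submodule.span_le]
    rintro _ ⟨_, ⟨v, rfl⟩, rfl⟩
    exact ⟨f ∘ v, map_mulVec_comp f Φ v⟩

/-- **(CR3)** the kernel of a matrix with a generalized inverse commutes with base change. -/
theorem IsGenInv.ker_map_eq_span (h : IsGenInv Φ Ψ) (f : R →+* S) :
    LinearMap.ker (Φ.map f).mulVecLin =
      Submodule.span S ((fun v : Fin m → R => f ∘ v) ''
        (LinearMap.ker Φ.mulVecLin : Set (Fin m → R))) := by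
  apply le_antisymm
  · rw [(h.map f).ker_eq_range]
    have hmap : (1 - Ψ.map f * Φ.map f) = (1 - Ψ * Φ).map f := by
      ext i j
      simp [Matrix.map_apply, Matrix.sub_apply, Matrix.mul_apply, Matrix.one_apply, map_sum]
    rw [hmap, range_map_eq_span, ← h.ker_eq_range]
  · rw [Submodule.span_le]
    rintro _ ⟨v, hv, rfl⟩
    rw [SetLike.mem_coe, LinearMap.mem_ker, Matrix.mulVecLin_apply] at hv ⊢
    rw [map_mulVec_comp, hv]
    ext i
    simp

end GenInv

section Pointwise

variable {n m : ℕ}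

theorem det_submatrix_map {S : Type*} [CommRing S] (f : R →+* S)
    (Φ : Matrix (Fin n) (Fin m) R) {k : ℕ} (I : Fin k → Fin n) (J : Fin k → Fin m) :
    ((Φ.map f).submatrix I J).det = f (Φ.submatrix I J).det := by
  rw [RingHom.map_det]
  rfl

/-- the two conditions are stable under base change. -/
theorem MinorsVanish.map {S : Type*} [CommRing S] {Φ : Matrix (Fin n) (Fin m) R} {r : ℕ}
    (h : MinorsVanish Φ r) (f : R →+* S) : MinorsVanish (Φ.map f) r := by
  intro I J
  rw [det_submatrix_map, h I J, map_zero]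

theorem MinorsUnit.map {S : Type*} [CommRing S] {Φ : Matrix (Fin n) (Fin m) R} {r : ℕ}
    (h : MinorsUnit Φ r) (f : R →+* S) : MinorsUnit (Φ.map f) r := by
  obtain ⟨c, hc⟩ := h.exists_coeff 1
  rw [MinorsUnit, Ideal.eq_top_iff_one]
  have h1 : (1 : S) = ∑ α, f (c α) * ((Φ.map f).submatrix α.1 α.2).det := by
    rw [← map_one f, ← hc, map_sum]
    refine Finset.sum_congr rfl fun α _ => ?_
    rw [map_mul, pow_one, det_submatrix_map]
  rw [h1]
  refine Ideal.sum_mem _ fun α _ => Ideal.mul_mem_left _ _ (Ideal.subset_span ⟨α.1, α.2, rfl⟩)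

theorem MinorsUnitRows.map {S : Type*} [CommRing S] {Φ : Matrix (Fin n) (Fin m) R} {r : ℕ}
    {I₀ : Fin r → Fin n} (h : MinorsUnitRows Φ I₀) (f : R →+* S) :
    MinorsUnitRows (Φ.map f) I₀ := by
  obtain ⟨c, hc⟩ := h.exists_coeff 1
  rw [MinorsUnitRows, Ideal.eq_top_iff_one]
  have h1 : (1 : S) = ∑ J, f (c J) * ((Φ.map f).submatrix I₀ J).det := by
    rw [← map_one f, ← hc, map_sum]
    refine Finset.sum_congr rfl fun J _ => ?_
    rw [map_mul, pow_one, det_submatrix_map]
  rw [h1]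
  refine Ideal.sum_mem _ fun J _ => Ideal.mul_mem_left _ _ (Ideal.subset_span ⟨J, rfl⟩)

/-- **(CR4a)** vanishing of the minors can be checked on a jointly injective family of
ring homomorphisms (e.g. the points of a reduced ring). -/
theorem minorsVanish_of_forall_map {ι : Type*} {K : ι → Type*} [∀ i, CommRing (K i)]
    (φ : ∀ i, R →+* K i) (hinj : ∀ x : R, (∀ i, φ i x = 0) → x = 0)
    (Φ : Matrix (Fin n) (Fin m) R) (r : ℕ) (h : ∀ i, MinorsVanish (Φ.map (φ i)) r) :
    MinorsVanish Φ r := by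
  intro I J
  apply hinj
  intro i
  rw [← det_submatrix_map]
  exact h i I J

/-- **(CR4b)** the unit-ideal condition can be checked at the maximal ideals of an integral
extension. -/
theorem minorsUnit_of_isIntegral {S : Type*} [CommRing S] [Algebra R S] [Algebra.IsIntegral R S]
    (hinj : Function.Injective (algebraMap R S)) (Φ : Matrix (Fin n) (Fin m) R) (r : ℕ)
    (h : ∀ M : Ideal S, M.IsMaximal → ∃ (I : Fin r → Fin n) (J : Fin r → Fin m),
      algebraMap R S (Φ.submatrix I J).det ∉ M) : MinorsUnit Φ r := by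
  by_contra hne
  obtain ⟨P, hPmax, hP⟩ := Ideal.exists_le_maximal _ hne
  have hker : RingHom.ker (algebraMap R S) ≤ P := by
    rw [(RingHom.injective_iff_ker_eq_bot _).mp hinj]
    exact bot_le
  obtain ⟨Q, hQmax, hQ⟩ := Ideal.exists_ideal_over_maximal_of_isIntegral P hker
  obtain ⟨I, J, hIJ⟩ := h Q hQmax
  apply hIJ
  have h1 : (Φ.submatrix I J).det ∈ P := hP (Ideal.subset_span ⟨I, J, rfl⟩)
  rw [← hQ] at h1
  exact h1

/-- **(CR4b)** the chart condition can be checked at the maximal ideals of an integral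
extension. -/
theorem minorsUnitRows_of_isIntegral {S : Type*} [CommRing S] [Algebra R S]
    [Algebra.IsIntegral R S] (hinj : Function.Injective (algebraMap R S))
    (Φ : Matrix (Fin n) (Fin m) R) {r : ℕ} (I₀ : Fin r → Fin n)
    (h : ∀ M : Ideal S, M.IsMaximal → ∃ J : Fin r → Fin m,
      algebraMap R S (Φ.submatrix I₀ J).det ∉ M) : MinorsUnitRows Φ I₀ := by
  by_contra hne
  obtain ⟨P, hPmax, hP⟩ := Ideal.exists_le_maximal _ hne
  have hker : RingHom.ker (algebraMap R S) ≤ P := by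
    rw [(RingHom.injective_iff_ker_eq_bot _).mp hinj]
    exact bot_le
  obtain ⟨Q, hQmax, hQ⟩ := Ideal.exists_ideal_over_maximal_of_isIntegral P hker
  obtain ⟨J, hJ⟩ := h Q hQmax
  apply hJ
  have h1 : (Φ.submatrix I₀ J).det ∈ P := hP (Ideal.subset_span ⟨J, rfl⟩)
  rw [← hQ] at h1
  exact h1

end Pointwise

section Echelon

variable {n m : ℕ}

/-- **(CR6)** echelon form in a chart: if the `(r+1)`-minors of `Φ` vanish and the `r`-minors
with rows `I₀` generate the unit ideal, then the column space of `Φ` is the column space of a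
matrix `Γ` which is the identity on the rows `I₀`. -/
theorem exists_echelon (Φ : Matrix (Fin n) (Fin m) R) {r : ℕ} (h1 : MinorsVanish Φ r)
    {I₀ : Fin r → Fin n} (h2 : MinorsUnitRows Φ I₀) :
    ∃ Γ : Matrix (Fin n) (Fin r) R, Γ.submatrix I₀ id = 1 ∧ Γ * Φ.submatrix I₀ id = Φ ∧
      ∃ Θ : Matrix (Fin m) (Fin r) R, Γ = Φ * Θ := by
  obtain ⟨c, hc⟩ := h2.exists_coeff (r + 1)
  have hΓΘ : ∑ J, (c J * (Φ.submatrix I₀ J).det ^ r) •
      (Φ.submatrix id J * (Φ.submatrix I₀ J).adjugate) =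
        Φ * ∑ J, (c J * (Φ.submatrix I₀ J).det ^ r) •
          ((1 : Matrix (Fin m) (Fin m) R).submatrix id J * (Φ.submatrix I₀ J).adjugate) := by
    rw [Matrix.mul_sum]
    refine Finset.sum_congr rfl fun J _ => ?_
    rw [Matrix.mul_smul, ← Matrix.mul_assoc, mul_one_submatrix]
  refine ⟨∑ J, (c J * (Φ.submatrix I₀ J).det ^ r) •
    (Φ.submatrix id J * (Φ.submatrix I₀ J).adjugate), ?_, ?_, _, hΓΘ⟩
  · have hsub : ∀ J : Fin r → Fin m,
        (Φ.submatrix id J * (Φ.submatrix I₀ J).adjugate).submatrix I₀ id =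
          (Φ.submatrix I₀ J).det • (1 : Matrix (Fin r) (Fin r) R) := by
      intro J
      rw [← mul_adjugate]
      ext i j
      simp [Matrix.mul_apply]
    ext i j
    have hsum : (∑ J, (c J * (Φ.submatrix I₀ J).det ^ r) •
        (Φ.submatrix id J * (Φ.submatrix I₀ J).adjugate)).submatrix I₀ id =
          ∑ J, (c J * (Φ.submatrix I₀ J).det ^ r) •
            (Φ.submatrix id J * (Φ.submatrix I₀ J).adjugate).submatrix I₀ id := by
      ext a b
      simp [Matrix.sum_apply]
    rw [hsum, Finset.sum_congr rfl fun J _ => by rw [hsub J, ← mul_smul, mul_assoc, ← pow_succ],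
      ← Finset.sum_smul, hc, one_smul]
  · rw [Matrix.sum_mul]
    have hterm : ∀ J : Fin r → Fin m,
        ((c J * (Φ.submatrix I₀ J).det ^ r) •
          (Φ.submatrix id J * (Φ.submatrix I₀ J).adjugate)) * Φ.submatrix I₀ id =
            (c J * (Φ.submatrix I₀ J).det ^ (r + 1)) • Φ := by
      intro J
      rw [Matrix.smul_mul, mul_smul, pow_smul_bordered Φ h1, ← mul_smul]
    rw [Finset.sum_congr rfl fun J _ => hterm J, ← Finset.sum_smul, hc, one_smul]

/-- **(CR6)** uniqueness of the echelon form, matrix version. -/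
theorem echelon_unique {r : ℕ} {I₀ : Fin r → Fin n} {Γ Γ' : Matrix (Fin n) (Fin r) R}
    (hΓ : Γ.submatrix I₀ id = 1) (hΓ' : Γ'.submatrix I₀ id = 1)
    (hX : ∃ X : Matrix (Fin r) (Fin r) R, Γ' = Γ * X) : Γ' = Γ := by
  obtain ⟨X, rfl⟩ := hX
  have h1 : (Γ * X).submatrix I₀ id = Γ.submatrix I₀ id * X := by
    ext i j
    simp [Matrix.mul_apply]
  rw [h1, hΓ, Matrix.one_mul] at hΓ'
  rw [hΓ', Matrix.mul_one]

/-- a matrix whose columns lie in the column space of `Γ` is a right multiple of `Γ`. -/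
theorem exists_mul_of_range_le {k l : ℕ} {Γ : Matrix (Fin n) (Fin k) R}
    {Γ' : Matrix (Fin n) (Fin l) R}
    (h : LinearMap.range Γ'.mulVecLin ≤ LinearMap.range Γ.mulVecLin) :
    ∃ X : Matrix (Fin k) (Fin l) R, Γ' = Γ * X := by
  have hcol : ∀ j : Fin l, ∃ x : Fin k → R, Γ *ᵥ x = Γ'.col j := by
    intro j
    have hj : Γ'.col j ∈ LinearMap.range Γ'.mulVecLin := by
      rw [Matrix.range_mulVecLin]
      exact Submodule.subset_span ⟨j, rfl⟩
    obtain ⟨x, hx⟩ := h hj
    exact ⟨x, hx⟩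
  choose x hx using hcol
  refine ⟨Matrix.of fun i j => x j i, ?_⟩
  ext i j
  have := congrFun (hx j) i
  rw [Matrix.mul_apply]
  simpa [Matrix.mulVec, dotProduct, Matrix.col_apply] using this.symm

/-- **(CR6)** uniqueness of the echelon form, column-space version. -/
theorem echelon_unique_of_range_le {r : ℕ} {I₀ : Fin r → Fin n}
    {Γ Γ' : Matrix (Fin n) (Fin r) R}
    (hΓ : Γ.submatrix I₀ id = 1) (hΓ' : Γ'.submatrix I₀ id = 1)
    (h : LinearMap.range Γ'.mulVecLin ≤ LinearMap.range Γ.mulVecLin) : Γ' = Γ :=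
  echelon_unique hΓ hΓ' (exists_mul_of_range_le h)

/-- the echelon form has the same column space as `Φ`. -/
theorem range_eq_of_echelon {Φ : Matrix (Fin n) (Fin m) R} {r : ℕ} {I₀ : Fin r → Fin n}
    {Γ : Matrix (Fin n) (Fin r) R} (h2 : Γ * Φ.submatrix I₀ id = Φ)
    (h3 : ∃ Θ : Matrix (Fin m) (Fin r) R, Γ = Φ * Θ) :
    LinearMap.range Γ.mulVecLin = LinearMap.range Φ.mulVecLin := by
  obtain ⟨Θ, hΘ⟩ := h3
  apply le_antisymm
  · rintro _ ⟨v, rfl⟩
    refine ⟨Θ *ᵥ v, ?_⟩
    rw [Matrix.mulVecLin_apply, Matrix.mulVecLin_apply, Matrix.mulVec_mulVec, ← hΘ]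
  · rintro _ ⟨v, rfl⟩
    refine ⟨Φ.submatrix I₀ id *ᵥ v, ?_⟩
    rw [Matrix.mulVecLin_apply, Matrix.mulVecLin_apply, Matrix.mulVec_mulVec, h2]

end Echelon

section Rank

variable {n m : ℕ}

/-- over a field: vanishing `(r+1)`-minors and a nonzero `r`-minor force rank `r`. -/
theorem rank_eq_of_minors {K : Type*} [Field K] (Φ : Matrix (Fin n) (Fin m) K) {r : ℕ}
    (h1 : MinorsVanish Φ r) (h2 : MinorsUnit Φ r) : Φ.rank = r := by
  obtain ⟨I, J, hδ⟩ : ∃ (I : Fin r → Fin n) (J : Fin r → Fin m),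
      (Φ.submatrix I J).det ≠ 0 := by
    by_contra hcon
    have hall : ∀ (I : Fin r → Fin n) (J : Fin r → Fin m), (Φ.submatrix I J).det = 0 := by
      intro I J
      by_contra h0
      exact hcon ⟨I, J, h0⟩
    have hbot : Ideal.span {d : K | ∃ (I : Fin r → Fin n) (J : Fin r → Fin m),
        d = (Φ.submatrix I J).det} = ⊥ := by
      rw [Ideal.span_eq_bot]
      rintro d ⟨I, J, rfl⟩
      exact hall I J
    rw [MinorsUnit, hbot] at h2
    exact bot_ne_top h2
  apply le_antisymm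
  · -- `Φ = X * Z` with `X` of width `r`
    have hb := pow_smul_bordered Φ h1 I J
    have hΦ : Φ = Φ.submatrix id J * ((Φ.submatrix I J).det⁻¹ •
        ((Φ.submatrix I J).adjugate * Φ.submatrix I id)) := by
      have hpow : (Φ.submatrix I J).det ^ r ≠ 0 := pow_ne_zero _ hδ
      have h3 : (Φ.submatrix I J).det ^ r • Φ =
          (Φ.submatrix I J).det ^ r • (Φ.submatrix id J * ((Φ.submatrix I J).det⁻¹ •
            ((Φ.submatrix I J).adjugate * Φ.submatrix I id))) := by
        rw [Matrix.mul_smul, smul_comm, ← Matrix.mul_assoc, hb, pow_succ, mul_smul,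
          smul_comm ((Φ.submatrix I J).det ^ r), inv_smul_smul₀ hδ]
      ext i j
      have h4 := congrFun (congrFun h3 i) j
      simp only [Matrix.smul_apply, smul_eq_mul] at h4
      exact mul_left_cancel₀ hpow h4
    calc Φ.rank = (Φ.submatrix id J * ((Φ.submatrix I J).det⁻¹ •
          ((Φ.submatrix I J).adjugate * Φ.submatrix I id))).rank := by rw [← hΦ]
      _ ≤ (Φ.submatrix id J).rank := Matrix.rank_mul_le_left _ _
      _ ≤ r := Matrix.rank_le_width _
  · have hunit : IsUnit (Φ.submatrix I J) := by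
      rw [Matrix.isUnit_iff_isUnit_det]
      exact IsUnit.mk0 _ hδ
    have h3 := Matrix.rank_of_isUnit (Φ.submatrix I J) hunit
    rw [Fintype.card_fin] at h3
    rw [← h3]
    exact Matrix.rank_submatrix_le Φ I J

/-- **(CR5)** the rank at every field-valued point is `r`. -/
theorem rank_map_eq {K : Type*} [Field K] (f : R →+* K) {Φ : Matrix (Fin n) (Fin m) R}
    {r : ℕ} (h1 : MinorsVanish Φ r) (h2 : MinorsUnit Φ r) : (Φ.map f).rank = r :=
  rank_eq_of_minors _ (h1.map f) (h2.map f)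

/-- **(CR1)** in `IsGenInv` form. -/
theorem exists_isGenInv (Φ : Matrix (Fin n) (Fin m) R) {r : ℕ} (h1 : MinorsVanish Φ r)
    (h2 : MinorsUnit Φ r) : ∃ Ψ : Matrix (Fin m) (Fin n) R, IsGenInv Φ Ψ :=
  exists_genInv Φ h1 h2

/-- **summary**: under the two minor conditions the kernel is a direct summand, generated by the
columns of an explicit idempotent, and its formation commutes with every base change. -/
theorem exists_ker_package (Φ : Matrix (Fin n) (Fin m) R) {r : ℕ} (h1 : MinorsVanish Φ r)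
    (h2 : MinorsUnit Φ r) :
    ∃ P : Matrix (Fin m) (Fin m) R, IsIdempotentElem P ∧
      LinearMap.ker Φ.mulVecLin = LinearMap.range P.mulVecLin ∧
      ∀ (S : Type*) [CommRing S] (f : R →+* S),
        LinearMap.ker (Φ.map f).mulVecLin = LinearMap.range (P.map f).mulVecLin := by
  obtain ⟨Ψ, hΨ⟩ := exists_isGenInv Φ h1 h2
  refine ⟨1 - Ψ * Φ, hΨ.isIdempotentElem_right.one_sub, hΨ.ker_eq_range, fun S _ f => ?_⟩
  rw [(hΨ.map f).ker_eq_range]
  congr 2
  ext i j
  simp [Matrix.map_apply, Matrix.sub_apply, Matrix.mul_apply, Matrix.one_apply, map_sum]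

end Rank

end Fermat.Agent.FF
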