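import Mathlib
import Fermat.Agent.Lib.FF.ConstRank

/-!
# FF / S19, route R-G, seat K: rank and minors, general index types (helper2)

* `det_submatrix_eq_zero_of_rank_lt`, `exists_minor_ne_zero`, `exists_cols_det_ne_zero` :
  over a field, the rank is detected by minors (arbitrary finite index types);
* `exists_genInv_of_pointwise` : a matrix over a commutative ring whose rank is `ρ` at a jointly
  injective family of field points and at every maximal ideal has a generalized inverse;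
* `range_one_sub_mul`, `ker_one_sub_mul` : kernel and range as range and kernel of idempotents.
-/

set_option autoImplicit false
set_option linter.unusedSectionVars false

open Matrix

namespace Fermat.Agent.KMRing

universe v

section Field

variable {K : Type*} [Field K] {ι κ : Type*} [Fintype ι] [Fintype κ]

/-- over a field, minors of size bigger than the rank vanish. -/
theorem det_submatrix_eq_zero_of_rank_lt (Φ : Matrix ι κ K) {s : ℕ} (h : Φ.rank < s)
    (I : Fin s → ι) (J : Fin s → κ) : (Φ.submatrix I J).det = 0 := by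
  by_contra hne
  have hunit : IsUnit (Φ.submatrix I J) := by
    rw [Matrix.isUnit_iff_isUnit_det]
    exact IsUnit.mk0 _ hne
  have h3 := Matrix.rank_of_isUnit (Φ.submatrix I J) hunit
  rw [Fintype.card_fin] at h3
  have h4 := Matrix.rank_submatrix_le Φ I J
  omega

/-- over a field, `ρ ≤ rank Φ` gives `ρ` linearly independent columns. -/
theorem exists_cols_linearIndependent (Φ : Matrix ι κ K) {ρ : ℕ} (h : ρ ≤ Φ.rank) :
    ∃ J : Fin ρ → κ, LinearIndependent K (Φ.submatrix id J).col := by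
  rw [Matrix.rank_eq_finrank_span_cols] at h
  obtain ⟨f, hf, -, hli⟩ := Submodule.exists_fun_fin_finrank_span_eq K (Set.range Φ.col)
  choose J' hJ' using hf
  refine ⟨fun i => J' (Fin.castLE h i), ?_⟩
  have heq : (Φ.submatrix id fun i => J' (Fin.castLE h i)).col = f ∘ Fin.castLE h := by
    funext i
    rw [Function.comp_apply, ← hJ']
    rfl
  rw [heq]
  exact hli.comp _ (Fin.castLE_injective h)

/-- over a field, a matrix with `ρ` rows and rank `ρ` has a nonzero maximal minor. -/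
theorem exists_cols_det_ne_zero {ρ : ℕ} (B : Matrix (Fin ρ) κ K) (h : ρ ≤ B.rank) :
    ∃ J : Fin ρ → κ, (B.submatrix id J).det ≠ 0 := by
  obtain ⟨J, hJ⟩ := exists_cols_linearIndependent B h
  refine ⟨J, ?_⟩
  rw [Matrix.linearIndependent_cols_iff_isUnit, Matrix.isUnit_iff_isUnit_det] at hJ
  exact hJ.ne_zero

/-- over a field, `ρ ≤ rank Φ` gives a nonzero minor of size `ρ`. -/
theorem exists_minor_ne_zero (Φ : Matrix ι κ K) {ρ : ℕ} (h : ρ ≤ Φ.rank) :
    ∃ (I : Fin ρ → ι) (J : Fin ρ → κ), (Φ.submatrix I J).det ≠ 0 := by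
  obtain ⟨J, hJ⟩ := exists_cols_linearIndependent Φ h
  have hrank : (Φ.submatrix id J)ᵀ.rank = ρ := by
    have := LinearIndependent.rank_matrix (M := (Φ.submatrix id J)ᵀ) hJ
    rw [this, Fintype.card_fin]
  obtain ⟨I, hI⟩ := exists_cols_det_ne_zero (Φ.submatrix id J)ᵀ hrank.ge
  refine ⟨I, J, ?_⟩
  have heq : ((Φ.submatrix id J)ᵀ.submatrix id I) = (Φ.submatrix I J)ᵀ := by
    ext a b
    rfl
  rw [heq, Matrix.det_transpose] at hI
  exact hI

end Field

section GenInv

variable {R : Type*} [CommRing R] {ι κ : Type*} [Fintype ι] [DecidableEq ι] [Fintype κ]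
  [DecidableEq κ]

theorem map_det_submatrix {S : Type*} [CommRing S] (f : R →+* S) (Φ : Matrix ι κ R) {s : ℕ}
    (I : Fin s → ι) (J : Fin s → κ) :
    f (Φ.submatrix I J).det = ((Φ.map f).submatrix I J).det := by
  rw [RingHom.map_det]
  rfl

/-- **constant rank ⇒ generalized inverse**, pointwise form, arbitrary finite index types. -/
theorem exists_genInv_of_pointwise (Φ : Matrix ι κ R) (ρ : ℕ)
    {T : Type*} {K : T → Type*} [∀ t, Field (K t)] (φ : ∀ t, R →+* K t)
    (hinj : ∀ x : R, (∀ t, φ t x = 0) → x = 0)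
    (ha : ∀ t, (Φ.map (φ t)).rank ≤ ρ)
    (hb : ∀ M : Ideal R, M.IsMaximal → ∃ (L : Type v) (_ : Field L) (g : R →+* L),
      M ≤ RingHom.ker g ∧ ρ ≤ (Φ.map g).rank) :
    ∃ Ψ : Matrix κ ι R, Φ * Ψ * Φ = Φ := by
  classical
  set eι := Fintype.equivFin ι
  set eκ := Fintype.equivFin κ
  set Φ' : Matrix (Fin (Fintype.card ι)) (Fin (Fintype.card κ)) R :=
    Φ.submatrix eι.symm eκ.symm with hΦ'
  have h1 : FF.MinorsVanish Φ' ρ := by
    intro I J
    apply hinj
    intro t
    rw [hΦ', Matrix.submatrix_submatrix, map_det_submatrix]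
    exact det_submatrix_eq_zero_of_rank_lt _ (Nat.lt_succ_of_le (ha t)) _ _
  have h2 : FF.MinorsUnit Φ' ρ := by
    by_contra hne
    obtain ⟨M, hMmax, hM⟩ := Ideal.exists_le_maximal _ hne
    obtain ⟨L, _, g, hle, hrank⟩ := hb M hMmax
    obtain ⟨I, J, hIJ⟩ := exists_minor_ne_zero (Φ.map g) hrank
    apply hIJ
    rw [← map_det_submatrix]
    have hmem : (Φ.submatrix I J).det ∈ M := by
      apply hM
      apply Ideal.subset_span
      refine ⟨eι ∘ I, eκ ∘ J, ?_⟩
      rw [hΦ', Matrix.submatrix_submatrix]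
      congr 2
      · funext a
        simp
      · funext a
        simp
    exact hle hmem
  obtain ⟨Ψ', hΨ'⟩ := FF.exists_genInv Φ' h1 h2
  refine ⟨Ψ'.submatrix eκ eι, ?_⟩
  have hΦ : Φ = Φ'.submatrix eι eκ := by
    rw [hΦ', Matrix.submatrix_submatrix]
    ext a b
    simp
  conv_lhs => rw [hΦ]
  rw [Matrix.submatrix_mul_equiv, Matrix.submatrix_mul_equiv, hΨ', ← hΦ]

variable {Φ : Matrix ι κ R} {Ψ : Matrix κ ι R}

/-- if `Φ Ψ Φ = Φ`, then `ker Φ = range (1 - Ψ Φ)`. -/
theorem range_one_sub_mul (h : Φ * Ψ * Φ = Φ) :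
    LinearMap.range (1 - Ψ * Φ).mulVecLin = LinearMap.ker Φ.mulVecLin := by
  apply le_antisymm
  · rintro _ ⟨v, rfl⟩
    rw [LinearMap.mem_ker, Matrix.mulVecLin_apply, Matrix.mulVecLin_apply, Matrix.mulVec_mulVec,
      Matrix.mul_sub, Matrix.mul_one, ← Matrix.mul_assoc, h, sub_self, Matrix.zero_mulVec]
  · intro v hv
    rw [LinearMap.mem_ker, Matrix.mulVecLin_apply] at hv
    refine ⟨v, ?_⟩
    rw [Matrix.mulVecLin_apply, Matrix.sub_mulVec, Matrix.one_mulVec, ← Matrix.mulVec_mulVec, hv,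
      Matrix.mulVec_zero, sub_zero]

/-- if `Φ Ψ Φ = Φ`, then `range Φ = ker (1 - Φ Ψ)`. -/
theorem ker_one_sub_mul (h : Φ * Ψ * Φ = Φ) :
    LinearMap.ker (1 - Φ * Ψ).mulVecLin = LinearMap.range Φ.mulVecLin := by
  apply le_antisymm
  · intro v hv
    rw [LinearMap.mem_ker, Matrix.mulVecLin_apply, Matrix.sub_mulVec, Matrix.one_mulVec,
      sub_eq_zero] at hv
    refine ⟨Ψ *ᵥ v, ?_⟩
    rw [Matrix.mulVecLin_apply, Matrix.mulVec_mulVec]
    exact hv.symm
  · rintro _ ⟨v, rfl⟩
    rw [LinearMap.mem_ker, Matrix.mulVecLin_apply, Matrix.mulVecLin_apply, Matrix.mulVec_mulVec,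
      Matrix.sub_mul, Matrix.one_mul, h, sub_self, Matrix.zero_mulVec]

theorem map_mul_mul {S : Type*} [CommRing S] (f : R →+* S) (h : Φ * Ψ * Φ = Φ) :
    Φ.map f * Ψ.map f * Φ.map f = Φ.map f := by
  rw [← Matrix.map_mul, ← Matrix.map_mul, h]

theorem map_one_sub_mul {S : Type*} [CommRing S] (f : R →+* S) (Φ : Matrix ι κ R)
    (Ψ : Matrix κ ι R) : (1 - Ψ * Φ).map f = 1 - Ψ.map f * Φ.map f := by
  ext i j
  simp [Matrix.map_apply, Matrix.sub_apply, Matrix.mul_apply, Matrix.one_apply, map_sum,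
    apply_ite f]

end GenInv

end Fermat.Agent.KMRing
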