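import Mathlib
import Fermat.Agent.Lib.FF.ConstRank
import Fermat.Agent.Lib.FF.KMRank
import Fermat.Agent.Lib.FF.KMRingDefs
import Fermat.Agent.Lib.FF.KMSteps

/-!
# FF / S19, route R-G, seat K: Khuri-Makdisi addition over a ring (helper2)

Main theorem `exists_sum_matrix`: let `d : KMData R ..` be the coordinate data of a
Khuri-Makdisi addition step over a commutative ring `R` (`E₂` with a left inverse).  If the
pointwise rank statements `KMGood` hold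

* at a jointly injective family of field-valued points of `R`, and
* at (a field-valued point over) every maximal ideal of `R`,

then there is a matrix `Γ₃` over `R`, in echelon form with respect to the pivot rows `I₀`,
whose column space at EVERY field-valued point `f` is the pointwise Khuri-Makdisi result
`(d.map f).W₃`.  By uniqueness of the echelon form (`eq_map_of_echelon`) the entries of `Γ₃`
are the coordinates of the sum.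
-/

set_option autoImplicit false
set_option linter.unusedSectionVars false

open Matrix

namespace Fermat.Agent.KMRing

universe v w

variable {R : Type*} [CommRing R] {n₁ n₂ n₄ rx ry e₁ e₂ : ℕ}

namespace KMData

variable (d : KMData R n₁ n₂ n₄ rx ry e₁ e₂)

section BaseChange

variable {S : Type*} [CommRing S] (g : R →+* S)
  {Ψ₂ : Matrix ((Fin rx × Fin ry) × Fin e₂) (((Fin rx × Fin ry) × (Fin rx × Fin ry)) × Fin n₄) R}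
  {Ψ₃ : Matrix (((Fin rx × Fin ry) × Fin e₂) × (Fin rx × Fin ry)) (Fin n₂) R}
  {Ψ₄ : Matrix (Fin n₁) (Fin e₁ × Fin n₂) R}

theorem range_map_Ξ₂ (hΨ₂ : d.Φ₂ * Ψ₂ * d.Φ₂ = d.Φ₂) :
    LinearMap.range ((1 - Ψ₂ * d.Φ₂).map g).mulVecLin =
      LinearMap.ker (d.map g).Φ₂.mulVecLin := by
  rw [map_one_sub_mul, range_one_sub_mul (map_mul_mul g hΨ₂), map_Φ₂]

theorem range_map_Φ₃ (hΨ₂ : d.Φ₂ * Ψ₂ * d.Φ₂ = d.Φ₂) :
    LinearMap.range ((d.Φ₃ (1 - Ψ₂ * d.Φ₂)).map g).mulVecLin = (d.map g).Y := by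
  rw [map_Φ₃]
  exact (d.map g).range_Φ₃ _ (d.range_map_Ξ₂ g hΨ₂)

theorem ker_map_Q₃ (hΨ₂ : d.Φ₂ * Ψ₂ * d.Φ₂ = d.Φ₂)
    (hΨ₃ : d.Φ₃ (1 - Ψ₂ * d.Φ₂) * Ψ₃ * d.Φ₃ (1 - Ψ₂ * d.Φ₂) = d.Φ₃ (1 - Ψ₂ * d.Φ₂)) :
    LinearMap.ker ((1 - d.Φ₃ (1 - Ψ₂ * d.Φ₂) * Ψ₃).map g).mulVecLin = (d.map g).Y := by
  rw [map_one_sub_mul, ker_one_sub_mul (map_mul_mul g hΨ₃)]
  exact d.range_map_Φ₃ g hΨ₂

theorem ker_map_Φ₄ (hΨ₂ : d.Φ₂ * Ψ₂ * d.Φ₂ = d.Φ₂)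
    (hΨ₃ : d.Φ₃ (1 - Ψ₂ * d.Φ₂) * Ψ₃ * d.Φ₃ (1 - Ψ₂ * d.Φ₂) = d.Φ₃ (1 - Ψ₂ * d.Φ₂)) :
    LinearMap.ker ((d.Φ₄ (1 - d.Φ₃ (1 - Ψ₂ * d.Φ₂) * Ψ₃)).map g).mulVecLin = (d.map g).W₃ := by
  rw [map_Φ₄]
  exact (d.map g).ker_Φ₄ _ (d.ker_map_Q₃ g hΨ₂ hΨ₃)

theorem range_map_Ξ₄ (hΨ₂ : d.Φ₂ * Ψ₂ * d.Φ₂ = d.Φ₂)
    (hΨ₃ : d.Φ₃ (1 - Ψ₂ * d.Φ₂) * Ψ₃ * d.Φ₃ (1 - Ψ₂ * d.Φ₂) = d.Φ₃ (1 - Ψ₂ * d.Φ₂))
    (hΨ₄ : d.Φ₄ (1 - d.Φ₃ (1 - Ψ₂ * d.Φ₂) * Ψ₃) * Ψ₄ * d.Φ₄ (1 - d.Φ₃ (1 - Ψ₂ * d.Φ₂) * Ψ₃) =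
      d.Φ₄ (1 - d.Φ₃ (1 - Ψ₂ * d.Φ₂) * Ψ₃)) :
    LinearMap.range ((1 - Ψ₄ * d.Φ₄ (1 - d.Φ₃ (1 - Ψ₂ * d.Φ₂) * Ψ₃)).map g).mulVecLin =
      (d.map g).W₃ := by
  rw [map_one_sub_mul, range_one_sub_mul (map_mul_mul g hΨ₄)]
  exact d.ker_map_Φ₄ g hΨ₂ hΨ₃

end BaseChange

end KMData

section Field

variable {K : Type*} [Field K] (d : KMData K n₁ n₂ n₄ rx ry e₁ e₂)

theorem rank_add_finrank_ker {ι κ : Type*} [Fintype ι] [Fintype κ] (Φ : Matrix ι κ K) :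
    Φ.rank + Module.finrank K (LinearMap.ker Φ.mulVecLin) = Fintype.card κ := by
  have h1 := LinearMap.finrank_range_add_finrank_ker Φ.mulVecLin
  rw [Module.finrank_fintype_fun_eq_card] at h1
  exact h1

theorem KMData.rank_Φ₂ (hL : ∃ L : Matrix (Fin e₂) (Fin n₂) K, L * d.E₂ = 1) :
    d.Φ₂.rank + Module.finrank K d.cross = rx * ry * e₂ := by
  have h1 := rank_add_finrank_ker d.Φ₂
  have h2 : Module.finrank K (LinearMap.ker d.Φ₂.mulVecLin) = Module.finrank K d.cross := by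
    rw [← d.map_ker_Φ₂]
    exact (Submodule.equivMapOfInjective d.toZₗ (d.toZₗ_injective hL) _).finrank_eq
  rw [h2] at h1
  rw [h1]
  simp [Fintype.card_prod]

end Field

section Main

variable (d : KMData R n₁ n₂ n₄ rx ry e₁ e₂)

/-- the rank of `Φ₂` at a good point. -/
theorem rank_map_Φ₂ {L : Type*} [Field L] (g : R →+* L)
    (hE₂ : ∃ L : Matrix (Fin e₂) (Fin n₂) R, L * d.E₂ = 1) {ρ r₃ : ℕ} {I₀ : Fin r₃ → Fin n₁}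
    (hg : KMGood (d.map g) ρ I₀) : (d.Φ₂.map g).rank = rx * ry * e₂ - 1 := by
  have h := (d.map g).rank_Φ₂ (d.map_leftInv g hE₂)
  rw [hg.finrank_cross] at h
  rw [KMData.map_Φ₂]
  omega

/-- **Khuri-Makdisi addition over a ring.** -/
theorem exists_sum_matrix
    (hE₂ : ∃ L : Matrix (Fin e₂) (Fin n₂) R, L * d.E₂ = 1)
    (ρ : ℕ) {r₃ : ℕ} (I₀ : Fin r₃ → Fin n₁)
    {T : Type*} {K : T → Type*} [∀ t, Field (K t)] (φ : ∀ t, R →+* K t)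
    (hinj : ∀ x : R, (∀ t, φ t x = 0) → x = 0)
    (ha : ∀ t, KMGood (d.map (φ t)) ρ I₀)
    (hb : ∀ M : Ideal R, M.IsMaximal → ∃ (L : Type v) (_ : Field L) (g : R →+* L),
      M ≤ RingHom.ker g ∧ KMGood (d.map g) ρ I₀) :
    ∃ Γ₃ : Matrix (Fin n₁) (Fin r₃) R, Γ₃.submatrix I₀ id = 1 ∧
      ∀ {K' : Type w} [Field K'] (f : R →+* K'),
        LinearMap.range (Γ₃.map f).mulVecLin = (d.map f).W₃ := by
  classical
  -- step (S2)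
  obtain ⟨Ψ₂, hΨ₂⟩ := exists_genInv_of_pointwise d.Φ₂ (rx * ry * e₂ - 1) φ hinj
    (fun t => (rank_map_Φ₂ d (φ t) hE₂ (ha t)).le)
    (fun M hM => by
      obtain ⟨L, hL, g, hle, hg⟩ := hb M hM
      exact ⟨L, hL, g, hle, (rank_map_Φ₂ d g hE₂ hg).ge⟩)
  -- step (S3)
  have key3 : ∀ {L : Type v} [Field L] (g : R →+* L), KMGood (d.map g) ρ I₀ →
      ((d.Φ₃ (1 - Ψ₂ * d.Φ₂)).map g).rank = ρ := by
    intro L _ g hg
    rw [Matrix.rank, d.range_map_Φ₃ g hΨ₂]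
    exact hg.finrank_Y
  have key3' : ∀ t, ((d.Φ₃ (1 - Ψ₂ * d.Φ₂)).map (φ t)).rank = ρ := by
    intro t
    rw [Matrix.rank, d.range_map_Φ₃ (φ t) hΨ₂]
    exact (ha t).finrank_Y
  obtain ⟨Ψ₃, hΨ₃⟩ := exists_genInv_of_pointwise (d.Φ₃ (1 - Ψ₂ * d.Φ₂)) ρ φ hinj
    (fun t => (key3' t).le)
    (fun M hM => by
      obtain ⟨L, hL, g, hle, hg⟩ := hb M hM
      exact ⟨L, hL, g, hle, (key3 g hg).ge⟩)
  -- step (S4)
  have key4 : ∀ {L : Type v} [Field L] (g : R →+* L), KMGood (d.map g) ρ I₀ →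
      ((d.Φ₄ (1 - d.Φ₃ (1 - Ψ₂ * d.Φ₂) * Ψ₃)).map g).rank = n₁ - r₃ := by
    intro L _ g hg
    have h := rank_add_finrank_ker ((d.Φ₄ (1 - d.Φ₃ (1 - Ψ₂ * d.Φ₂) * Ψ₃)).map g)
    rw [d.ker_map_Φ₄ g hΨ₂ hΨ₃, hg.finrank_W₃, Fintype.card_fin] at h
    omega
  have key4' : ∀ t, ((d.Φ₄ (1 - d.Φ₃ (1 - Ψ₂ * d.Φ₂) * Ψ₃)).map (φ t)).rank = n₁ - r₃ := by
    intro t
    have h := rank_add_finrank_ker ((d.Φ₄ (1 - d.Φ₃ (1 - Ψ₂ * d.Φ₂) * Ψ₃)).map (φ t))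
    rw [d.ker_map_Φ₄ (φ t) hΨ₂ hΨ₃, (ha t).finrank_W₃, Fintype.card_fin] at h
    omega
  obtain ⟨Ψ₄, hΨ₄⟩ := exists_genInv_of_pointwise (d.Φ₄ (1 - d.Φ₃ (1 - Ψ₂ * d.Φ₂) * Ψ₃))
    (n₁ - r₃) φ hinj (fun t => (key4' t).le)
    (fun M hM => by
      obtain ⟨L, hL, g, hle, hg⟩ := hb M hM
      exact ⟨L, hL, g, hle, (key4 g hg).ge⟩)
  -- the idempotent with range `W₃`
  set Ξ₄ : Matrix (Fin n₁) (Fin n₁) R :=
    1 - Ψ₄ * d.Φ₄ (1 - d.Φ₃ (1 - Ψ₂ * d.Φ₂) * Ψ₃) with hΞ₄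
  have h1 : FF.MinorsVanish Ξ₄ r₃ := by
    intro I J
    apply hinj
    intro t
    rw [map_det_submatrix]
    apply det_submatrix_eq_zero_of_rank_lt
    rw [Matrix.rank, hΞ₄, d.range_map_Ξ₄ (φ t) hΨ₂ hΨ₃ hΨ₄, (ha t).finrank_W₃]
    exact Nat.lt_succ_self _
  have h2 : FF.MinorsUnitRows Ξ₄ I₀ := by
    by_contra hne
    obtain ⟨M, hMmax, hM⟩ := Ideal.exists_le_maximal _ hne
    obtain ⟨L, _, g, hle, hg⟩ := hb M hMmax
    have hrange : LinearMap.range (Ξ₄.map g).mulVecLin = (d.map g).W₃ := by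
      rw [hΞ₄]
      exact d.range_map_Ξ₄ g hΨ₂ hΨ₃ hΨ₄
    -- the projection to the pivot coordinates
    set π : (Fin n₁ → L) →ₗ[L] (Fin r₃ → L) := LinearMap.funLeft L L I₀ with hπ
    have hB : LinearMap.range ((Ξ₄.map g).submatrix I₀ id).mulVecLin =
        ((d.map g).W₃).map π := by
      rw [← hrange, ← LinearMap.range_comp]
      congr 1
    have hinjπ : Function.Injective (π.domRestrict (d.map g).W₃) := by
      rw [← LinearMap.ker_eq_bot, LinearMap.ker_eq_bot']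
      rintro ⟨s, hs⟩ h0
      have h0' : π s = 0 := h0
      have := hg.chart s hs (fun i => congrFun h0' i)
      exact Subtype.ext this
    have hrank : r₃ ≤ ((Ξ₄.map g).submatrix I₀ id).rank := by
      rw [Matrix.rank, hB, ← LinearMap.range_domRestrict,
        LinearMap.finrank_range_of_inj hinjπ, hg.finrank_W₃]
    obtain ⟨J, hJ⟩ := exists_cols_det_ne_zero _ hrank
    apply hJ
    have hmem : (Ξ₄.submatrix I₀ J).det ∈ M := hM (Ideal.subset_span ⟨J, rfl⟩)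
    have := hle hmem
    rw [RingHom.mem_ker, map_det_submatrix] at this
    exact this
  obtain ⟨Γ₃, hΓ1, hΓ2, Θ, hΓ3⟩ := FF.exists_echelon Ξ₄ h1 h2
  refine ⟨Γ₃, hΓ1, fun {K'} _ f => ?_⟩
  have hrange : LinearMap.range (Ξ₄.map f).mulVecLin = (d.map f).W₃ := by
    rw [hΞ₄]
    exact d.range_map_Ξ₄ f hΨ₂ hΨ₃ hΨ₄
  rw [← hrange]
  refine FF.range_eq_of_echelon (I₀ := I₀) ?_ ⟨Θ.map f, ?_⟩
  · have := congrArg (fun A : Matrix (Fin n₁) (Fin n₁) R => A.map f) hΓ2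
    simp only [Matrix.map_mul] at this
    exact this
  · rw [hΓ3, Matrix.map_mul]

/-- the echelon matrix of the pointwise result is the value of `Γ₃`. -/
theorem eq_map_of_echelon {K' : Type*} [Field K'] (f : R →+* K') {r₃ : ℕ} {I₀ : Fin r₃ → Fin n₁}
    {Γ₃ : Matrix (Fin n₁) (Fin r₃) R} (hΓ₃ : Γ₃.submatrix I₀ id = 1)
    (hrange : LinearMap.range (Γ₃.map f).mulVecLin = (d.map f).W₃)
    {Γ' : Matrix (Fin n₁) (Fin r₃) K'} (hΓ' : Γ'.submatrix I₀ id = 1)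
    (hΓ'W : LinearMap.range Γ'.mulVecLin ≤ (d.map f).W₃) : Γ' = Γ₃.map f := by
  refine FF.echelon_unique_of_range_le ?_ hΓ' (hrange ▸ hΓ'W)
  rw [show (Γ₃.map f).submatrix I₀ id = (Γ₃.submatrix I₀ id).map f from rfl, hΓ₃]
  ext i j
  simp [Matrix.map_apply, Matrix.one_apply, apply_ite f]

end Main

end Fermat.Agent.KMRing
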