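import Mathlib

/-!
# FF / S19, route R-G, seat K': the maximal ideals of a ring of functions (helper2)

Let `B` be a commutative ring, `Kb` a field with `[Algebra B Kb]`, `X` a finite type and
`R : Subalgebra B (X → Kb)` a `B`-algebra of functions all of whose values come from `B`
(`hval`).  Then

* `PtsMax.eval_eq_zero` : the evaluations `ev_x : R → Kb` are jointly injective;
* `PtsMax.exists_ker_eval_le` : every prime ideal of `R` contains the kernel of some `ev_x`;
* `PtsMax.exists_max_of_isMaximal` : every maximal ideal `M` of `R` lies over a point `x` and a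
  maximal ideal `𝔫` of `B`: for `r ∈ M` the value `r x` is the image of an element of `𝔫`;
* `PtsMax.redAt`, `PtsMax.exists_redAt_of_isMaximal` : if every maximal ideal of `B` is induced by
  a valuation subring `A ⊇ B` of `Kb` in a given class, then every maximal ideal of `R` is
  contained in the kernel of a reduction `redAt A x : R →+* ResidueField A`,
  `r ↦ (r x mod 𝔪_A)`.
-/

set_option autoImplicit false
set_option linter.unusedSectionVars false

namespace Fermat.Agent.PtsMax

variable {B : Type*} [CommRing B] {Kb : Type*} [Field Kb] [Algebra B Kb] {X : Type*}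
  (R : Subalgebra B (X → Kb))

/-- evaluation at a point. -/
def evalHom (x : X) : R →+* Kb := (Pi.evalRingHom (fun _ : X => Kb) x).comp R.val.toRingHom

@[simp] theorem evalHom_apply (x : X) (r : R) : evalHom R x r = (r : X → Kb) x := rfl

/-- the evaluations are jointly injective. -/
theorem eval_eq_zero (r : R) (h : ∀ x, evalHom R x r = 0) : r = 0 := by
  apply Subtype.ext
  funext x
  have := h x
  rw [evalHom_apply] at this
  exact this

/-- every prime ideal of `R` contains the kernel of an evaluation. -/
theorem exists_ker_eval_le [Finite X] (P : Ideal R) [hP : P.IsPrime] :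
    ∃ x : X, RingHom.ker (evalHom R x) ≤ P := by
  classical
  have := Fintype.ofFinite X
  have h : (Finset.univ : Finset X).inf (fun x => RingHom.ker (evalHom R x)) ≤ P := by
    intro r hr
    have hr' : ∀ x, evalHom R x r = 0 := by
      intro x
      have := (Finset.inf_le (f := fun x => RingHom.ker (evalHom R x)) (Finset.mem_univ x)) hr
      exact this
    rw [eval_eq_zero R r hr']
    exact P.zero_mem
  obtain ⟨x, -, hx⟩ := (Ideal.IsPrime.inf_le' hP).mp h
  exact ⟨x, hx⟩

variable (hval : ∀ r ∈ R, ∀ x, (r : X → Kb) x ∈ (algebraMap B Kb).range)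

include hval in
/-- **maximal ideals of `R` lie over points and maximal ideals of `B`.** -/
theorem exists_max_of_isMaximal [Finite X] (M : Ideal R) [hM : M.IsMaximal] :
    ∃ (x : X) (𝔫 : Ideal B), 𝔫.IsMaximal ∧ RingHom.ker (evalHom R x) ≤ M ∧
      𝔫 = Ideal.comap (algebraMap B R) M ∧
      ∀ r : R, r ∈ M → ∃ b ∈ 𝔫, algebraMap B Kb b = (r : X → Kb) x := by
  obtain ⟨x, hx⟩ := exists_ker_eval_le R M
  -- every element of `R` is congruent to a constant modulo `ker ev_x`
  have hconst : ∀ r : R, ∃ b : B, r - algebraMap B R b ∈ M := by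
    intro r
    obtain ⟨b, hb⟩ := hval r.1 r.2 x
    refine ⟨b, hx ?_⟩
    rw [RingHom.mem_ker, map_sub, evalHom_apply, evalHom_apply, ← hb]
    have : ((algebraMap B R b : R) : X → Kb) x = algebraMap B Kb b := by
      rw [Subalgebra.coe_algebraMap]
      rfl
    rw [this, sub_self]
  set f : B →+* R ⧸ M := (Ideal.Quotient.mk M).comp (algebraMap B R) with hf
  have hsurj : Function.Surjective f := by
    intro q
    obtain ⟨r, rfl⟩ := Ideal.Quotient.mk_surjective q
    obtain ⟨b, hb⟩ := hconst r
    refine ⟨b, ?_⟩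
    rw [hf, RingHom.comp_apply]
    exact ((Ideal.Quotient.mk_eq_mk_iff_sub_mem _ _).mpr hb).symm
  let _ : Field (R ⧸ M) := Ideal.Quotient.field M
  have hmax : (Ideal.comap f ⊥).IsMaximal :=
    Ideal.comap_isMaximal_of_surjective f hsurj
  have hcomap : Ideal.comap f ⊥ = Ideal.comap (algebraMap B R) M := by
    rw [hf, ← Ideal.comap_comap, ← RingHom.ker_eq_comap_bot, Ideal.mk_ker]
  rw [hcomap] at hmax
  refine ⟨x, _, hmax, hx, rfl, fun r hr => ?_⟩
  obtain ⟨b, hb⟩ := hval r.1 r.2 x
  refine ⟨b, ?_, hb⟩
  rw [Ideal.mem_comap]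
  have h1 : r - algebraMap B R b ∈ M := by
    apply hx
    rw [RingHom.mem_ker, map_sub, evalHom_apply, evalHom_apply, ← hb]
    have : ((algebraMap B R b : R) : X → Kb) x = algebraMap B Kb b := by
      rw [Subalgebra.coe_algebraMap]
      rfl
    rw [this, sub_self]
  have h2 : algebraMap B R b = r - (r - algebraMap B R b) := by ring
  rw [h2]
  exact M.sub_mem hr h1

/-- the values of the elements of `Algebra.adjoin B s` come from `B` if those of `s` do. -/
theorem hval_adjoin (s : Set (X → Kb))
    (hs : ∀ f ∈ s, ∀ x, f x ∈ (algebraMap B Kb).range) :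
    ∀ r ∈ Algebra.adjoin B s, ∀ x, (r : X → Kb) x ∈ (algebraMap B Kb).range := by
  intro r hr x
  induction hr using Algebra.adjoin_induction with
  | mem f hf => exact hs f hf x
  | algebraMap b => exact ⟨b, rfl⟩
  | add f g _ _ hf hg => exact Subring.add_mem _ hf hg
  | mul f g _ _ hf hg => exact Subring.mul_mem _ hf hg

/-! ### reduction at a valuation subring -/

section Red

variable (A : ValuationSubring Kb) (hBA : ∀ b : B, algebraMap B Kb b ∈ A)

include hval hBA in
theorem eval_mem (x : X) (r : R) : (r : X → Kb) x ∈ A := by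
  obtain ⟨b, hb⟩ := hval r.1 r.2 x
  rw [← hb]
  exact hBA b

/-- evaluation at `x` with values in the valuation ring `A`. -/
def evalA (x : X) : R →+* A where
  toFun r := ⟨(r : X → Kb) x, eval_mem R hval A hBA x r⟩
  map_one' := Subtype.ext rfl
  map_mul' _ _ := Subtype.ext rfl
  map_zero' := Subtype.ext rfl
  map_add' _ _ := Subtype.ext rfl

@[simp] theorem coe_evalA (x : X) (r : R) :
    ((evalA R hval A hBA x r : A) : Kb) = (r : X → Kb) x := rfl

/-- the reduction of `R` at the closed point `(x, A)`. -/
noncomputable def redAt (x : X) : R →+* IsLocalRing.ResidueField A :=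
  (IsLocalRing.residue A).comp (evalA R hval A hBA x)

theorem redAt_apply (x : X) (r : R) :
    redAt R hval A hBA x r = IsLocalRing.residue A (evalA R hval A hBA x r) := rfl

theorem redAt_algebraMap (x : X) (b : B) :
    redAt R hval A hBA x (algebraMap B R b) =
      IsLocalRing.residue A ⟨algebraMap B Kb b, hBA b⟩ := by
  rw [redAt_apply]
  congr 1

theorem redAt_eq_zero_iff (x : X) (r : R) :
    redAt R hval A hBA x r = 0 ↔ (r : X → Kb) x ∈ A.nonunits := by
  rw [redAt_apply, IsLocalRing.residue_eq_zero_iff, ← ValuationSubring.coe_mem_nonunits_iff]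
  rfl

end Red

include hval in
/-- **closed points**: if every maximal ideal of `B` is induced by a valuation subring of `Kb`
containing `B` and satisfying `P`, then every maximal ideal of `R` is contained in the kernel of a
reduction `redAt A x` with `P A`. -/
theorem exists_redAt_of_isMaximal [Finite X] (P : ValuationSubring Kb → Prop)
    (hPB : ∀ A, P A → ∀ b : B, algebraMap B Kb b ∈ A)
    (hPL : ∀ 𝔫 : Ideal B, 𝔫.IsMaximal →
      ∃ A : ValuationSubring Kb, P A ∧ ∀ b ∈ 𝔫, algebraMap B Kb b ∈ A.nonunits)
    (M : Ideal R) [hM : M.IsMaximal] :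
    ∃ (x : X) (A : ValuationSubring Kb) (hA : P A),
      M ≤ RingHom.ker (redAt R hval A (hPB A hA) x) := by
  obtain ⟨x, 𝔫, h𝔫, -, -, hr⟩ := exists_max_of_isMaximal R hval M
  obtain ⟨A, hA, hA𝔫⟩ := hPL 𝔫 h𝔫
  refine ⟨x, A, hA, fun r hrM => ?_⟩
  rw [RingHom.mem_ker, redAt_eq_zero_iff]
  obtain ⟨b, hb, hbr⟩ := hr r hrM
  rw [← hbr]
  exact hA𝔫 b hb

end Fermat.Agent.PtsMax
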