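import Mathlib
import Fermat.Agent.Lib.FF.PtsMax
import Fermat.Agent.Lib.FF.PlacesQbar

/-!
# FF / S19, route R-G, seat K': closed points of the ring of coordinate functions (helper2)

`exists_point_place_of_maximal` : every maximal ideal of the `Bint`-algebra of functions on a finite
set `Y` generated by functions with integral values lies under a closed point `(y, A)`, `A` a
valuation subring of `ℚ̄` over `p`.
-/

set_option autoImplicit false

open GaloisRep

namespace Fermat.Agent.FF

local notation "Kb" => AlgebraicClosure ℚ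
local notation "Bint" p => integralClosure (ratLocalizedAt p) Kb

variable {p : ℕ}

/-- the values of the functions in the range of `aeval gen` are integral. -/
theorem aeval_range_hval {Y : Type} {κ : Type} (gen : κ → Y → Kb)
    (hgen : ∀ k y, IsIntegral (ratLocalizedAt p) (gen k y)) :
    ∀ r ∈ (MvPolynomial.aeval gen : MvPolynomial κ (Bint p) →ₐ[Bint p] (Y → Kb)).range,
      ∀ y, (r : Y → Kb) y ∈ (algebraMap (Bint p) Kb).range := by
  rw [← Algebra.adjoin_range_eq_range_aeval]
  apply PtsMax.hval_adjoin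
  rintro _ ⟨k, rfl⟩ y
  exact ⟨⟨gen k y, hgen k y⟩, rfl⟩

/-- **closed points of the coordinate ring** (seat K'). -/
theorem exists_point_place_of_maximal [Fact p.Prime] {Y : Type} [Finite Y] {κ : Type}
    (gen : κ → Y → Kb) (hgen : ∀ k y, IsIntegral (ratLocalizedAt p) (gen k y))
    (M : Ideal ↥(MvPolynomial.aeval gen : MvPolynomial κ (Bint p) →ₐ[Bint p] (Y → Kb)).range)
    (hM : M.IsMaximal) :
    ∃ (y : Y) (A : ValuationSubring Kb), A.LiesOverPrime p ∧
      ∀ f ∈ M, (f : Y → Kb) y ∈ A.nonunits := by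
  obtain ⟨y, 𝔫, h𝔫, -, -, hr⟩ :=
    PtsMax.exists_max_of_isMaximal _ (aeval_range_hval gen hgen) M
  obtain ⟨A, hA, hA𝔫⟩ := pl_exists_of_isMaximal 𝔫
  refine ⟨y, A, hA, fun f hf => ?_⟩
  obtain ⟨b, hb, hbf⟩ := hr f hf
  rw [← hbf]
  exact (hA𝔫 b).mp hb

/-- the reduction `R → k(A)` at a closed point, for the coordinate ring. -/
noncomputable def redPoint [Fact p.Prime] {Y : Type} {κ : Type}
    (gen : κ → Y → Kb) (hgen : ∀ k y, IsIntegral (ratLocalizedAt p) (gen k y))
    (A : ValuationSubring Kb) (hA : A.LiesOverPrime p) (y : Y) :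
    ↥(MvPolynomial.aeval gen : MvPolynomial κ (Bint p) →ₐ[Bint p] (Y → Kb)).range →+*
      IsLocalRing.ResidueField A :=
  PtsMax.redAt _ (aeval_range_hval gen hgen) A
    (fun b => mem_of_isIntegral_of_liesOverPrime A hA b.2) y

theorem redPoint_eq_zero_iff [Fact p.Prime] {Y : Type} {κ : Type}
    (gen : κ → Y → Kb) (hgen : ∀ k y, IsIntegral (ratLocalizedAt p) (gen k y))
    (A : ValuationSubring Kb) (hA : A.LiesOverPrime p) (y : Y)
    (f : ↥(MvPolynomial.aeval gen : MvPolynomial κ (Bint p) →ₐ[Bint p] (Y → Kb)).range) :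
    redPoint gen hgen A hA y f = 0 ↔ (f : Y → Kb) y ∈ A.nonunits :=
  PtsMax.redAt_eq_zero_iff _ _ A _ y f

theorem redPoint_apply [Fact p.Prime] {Y : Type} {κ : Type}
    (gen : κ → Y → Kb) (hgen : ∀ k y, IsIntegral (ratLocalizedAt p) (gen k y))
    (A : ValuationSubring Kb) (hA : A.LiesOverPrime p) (y : Y)
    (f : ↥(MvPolynomial.aeval gen : MvPolynomial κ (Bint p) →ₐ[Bint p] (Y → Kb)).range)
    (hf : (f : Y → Kb) y ∈ A) :
    redPoint gen hgen A hA y f = IsLocalRing.residue A ⟨(f : Y → Kb) y, hf⟩ := rfl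

/-- every maximal ideal is contained in the kernel of a reduction at a closed point. -/
theorem exists_redPoint_of_maximal [Fact p.Prime] {Y : Type} [Finite Y] {κ : Type}
    (gen : κ → Y → Kb) (hgen : ∀ k y, IsIntegral (ratLocalizedAt p) (gen k y))
    (M : Ideal ↥(MvPolynomial.aeval gen : MvPolynomial κ (Bint p) →ₐ[Bint p] (Y → Kb)).range)
    (hM : M.IsMaximal) :
    ∃ (y : Y) (A : ValuationSubring Kb) (hA : A.LiesOverPrime p),
      M ≤ RingHom.ker (redPoint gen hgen A hA y) := by
  obtain ⟨y, A, hA, h⟩ := exists_point_place_of_maximal gen hgen M hM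
  refine ⟨y, A, hA, fun f hf => ?_⟩
  rw [RingHom.mem_ker, redPoint_eq_zero_iff]
  exact h f hf

end Fermat.Agent.FF
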