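/-
FF / S19, route R-G, seat F1: the FORMAL ASSEMBLY (statement: helper97; proof: helper2).

`isFlat_of_kmGeom`: a geometric datum `KMGeom` (Lib/FF/FormalDefs.lean) on a finite Galois module
`W`, indexed by the tuples `τ ∈ ∀ i, Fib i` of a product of towers, gives
`FlatMod.IsFlatGaloisModule p W act`.

Proof.
* coordinates `c τ (i, a) w := 𝒢.Γ τ w i a`; apply `FlatMod.isFlat_of_coords_fibres`
  (family form: separation by units at the ONE place `𝒢.A₀`)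
  (hint = Γ_int, hequiv = Γ_equiv, hsep = sep); what is left is `hadd`.
* `hadd` for `τ`: `R := range (aeval gen)` (the `Bint p`-algebra of functions on `W × W` generated
  by the coordinate functions), the data `d : KMData R ..` (`Γx = Γ τ ∘ fst`, `Γy = Γ τ ∘ snd`,
  constants `m₁ m₂ (Γ τ 0) (X τ)`), `KMRing.exists_sum_matrix` with `φ := PtsMax.evalHom R`
  (ha = good_gen) and `hb := exists_redPoint_of_maximal` + the ONE-PLACE transport: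
  a place `A` over `p` is `σ • A₀` (`PlacesQbar`), the data at `(τ, x, y, A)` are the `σ`-transport
  of the data at `(σ⁻¹τ, σ⁻¹x, σ⁻¹y, A₀)` (Γ_equiv, X_equiv, m_fix), `KMGood` is invariant under
  the isomorphism of residue fields induced by `σ`, so `good_cl` applies.
* `KMRing.eq_map_of_echelon` + `sum_gen` + `Γ_ech`: `Γ τ (x + y) = Γ₃ (x, y)`, an element of
  `Mat(R)`, i.e. a polynomial in the coordinates with coefficients in `Bint p`.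
-/
import Mathlib
import Fermat.Agent.Lib.FF.FormalDefs
import Fermat.Agent.Lib.FF.KMRing
import Fermat.Agent.Lib.FF.KMIso
import Fermat.Agent.Lib.FF.PtsMax
import Fermat.Agent.Lib.FF.PtsMaxQ
import Fermat.Agent.Lib.FF.PlacesQbar
import Fermat.Agent.Lib.FlatMod.OrderOmega

set_option autoImplicit false

noncomputable section

namespace Fermat.Agent.FF

open GaloisRep Fermat.Agent.KMRing Fermat.Agent.FlatMod
open scoped Pointwise

local notation "Kb" => AlgebraicClosure ℚ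
local notation "GK" => (AlgebraicClosure ℚ ≃ₐ[ℚ] AlgebraicClosure ℚ)
local notation "Bint" p => integralClosure (ratLocalizedAt p) Kb

/-- extensionality for `KMData`. -/
theorem kmData_ext {R : Type*} {n₁ n₂ n₄ rx ry e₁ e₂ : ℕ} {d d' : KMData R n₁ n₂ n₄ rx ry e₁ e₂}
    (h₁ : ∀ i j k, d.m₁ i j k = d'.m₁ i j k) (h₂ : ∀ i j k, d.m₂ i j k = d'.m₂ i j k)
    (h₃ : ∀ i a, d.Γx i a = d'.Γx i a) (h₄ : ∀ i a, d.Γy i a = d'.Γy i a)
    (h₅ : ∀ i a, d.E₁ i a = d'.E₁ i a) (h₆ : ∀ i a, d.E₂ i a = d'.E₂ i a) : d = d' := by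
  obtain ⟨m₁, m₂, Γx, Γy, E₁, E₂⟩ := d
  obtain ⟨m₁', m₂', Γx', Γy', E₁', E₂'⟩ := d'
  have e₁ : m₁ = m₁' := funext fun i => funext fun j => funext fun k => h₁ i j k
  have e₂ : m₂ = m₂' := funext fun i => funext fun j => funext fun k => h₂ i j k
  have e₃ : Γx = Γx' := Matrix.ext h₃
  have e₄ : Γy = Γy' := Matrix.ext h₄
  have e₅ : E₁ = E₁' := Matrix.ext h₅
  have e₆ : E₂ = E₂' := Matrix.ext h₆
  subst e₁ e₂ e₃ e₄ e₅ e₆
  rfl

section Setup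

variable {p : ℕ} {W : Type} [AddCommGroup W] {act : GK → W → W}
  {n : Type} {Fib : n → Type} {perm : ∀ i, GK → Fib i → Fib i} {n₁ n₂ n₄ r e₂ : ℕ}
  (𝒢 : KMGeom p W act Fib perm n₁ n₂ n₄ r e₂)

/-- the coordinates. -/
def kmCoord : (∀ i, Fib i) → Fin n₁ × Fin r → W → Kb := fun τ j w => 𝒢.Γ τ w j.1 j.2

/-- the generators of the ring of coordinate functions on `W × W`. -/
def kmGen : ((∀ i, Fib i) × (Fin n₁ × Fin r)) ⊕ ((∀ i, Fib i) × (Fin n₁ × Fin r)) →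
    W × W → Kb :=
  fun k y => Sum.elim (fun k => kmCoord 𝒢 k.1 k.2 y.1) (fun k => kmCoord 𝒢 k.1 k.2 y.2) k

theorem kmGen_int (k) (y : W × W) : IsIntegral (ratLocalizedAt p) (kmGen 𝒢 k y) := by
  rcases k with k | k
  · exact 𝒢.Γ_int k.1 y.1 k.2.1 k.2.2
  · exact 𝒢.Γ_int k.1 y.2 k.2.1 k.2.2

/-- the ring of coordinate functions on `W × W`. -/
abbrev kmRing : Subalgebra (Bint p) (W × W → Kb) :=
  (MvPolynomial.aeval (kmGen 𝒢) :
    MvPolynomial (((∀ i, Fib i) × (Fin n₁ × Fin r)) ⊕ ((∀ i, Fib i) × (Fin n₁ × Fin r)))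
      (Bint p) →ₐ[Bint p] (W × W → Kb)).range

/-- a generator as an element of the ring. -/
def kmGenR (k : ((∀ i, Fib i) × (Fin n₁ × Fin r)) ⊕ ((∀ i, Fib i) × (Fin n₁ × Fin r))) :
    kmRing 𝒢 :=
  ⟨kmGen 𝒢 k, ⟨MvPolynomial.X k, MvPolynomial.aeval_X _ _⟩⟩

/-- a constant as an element of the ring. -/
def kmCst (b : Kb) (hb : IsIntegral (ratLocalizedAt p) b) : kmRing 𝒢 :=
  algebraMap (Bint p) (kmRing 𝒢) ⟨b, hb⟩

theorem coe_kmCst (b : Kb) (hb : IsIntegral (ratLocalizedAt p) b) (y : W × W) :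
    ((kmCst 𝒢 b hb : kmRing 𝒢) : W × W → Kb) y = b := rfl

theorem coe_kmGenR (k) (y : W × W) : ((kmGenR 𝒢 k : kmRing 𝒢) : W × W → Kb) y = kmGen 𝒢 k y :=
  rfl

/-- the Khuri-Makdisi data over the ring of coordinate functions. -/
def kmDataR (τ : ∀ i, Fib i) : KMData (kmRing 𝒢) n₁ n₂ n₄ r r r e₂ where
  m₁ := fun i j k => kmCst 𝒢 (𝒢.m₁ i j k) (𝒢.m₁_int i j k)
  m₂ := fun i j k => kmCst 𝒢 (𝒢.m₂ i j k) (𝒢.m₂_int i j k)
  Γx := Matrix.of fun i a => kmGenR 𝒢 (Sum.inl (τ, (i, a)))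
  Γy := Matrix.of fun i a => kmGenR 𝒢 (Sum.inr (τ, (i, a)))
  E₁ := Matrix.of fun i a => kmCst 𝒢 (𝒢.Γ τ 0 i a) (𝒢.Γ_int τ 0 i a)
  E₂ := Matrix.of fun i a => kmCst 𝒢 (𝒢.X τ i a) (𝒢.X_int τ i a)

/-- at a generic point the data are the data of `KMGeom`. -/
theorem kmDataR_map_eval (τ : ∀ i, Fib i) (y : W × W) :
    (kmDataR 𝒢 τ).map (PtsMax.evalHom (kmRing 𝒢) y) =
      kmDataAt 𝒢.m₁ 𝒢.m₂ (𝒢.Γ τ) (𝒢.X τ) y.1 y.2 := by
  apply kmData_ext <;> intros <;> rfl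

/-- `E₂` has a left inverse over the ring. -/
theorem kmDataR_leftInv (τ : ∀ i, Fib i) :
    ∃ L : Matrix (Fin e₂) (Fin n₂) (kmRing 𝒢), L * (kmDataR 𝒢 τ).E₂ = 1 := by
  refine ⟨Matrix.of fun a i => kmCst 𝒢 (𝒢.Lx τ a i) (𝒢.Lx_int τ a i), ?_⟩
  ext a b y
  have h := congrFun (congrFun (𝒢.Lx_mul_X τ) a) b
  rw [Matrix.mul_apply] at h
  rw [Matrix.mul_apply]
  have hsum : ((∑ j, Matrix.of (fun a i => kmCst 𝒢 (𝒢.Lx τ a i) (𝒢.Lx_int τ a i)) a j *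
      (kmDataR 𝒢 τ).E₂ j b : kmRing 𝒢) : W × W → Kb) y = ∑ j, 𝒢.Lx τ a j * 𝒢.X τ j b := by
    rw [AddSubmonoidClass.coe_finsetSum, Finset.sum_apply]
    rfl
  rw [hsum, h]
  by_cases hab : a = b
  · subst hab
    simp
  · simp [hab]

end Setup

section Closed

variable {p : ℕ} [Fact p.Prime] {W : Type} [AddCommGroup W] {act : GK → W → W}
  {n : Type} {Fib : n → Type} {perm : ∀ i, GK → Fib i → Fib i} {n₁ n₂ n₄ r e₂ : ℕ}
  (𝒢 : KMGeom p W act Fib perm n₁ n₂ n₄ r e₂)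

/-- the integral model over `A₀` of the data at `(τ', x', y')`. -/
def kmDataA₀ (τ' : ∀ i, Fib i) (x' y' : W) : KMData 𝒢.A₀ n₁ n₂ n₄ r r r e₂ where
  m₁ := fun i j k =>
    ⟨𝒢.m₁ i j k, mem_of_isIntegral_of_liesOverPrime 𝒢.A₀ 𝒢.hA₀ (𝒢.m₁_int i j k)⟩
  m₂ := fun i j k =>
    ⟨𝒢.m₂ i j k, mem_of_isIntegral_of_liesOverPrime 𝒢.A₀ 𝒢.hA₀ (𝒢.m₂_int i j k)⟩
  Γx := Matrix.of fun i a =>
    ⟨𝒢.Γ τ' x' i a, mem_of_isIntegral_of_liesOverPrime 𝒢.A₀ 𝒢.hA₀ (𝒢.Γ_int τ' x' i a)⟩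
  Γy := Matrix.of fun i a =>
    ⟨𝒢.Γ τ' y' i a, mem_of_isIntegral_of_liesOverPrime 𝒢.A₀ 𝒢.hA₀ (𝒢.Γ_int τ' y' i a)⟩
  E₁ := Matrix.of fun i a =>
    ⟨𝒢.Γ τ' 0 i a, mem_of_isIntegral_of_liesOverPrime 𝒢.A₀ 𝒢.hA₀ (𝒢.Γ_int τ' 0 i a)⟩
  E₂ := Matrix.of fun i a =>
    ⟨𝒢.X τ' i a, mem_of_isIntegral_of_liesOverPrime 𝒢.A₀ 𝒢.hA₀ (𝒢.X_int τ' i a)⟩

theorem kmDataA₀_map_subtype (τ' : ∀ i, Fib i) (x' y' : W) :
    (kmDataA₀ 𝒢 τ' x' y').map 𝒢.A₀.subtype = kmDataAt 𝒢.m₁ 𝒢.m₂ (𝒢.Γ τ') (𝒢.X τ') x' y' := by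
  apply kmData_ext <;> intros <;> rfl

omit [Fact p.Prime] in
theorem residue_eq_residueEquivSMul (σ : GK) (A₀ : ValuationSubring Kb) (a b : Kb) (ha : a ∈ A₀)
    (hb : b ∈ σ • A₀) (h : b = σ a) :
    IsLocalRing.residue ↥(σ • A₀) ⟨b, hb⟩ =
      residueEquivSMul σ A₀ (IsLocalRing.residue A₀ ⟨a, ha⟩) := by
  subst h
  rw [residueEquivSMul_residue]

variable (hact : ∀ (σ : GK) (w w' : W), act σ (w + w') = act σ w + act σ w')
  (hact_one : ∀ w, act 1 w = w) (hact_mul : ∀ (σ τ : GK) w, act (σ * τ) w = act σ (act τ w))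
  (hperm_one : ∀ i P, perm i 1 P = P)
  (hperm_mul : ∀ i (σ τ : GK) P, perm i (σ * τ) P = perm i σ (perm i τ P))

include hact hact_one hact_mul hperm_one hperm_mul in
/-- **one-place transport**: `KMGood` at the closed point `(y, σ • A₀)`. -/
theorem kmGood_closed (τ : ∀ i, Fib i) (y : W × W) (σ : GK)
    (hA : (σ • 𝒢.A₀).LiesOverPrime p) :
    KMGood ((kmDataR 𝒢 τ).map (redPoint (kmGen 𝒢) (kmGen_int 𝒢) (σ • 𝒢.A₀) hA y))
      𝒢.ρ 𝒢.I₀ := by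
  set τ' : ∀ i, Fib i := fun i => perm i σ⁻¹ (τ i) with hτ'
  have hτ : (fun i => perm i σ (τ' i)) = τ := by
    funext i
    rw [hτ', ← hperm_mul, mul_inv_cancel, hperm_one]
  have hactσ : ∀ w, act σ (act σ⁻¹ w) = w := by
    intro w
    rw [← hact_mul, mul_inv_cancel, hact_one]
  have hact0 : ∀ ρ : GK, act ρ 0 = 0 := by
    intro ρ
    have := hact ρ 0 0
    rw [add_zero] at this
    exact left_eq_add.mp this
  have hΓ : ∀ w i a, 𝒢.Γ τ w i a = σ (𝒢.Γ τ' (act σ⁻¹ w) i a) := by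
    intro w i a
    rw [← 𝒢.Γ_equiv τ' σ (act σ⁻¹ w) i a, hτ, hactσ]
  have hX : ∀ i a, 𝒢.X τ i a = σ (𝒢.X τ' i a) := by
    intro i a
    rw [← 𝒢.X_equiv τ' σ i a, hτ]
  have hgood := 𝒢.good_cl τ' (act σ⁻¹ y.1) (act σ⁻¹ y.2)
    (kmDataA₀ 𝒢 τ' (act σ⁻¹ y.1) (act σ⁻¹ y.2)) (kmDataA₀_map_subtype 𝒢 _ _ _)
  have h2 := hgood.map_ringEquiv (residueEquivSMul σ 𝒢.A₀)
  have heq : (kmDataR 𝒢 τ).map (redPoint (kmGen 𝒢) (kmGen_int 𝒢) (σ • 𝒢.A₀) hA y) =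
      ((kmDataA₀ 𝒢 τ' (act σ⁻¹ y.1) (act σ⁻¹ y.2)).map (IsLocalRing.residue 𝒢.A₀)).map
        (residueEquivSMul σ 𝒢.A₀ : IsLocalRing.ResidueField 𝒢.A₀ →+* _) := by
    apply kmData_ext
    · intro i j k
      exact residue_eq_residueEquivSMul σ 𝒢.A₀ _ _ _ _ (𝒢.m₁_fix σ i j k).symm
    · intro i j k
      exact residue_eq_residueEquivSMul σ 𝒢.A₀ _ _ _ _ (𝒢.m₂_fix σ i j k).symm
    · intro i a
      exact residue_eq_residueEquivSMul σ 𝒢.A₀ _ _ _ _ (hΓ y.1 i a)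
    · intro i a
      exact residue_eq_residueEquivSMul σ 𝒢.A₀ _ _ _ _ (hΓ y.2 i a)
    · intro i a
      have h0 := hΓ 0 i a
      rw [hact0] at h0
      exact residue_eq_residueEquivSMul σ 𝒢.A₀ _ _ _ _ h0
    · intro i a
      exact residue_eq_residueEquivSMul σ 𝒢.A₀ _ _ _ _ (hX i a)
  rw [heq]
  exact h2

end Closed

/-- evaluation of `aeval` of functions at a point. -/
theorem aeval_pi_apply {B : Type*} [CommRing B] {Kb' : Type*} [CommRing Kb'] [Algebra B Kb']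
    {Y κ : Type*} (g : κ → Y → Kb') (P : MvPolynomial κ B) (y : Y) :
    (MvPolynomial.aeval g P : Y → Kb') y = MvPolynomial.aeval (fun k => g k y) P := by
  have h := MvPolynomial.comp_aeval_apply (f := g) (Pi.evalAlgHom B (fun _ : Y => Kb') y) P
  exact h

/-- **Formal assembly** (seat F1). -/
theorem isFlat_of_kmGeom {p : ℕ} [Fact p.Prime] {W : Type} [AddCommGroup W] [Finite W]
    (act : GK → W → W) (hact : ∀ (σ : GK) (w w' : W), act σ (w + w') = act σ w + act σ w')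
    (hact_one : ∀ w, act 1 w = w) (hact_mul : ∀ (σ τ : GK) w, act (σ * τ) w = act σ (act τ w))
    {n : Type} [Finite n] {Fib : n → Type} [∀ i, Finite (Fib i)]
    (perm : ∀ i, GK → Fib i → Fib i)
    (hperm_one : ∀ i P, perm i 1 P = P)
    (hperm_mul : ∀ i (σ τ : GK) P, perm i (σ * τ) P = perm i σ (perm i τ P))
    {J : Type} [Finite J] (s : ∀ i, J → Fib i → Kb)
    (hsint : ∀ i j P, IsIntegral (ratLocalizedAt p) (s i j P))
    (hseq : ∀ i j (σ : GK) P, s i j (perm i σ P) = σ (s i j P))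
    {n₁ n₂ n₄ r e₂ : ℕ} (𝒢 : KMGeom p W act Fib perm n₁ n₂ n₄ r e₂)
    (hunit : ∀ i (P P' : Fib i), P ≠ P' → ∃ j, 𝒢.A₀.valuation (s i j P - s i j P') = 1) :
    IsFlatGaloisModule p W act := by
  classical
  have htrans : ∀ A : ValuationSubring Kb, A.LiesOverPrime p →
      ∃ σ : GK, ∀ x : Kb, x ∈ 𝒢.A₀ → σ x ∈ A := by
    intro A hA
    obtain ⟨σ, rfl⟩ := exists_smul_eq_of_liesOverPrime 𝒢.A₀ A 𝒢.hA₀ hA
    exact ⟨σ, fun x hx => ValuationSubring.smul_mem_pointwise_smul σ x 𝒢.A₀ hx⟩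
  refine isFlat_of_coords_fibres act hact perm s hsint hseq 𝒢.A₀ htrans hunit (kmCoord 𝒢)
    (fun τ j w => 𝒢.Γ_int τ w j.1 j.2) (fun τ j σ w => 𝒢.Γ_equiv τ σ w j.1 j.2) ?_ ?_
  · intro w w' h
    apply 𝒢.sep
    intro τ
    ext i a
    exact h τ (i, a)
  · intro τ j
    have key : ∃ Γ₃ : Matrix (Fin n₁) (Fin r) (kmRing 𝒢), Γ₃.submatrix 𝒢.I₀ id = 1 ∧
        ∀ {K' : Type} [Field K'] (f : kmRing 𝒢 →+* K'),
          LinearMap.range (Γ₃.map f).mulVecLin = ((kmDataR 𝒢 τ).map f).W₃ := by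
      refine KMRing.exists_sum_matrix (kmDataR 𝒢 τ) (kmDataR_leftInv 𝒢 τ) 𝒢.ρ 𝒢.I₀
        (PtsMax.evalHom (kmRing 𝒢)) (PtsMax.eval_eq_zero _) (fun y => ?_) (fun M hM => ?_)
      · rw [kmDataR_map_eval]
        exact 𝒢.good_gen τ y.1 y.2
      · obtain ⟨y, A, hA, hle⟩ := exists_redPoint_of_maximal (kmGen 𝒢) (kmGen_int 𝒢) M hM
        obtain ⟨σ, rfl⟩ := exists_smul_eq_of_liesOverPrime 𝒢.A₀ A 𝒢.hA₀ hA
        exact ⟨_, inferInstance, _, hle,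
          kmGood_closed 𝒢 hact hact_one hact_mul hperm_one hperm_mul τ y σ hA⟩
    obtain ⟨Γ₃, hΓ₃, hrange⟩ := key
    obtain ⟨P, hP⟩ := (Γ₃ j.1 j.2).2
    refine ⟨P, fun w w' => ?_⟩
    have h1 := KMRing.eq_map_of_echelon (kmDataR 𝒢 τ) (PtsMax.evalHom (kmRing 𝒢) (w, w')) hΓ₃
      (hrange _) (𝒢.Γ_ech τ (w + w'))
      (by rw [kmDataR_map_eval]; exact (𝒢.sum_gen τ w w').le)
    have h2 : 𝒢.Γ τ (w + w') j.1 j.2 = ((Γ₃ j.1 j.2 : kmRing 𝒢) : W × W → Kb) (w, w') :=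
      congrFun (congrFun h1 j.1) j.2
    have h3 : ((Γ₃ j.1 j.2 : kmRing 𝒢) : W × W → Kb) (w, w') =
        MvPolynomial.aeval (fun k => kmGen 𝒢 k (w, w')) P := by
      rw [← aeval_pi_apply]
      exact congrFun hP.symm (w, w')
    have h4 : (fun k => kmGen 𝒢 k (w, w')) =
        Sum.elim (fun k => kmCoord 𝒢 k.1 k.2 w) (fun k => kmCoord 𝒢 k.1 k.2 w') := by
      funext k
      rcases k with k | k <;> rfl
    rw [← h4, ← h3, ← h2]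
    rfl

end Fermat.Agent.FF
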