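/-
FF / S19, transfer step (helper12), part 1: the pull-back homomorphism on `Pic⁰` along a morphism
of function fields, its compatibility with semilinear automorphisms, and the injectivity
criterion on torsion.  General fields.
-/
import Mathlib
import Fermat.Prelude.Def_AlgebraicCurve_Correspondence
import Fermat.Agent.F3.Galois.Intertwine

set_option autoImplicit false

noncomputable section

namespace Fermat.Agent.FF

open AlgebraicCurve

variable {K F F' : Type*} [Field K] [Field F] [Field F'] [Algebra K F] [Algebra K F']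
variable [HasPrincipalDivisors K F']
variable (φ : F →ₐ[K] F') (hφ : φ.toRingHom.IsIntegral)
variable (hFI : FundamentalIdentityAlong K φ hφ)

/-- pull-back of divisors of degree `0`. -/
def degZeroPull :
    Divisor.degZero (K := K) (F := F) →+ Divisor.degZero (K := K) (F := F') :=
  ((Divisor.pullbackAlong φ hφ).domRestrict
    (Divisor.degZero (K := K) (F := F))).codRestrict _
    (fun D => Divisor.pullbackAlong_mem_degZero φ hφ hFI D.2)

@[simp]
theorem coe_degZeroPull (D : Divisor.degZero (K := K) (F := F)) :
    (degZeroPull φ hφ hFI D : Divisor K F') = Divisor.pullbackAlong φ hφ (D : Divisor K F) :=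
  rfl

/-- the pull-back homomorphism `Pic⁰(F) → Pic⁰(F')`. -/
def pullPic : Pic0 K F →+ Pic0 K F' :=
  QuotientAddGroup.map _ _ (degZeroPull φ hφ hFI) (by
    rintro ⟨D, hD0⟩ hD
    simp only [AddSubgroup.mem_addSubgroupOf] at hD ⊢
    exact Divisor.isPrincipal_pullbackAlong φ hφ hD)

theorem pullPic_mk (D : Divisor.degZero (K := K) (F := F)) :
    pullPic φ hφ hFI (Pic0.mk D) = Pic0.mk (degZeroPull φ hφ hFI D) :=
  rfl

/-- the pull-back commutes with intertwined semilinear automorphisms. -/
theorem pullPic_smul {g : SemilinearAut K F} {g' : SemilinearAut K F'}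
    (h : SemilinearAut.IntertwinesAlong φ.toRingHom g g') (x : Pic0 K F) :
    pullPic φ hφ hFI (g • x) = g' • pullPic φ hφ hFI x := by
  obtain ⟨D, rfl⟩ := Pic0.mk_surjective x
  rw [SemilinearAut.pic0_smul_mk, pullPic_mk, pullPic_mk, SemilinearAut.pic0_smul_mk]
  refine congrArg Pic0.mk (Subtype.ext ?_)
  rw [coe_degZeroPull, SemilinearAut.coe_degZeroSMulHom, SemilinearAut.coe_degZeroSMulHom,
    coe_degZeroPull]
  exact Fermat.Agent.F3G.pullbackAlong_smul φ hφ h D

/-- a class is `0` iff its divisors are principal. -/
theorem mk_eq_zero_iff {D : Divisor.degZero (K := K) (F := F)} :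
    Pic0.mk D = 0 ↔ Divisor.IsPrincipal (D : Divisor K F) := by
  unfold Pic0.mk
  rw [QuotientAddGroup.eq_zero_iff]
  rfl

end Fermat.Agent.FF
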