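/-
FF / S19, seat T (helper93): transfer and packaging.

* `torsAct N n σ` : the Galois action on `J₀(N)[n]`;
* `FlatTorsionAt N ℓ k` : `J₀(N)[ℓ^k]` is the module of `ℚ̄`-points of a finite flat commutative
  group scheme over `ℤ_(ℓ)` (`FlatMod.IsFlatGaloisModule`);
* `flatTorsionAt_of_mul` : `FlatTorsionAt (r * N) ℓ k → FlatTorsionAt N ℓ k` as soon as
  `F3T.TransferCore N r` (the pull-back `J₀(N) → J₀(rN)` is injective on torsion, helper12's
  `pullJZero_eq_zero_of_torsion`, and sub-objects of flat modules are flat);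
* `flatTorsionAt_of_aux` : it suffices to treat the auxiliary levels `M` with `4 ∣ M` or `9 ∣ M`
  (`M = 4 N` for `ℓ ≠ 2`, `M = 9 N` for `ℓ = 2`);
* `S19Statement` (the literal statement of S19) and `s19Statement_of_aux`.
-/
import Mathlib
import Fermat.Agent.Lib.FF.PullJZero
import Fermat.Agent.Lib.FlatMod.Sub

set_option autoImplicit false
set_option linter.style.haveILetI false

noncomputable section

namespace Fermat.Agent.FF

open ModularCurve AlgebraicCurve Fermat.Agent.F3T Fermat.Agent.FlatMod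

local notation "GK" => (AlgebraicClosure ℚ ≃ₐ[ℚ] AlgebraicClosure ℚ)

/-- the Galois action preserves the `n`-torsion. -/
theorem smul_mem_torsionBy (N : ℕ) (n : ℤ) (σ : GK) {x : JZero N}
    (hx : x ∈ Submodule.torsionBy ℤ (JZero N) n) :
    σ • x ∈ Submodule.torsionBy ℤ (JZero N) n := by
  rw [Submodule.mem_torsionBy_iff] at hx ⊢
  have h1 : n • (σ • x) = σ • (n • x) :=
    (map_zsmul (DistribSMul.toAddMonoidHom (JZero N) σ) n x).symm
  rw [h1, hx, smul_zero]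

/-- the Galois action on `J₀(N)[n]`. -/
def torsAct (N : ℕ) (n : ℤ) (σ : GK) (x : ↥(Submodule.torsionBy ℤ (JZero N) n)) :
    ↥(Submodule.torsionBy ℤ (JZero N) n) :=
  ⟨σ • (x : JZero N), smul_mem_torsionBy N n σ x.2⟩

@[simp]
theorem coe_torsAct (N : ℕ) (n : ℤ) (σ : GK) (x : ↥(Submodule.torsionBy ℤ (JZero N) n)) :
    ((torsAct N n σ x : ↥(Submodule.torsionBy ℤ (JZero N) n)) : JZero N) = σ • (x : JZero N) :=
  rfl

/-- `J₀(N)[ℓ^k]` is the module of `ℚ̄`-points of a finite flat commutative group scheme over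
`ℤ_(ℓ)`. -/
def FlatTorsionAt (N ℓ k : ℕ) : Prop :=
  IsFlatGaloisModule ℓ ↥(Submodule.torsionBy ℤ (JZero N) ((ℓ : ℤ) ^ k))
    (torsAct N ((ℓ : ℤ) ^ k))

/-- the literal conclusion of S19 at level `p`. -/
def S19At (p ℓ k : ℕ) : Prop :=
  ∃ (H : Type) (_ : CommRing H) (_ : HopfAlgebra (GaloisRep.ratLocalizedAt ℓ) H),
    Module.Finite (GaloisRep.ratLocalizedAt ℓ) H ∧ Module.Flat (GaloisRep.ratLocalizedAt ℓ) H ∧
    Coalgebra.IsCocomm (GaloisRep.ratLocalizedAt ℓ) H ∧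
    ∃ e : WithConv (H →ₐ[GaloisRep.ratLocalizedAt ℓ] AlgebraicClosure ℚ) ≃
        ↥(Submodule.torsionBy ℤ (JZero p) ((ℓ : ℤ) ^ k)),
      (∀ f g, e (f * g) = e f + e g) ∧
      ∀ (σ : AlgebraicClosure ℚ ≃ₐ[ℚ] AlgebraicClosure ℚ)
        (f g : WithConv (H →ₐ[GaloisRep.ratLocalizedAt ℓ] AlgebraicClosure ℚ)),
        (∀ h : H, g h = σ (f h)) → ((e g : JZero p)) = σ • (e f : JZero p)

/-- packaging: `FlatTorsionAt` is the conclusion of S19. -/
theorem s19At_of_flatTorsionAt {p ℓ k : ℕ} (h : FlatTorsionAt p ℓ k) : S19At p ℓ k := by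
  obtain ⟨H, i1, i2, h1, h2, h3, e, he1, he2⟩ := h
  refine ⟨H, i1, i2, h1, h2, h3, e, he1, fun σ f g hfg => ?_⟩
  rw [he2 σ f g hfg]
  rfl

theorem flatTorsionAt_of_s19At {p ℓ k : ℕ} (h : S19At p ℓ k) : FlatTorsionAt p ℓ k := by
  obtain ⟨H, i1, i2, h1, h2, h3, e, he1, he2⟩ := h
  exact ⟨H, i1, i2, h1, h2, h3, e, he1, fun σ f g hfg => Subtype.ext (he2 σ f g hfg)⟩

/-- the pull-back on torsion. -/
def pullTors {N M : ℕ} [NeZero N] [NeZero M] (h : N ∣ M) (n : ℤ) :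
    ↥(Submodule.torsionBy ℤ (JZero N) n) →+ ↥(Submodule.torsionBy ℤ (JZero M) n) where
  toFun x := ⟨pullJZero h (x : JZero N), by
    rw [Submodule.mem_torsionBy_iff, ← map_zsmul, (Submodule.mem_torsionBy_iff _ _).mp x.2,
      map_zero]⟩
  map_zero' := Subtype.ext (map_zero _)
  map_add' x y := Subtype.ext (map_add _ _ _)

@[simp]
theorem coe_pullTors {N M : ℕ} [NeZero N] [NeZero M] (h : N ∣ M) (n : ℤ)
    (x : ↥(Submodule.torsionBy ℤ (JZero N) n)) :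
    ((pullTors h n x : ↥(Submodule.torsionBy ℤ (JZero M) n)) : JZero M) =
      pullJZero h (x : JZero N) :=
  rfl

/-- **Transfer.**  `J₀(N)[ℓ^k]` is flat as soon as `J₀(rN)[ℓ^k]` is. -/
theorem flatTorsionAt_of_mul (N r : ℕ) [NeZero N] [NeZero r] (hc : TransferCore N r)
    (ℓ k : ℕ) [Fact ℓ.Prime] (h : FlatTorsionAt (r * N) ℓ k) : FlatTorsionAt N ℓ k := by
  have hdvd : N ∣ r * N := Dvd.intro_left r rfl
  have hℓ : 0 < ℓ ^ k := pow_pos (Fact.out : ℓ.Prime).pos k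
  refine isFlat_of_injective_aux h (pullTors hdvd ((ℓ : ℤ) ^ k)) ?_ ?_
  · rw [injective_iff_map_eq_zero]
    intro x hx
    apply Subtype.ext
    have hx0 : pullJZero hdvd (x : JZero N) = 0 := congrArg Subtype.val hx
    have hxt : (ℓ ^ k) • (x : JZero N) = 0 := by
      have := (Submodule.mem_torsionBy_iff _ _).mp x.2
      rw [← natCast_zsmul]
      push_cast
      exact this
    exact pullJZero_eq_zero_of_torsion N r hc (ℓ ^ k) hℓ (x : JZero N) hxt hx0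
  · intro σ x
    apply Subtype.ext
    exact pullJZero_smul hdvd σ (x : JZero N)

/-- **Reduction to the auxiliary levels.**  It suffices to treat the levels `M` with `4 ∣ M` or
`9 ∣ M` (and `ℓ ∤ M`). -/
theorem flatTorsionAt_of_aux (N ℓ k : ℕ) [NeZero N] [Fact ℓ.Prime] (hℓN : ¬ ℓ ∣ N)
    (h : ∀ M : ℕ, M ≠ 0 → ¬ ℓ ∣ M → (4 ∣ M ∨ 9 ∣ M) → FlatTorsionAt M ℓ k) :
    FlatTorsionAt N ℓ k := by
  have hℓ : ℓ.Prime := Fact.out
  by_cases h2 : ℓ = 2
  · -- use `9 N`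
    refine flatTorsionAt_of_mul N 9 (transferCore_nine N) ℓ k
      (h (9 * N) (mul_ne_zero (by norm_num) (NeZero.ne N)) ?_ (Or.inr (dvd_mul_right 9 N)))
    intro hd
    rcases (Nat.Prime.dvd_mul hℓ).mp hd with hd | hd
    · rw [h2] at hd
      norm_num at hd
    · exact hℓN hd
  · -- use `4 N`
    refine flatTorsionAt_of_mul N 4 (transferCore_four N) ℓ k
      (h (4 * N) (mul_ne_zero (by norm_num) (NeZero.ne N)) ?_ (Or.inl (dvd_mul_right 4 N)))
    intro hd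
    rcases (Nat.Prime.dvd_mul hℓ).mp hd with hd | hd
    · have h4 : ℓ ∣ 2 ^ 2 := by norm_num; exact hd
      have := (Nat.prime_dvd_prime_iff_eq hℓ Nat.prime_two).mp (hℓ.dvd_of_dvd_pow h4)
      exact h2 this
    · exact hℓN hd

/-- the literal statement of S19. -/
def S19Statement : Prop :=
  ∀ (p : ℕ) [NeZero p] (ℓ : ℕ) [Fact ℓ.Prime] (_ : ¬ ℓ ∣ p) (k : ℕ), S19At p ℓ k

/-- **S19 from the auxiliary levels.** -/
theorem s19Statement_of_aux
    (h : ∀ (M ℓ k : ℕ), M ≠ 0 → ℓ.Prime → ¬ ℓ ∣ M → (4 ∣ M ∨ 9 ∣ M) → FlatTorsionAt M ℓ k) :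
    S19Statement := by
  intro p _ ℓ _ hℓp k
  exact s19At_of_flatTorsionAt
    (flatTorsionAt_of_aux p ℓ k hℓp (fun M hM hℓM h49 => h M ℓ k hM Fact.out hℓM h49))

/-- S19 in the literal form of the frozen statement, from the auxiliary levels. -/
theorem s19_of_aux
    (h : ∀ (M ℓ k : ℕ), M ≠ 0 → ℓ.Prime → ¬ ℓ ∣ M → (4 ∣ M ∨ 9 ∣ M) → FlatTorsionAt M ℓ k)
    (p : ℕ) [NeZero p] (ℓ : ℕ) [Fact ℓ.Prime] (hℓp : ¬ ℓ ∣ p) (k : ℕ) :
    ∃ (H : Type) (_ : CommRing H) (_ : HopfAlgebra (GaloisRep.ratLocalizedAt ℓ) H),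
      Module.Finite (GaloisRep.ratLocalizedAt ℓ) H ∧ Module.Flat (GaloisRep.ratLocalizedAt ℓ) H ∧
      Coalgebra.IsCocomm (GaloisRep.ratLocalizedAt ℓ) H ∧
      ∃ e : WithConv (H →ₐ[GaloisRep.ratLocalizedAt ℓ] AlgebraicClosure ℚ) ≃
          ↥(Submodule.torsionBy ℤ (JZero p) ((ℓ : ℤ) ^ k)),
        (∀ f g, e (f * g) = e f + e g) ∧
        ∀ (σ : AlgebraicClosure ℚ ≃ₐ[ℚ] AlgebraicClosure ℚ)
          (f g : WithConv (H →ₐ[GaloisRep.ratLocalizedAt ℓ] AlgebraicClosure ℚ)),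
          (∀ h : H, g h = σ (f h)) → ((e g : JZero p)) = σ • (e f : JZero p) :=
  s19Statement_of_aux h p ℓ hℓp k

end Fermat.Agent.FF
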