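/-
FF / S19, route R-G, seat F2 (geometric assembly, architect helper97): the INPUT structures.

Everything is abstract in the function field `F / ℚ̄` (in the application
`F = modularFunctionFieldBar M`, `Fk = modularFunctionFieldFullC (ResidueField A₀) M`):

* `GeomSetup p F Fk A₀`   : Riemann-Roch, the ONE place `A₀` over `p` with its constant reduction
                            `S` (`S.A = A₀`, `S.res = residue`), Deuring's reduction map `r`, the
                            semilinear Galois action `gal`, the Galois-fixed place `oo`.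
* `RatBases 𝒮 M₀ g ..`    : seat D1: Galois-invariant orthonormal bases of `L(T)`, `L(2T)`,
                            `L(4T)` (`T = M₀ • oo`), adapted to the chart `L((2g-1) oo)`, with
                            their structure constants.
* `GoodFibres 𝒮 ι g`      : seat FIB: the fibres `Fib i` of places, separated by units, such that
                            EVERY tuple `τ ∈ Π Fib i` is good at `A₀` for every `w ∈ W`.

The geometric assembly is `isFlat_of_geom` (Lib/FF/Geom.lean):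
`GeomSetup + RatBases + GoodFibres ⇒ IsFlatGaloisModule p W act`, by constructing a `KMGeom`
(Lib/FF/FormalDefs.lean) and applying `isFlat_of_kmGeom` (Lib/FF/Formal.lean).
-/
import Mathlib
import Fermat.Prelude.Def_AlgebraicCurve_BaseChangeGalois
import Fermat.Prelude.Def_FLTPrelim_Ramification
import Fermat.Prelude.Def_GaloisRep_Flat
import Fermat.Agent.Lib.Deuring.Setup
import Fermat.Agent.Lib.FF.RedCore
import Fermat.Agent.Lib.FF.GoodEll.Chart

set_option autoImplicit false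

noncomputable section

namespace Fermat.Agent.FF

open AlgebraicCurve GaloisRep Fermat.Agent.RR Fermat.Agent.Deuring Fermat.Agent.FFGoodEll

local notation "Kb" => AlgebraicClosure ℚ
local notation "GK" => (AlgebraicClosure ℚ ≃ₐ[ℚ] AlgebraicClosure ℚ)

/-- A function field over `ℚ̄` with Riemann-Roch, a semilinear action of `G_ℚ`, a Galois-fixed
place `oo`, and Deuring's reduction at ONE place `A₀` of `ℚ̄` over `p`. -/
structure GeomSetup (p : ℕ) (F Fk : Type) [Field F] [Algebra Kb F]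
    (A₀ : ValuationSubring Kb) [Field Fk] [Algebra (IsLocalRing.ResidueField A₀) Fk] where
  hA₀ : A₀.LiesOverPrime p
  /-- the constant reduction at `A₀` -/
  S : ValSetup Kb F (IsLocalRing.ResidueField A₀) Fk
  S_A : S.A = A₀
  S_res : ∀ (a : Kb) (ha : a ∈ S.A) (ha' : a ∈ A₀),
    S.res ⟨a, ha⟩ = IsLocalRing.residue A₀ ⟨a, ha'⟩
  hL : HasLattice S
  hg : genusFF Kb F = genusFF (IsLocalRing.ResidueField A₀) Fk
  inf_k : Infinite (IsLocalRing.ResidueField A₀)
  /-- Deuring's reduction of places -/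
  r : Place Kb F → Place (IsLocalRing.ResidueField A₀) Fk
  hr : IsReduction S r
  /-- the Galois action -/
  gal : GK →* SemilinearAut Kb F
  gal_base : ∀ (σ : GK) (c : Kb), gal σ • (algebraMap Kb F c) = algebraMap Kb F (σ c)
  /-- the place `∞` -/
  oo : Place Kb F
  gal_oo : ∀ σ : GK, gal σ • oo = oo

variable {p : ℕ} {F Fk : Type} [Field F] [Algebra Kb F] {A₀ : ValuationSubring Kb} [Field Fk]
  [Algebra (IsLocalRing.ResidueField A₀) Fk]

/-- Riemann-Roch on the generic fibre. -/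
theorem GeomSetup.hRR (𝒮 : GeomSetup p F Fk A₀) : IsRRField Kb F := 𝒮.S.hF

/-- the divisor `T = M₀ • oo`. -/
def GeomSetup.T (𝒮 : GeomSetup p F Fk A₀) (M₀ : ℕ) : Divisor Kb F :=
  Finsupp.single 𝒮.oo (M₀ : ℤ)

/-- the chart divisor `(2g - 1) • oo`. -/
def GeomSetup.chartDiv (𝒮 : GeomSetup p F Fk A₀) : Divisor Kb F :=
  Finsupp.single 𝒮.oo (2 * (genusFF Kb F : ℤ) - 1)

/-- **Seat D1**: Galois-invariant orthonormal bases of `L(T)`, `L(2T)` and of a space containing
`L(2T) · L(2T)`, adapted to the chart, with integral Galois-fixed structure constants.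
`I₁`, `I₂` are the pivot rows (the other rows are the chart). -/
structure RatBases (𝒮 : GeomSetup p F Fk A₀) (M₀ : ℕ) (n₁ n₂ n₄ r₁ r₂ : ℕ) where
  b₁ : Fin n₁ → F
  b₂ : Fin n₂ → F
  b₄ : Fin n₄ → F
  li₁ : LinearIndependent Kb b₁
  li₂ : LinearIndependent Kb b₂
  li₄ : LinearIndependent Kb b₄
  span₁ : Submodule.span Kb (Set.range b₁) = riemannRochSpace (𝒮.T M₀)
  span₂ : Submodule.span Kb (Set.range b₂) = riemannRochSpace (2 • 𝒮.T M₀)
  /-- Galois-invariant -/
  fix₁ : ∀ (σ : GK) i, 𝒮.gal σ • b₁ i = b₁ i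
  fix₂ : ∀ (σ : GK) i, 𝒮.gal σ • b₂ i = b₂ i
  fix₄ : ∀ (σ : GK) i, 𝒮.gal σ • b₄ i = b₄ i
  /-- orthonormal at `A₀` -/
  int₁ : ∀ i, b₁ i ∈ 𝒮.S.Ov
  int₂ : ∀ i, b₂ i ∈ 𝒮.S.Ov
  int₄ : ∀ i, b₄ i ∈ 𝒮.S.Ov
  red₁ : LinearIndependent (IsLocalRing.ResidueField A₀) fun i => 𝒮.S.red (b₁ i)
  red₂ : LinearIndependent (IsLocalRing.ResidueField A₀) fun i => 𝒮.S.red (b₂ i)
  red₄ : LinearIndependent (IsLocalRing.ResidueField A₀) fun i => 𝒮.S.red (b₄ i)
  /-- pivot rows -/
  I₁ : Fin r₁ → Fin n₁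
  I₂ : Fin r₂ → Fin n₂
  I₁_inj : Function.Injective I₁
  I₂_inj : Function.Injective I₂
  /-- the non-pivot vectors are a basis of the chart `L((2g-1) oo)` -/
  chart₁ : Submodule.span Kb (b₁ '' (Set.range I₁)ᶜ) = riemannRochSpace 𝒮.chartDiv
  chart₂ : Submodule.span Kb (b₂ '' (Set.range I₂)ᶜ) = riemannRochSpace 𝒮.chartDiv
  /-- structure constants -/
  m₁ : Fin n₁ → Fin n₁ → Fin n₂ → Kb
  m₂ : Fin n₂ → Fin n₂ → Fin n₄ → Kb
  hm₁ : ∀ i j, b₁ i * b₁ j = ∑ k, m₁ i j k • b₂ k
  hm₂ : ∀ i j, b₂ i * b₂ j = ∑ k, m₂ i j k • b₄ k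
  m₁_int : ∀ i j k, IsIntegral (ratLocalizedAt p) (m₁ i j k)
  m₂_int : ∀ i j k, IsIntegral (ratLocalizedAt p) (m₂ i j k)
  m₁_fix : ∀ (σ : GK) i j k, σ (m₁ i j k) = m₁ i j k
  m₂_fix : ∀ (σ : GK) i j k, σ (m₂ i j k) = m₂ i j k

/-- **Seat FIB**: the fibres of places.  `Fib i` is a finite Galois-stable set of places,
separated at `A₀` by unit differences of the values of finitely many functions `s i j`
(family form of `FlatMod.isFlat_of_coords_fibres`); EVERY tuple `τ ∈ Π Fib i` is good at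
`A₀` for EVERY `w ∈ W` (`X` any divisor of degree `0` of class `ι w`). -/
structure GoodFibres (𝒮 : GeomSetup p F Fk A₀) {W : Type} [AddCommGroup W]
    (ι : W →+ Pic0 Kb F) (g : ℕ) where
  Fib : Fin g → Set (Place Kb F)
  fin : ∀ i, (Fib i).Finite
  nonempty : ∀ i, (Fib i).Nonempty
  stable : ∀ i (σ : GK) P, P ∈ Fib i → 𝒮.gal σ • P ∈ Fib i
  /-- index set of the separating functions -/
  J : Type
  finJ : Finite J
  /-- values of the separating functions -/
  s : Fin g → J → Place Kb F → Kb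
  s_int : ∀ i j P, P ∈ Fib i → IsIntegral (ratLocalizedAt p) (s i j P)
  s_eq : ∀ i j (σ : GK) P, P ∈ Fib i → s i j (𝒮.gal σ • P) = σ (s i j P)
  /-- two distinct places of `Fib i` are separated by a unit AT THE ONE PLACE `A₀` -/
  unit : ∀ i P P', P ∈ Fib i → P' ∈ Fib i → P ≠ P' →
    ∃ j, A₀.valuation (s i j P - s i j P') = 1
  /-- goodness of every tuple at `A₀` -/
  good : ∀ τ : Fin g → Place Kb F, (∀ i, τ i ∈ Fib i) → ∀ (w : W) (X : Divisor Kb F)
    (hX : X ∈ Divisor.degZero (K := Kb) (F := F)), Pic0.mk ⟨X, hX⟩ = ι w →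
      IsGoodDiv (𝒮.r 𝒮.oo) (redDiv 𝒮.r (X + sumTuple τ))

end Fermat.Agent.FF
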