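import Mathlib
import Fermat.Agent.Lib.RR.MultGeneral

set_option autoImplicit false

/-!
# FF / S19, route R-G: the Khuri-Makdisi steps over a field (helper20)

Field-level input of the "Grassmannian closure" route: for a function field `F / K`
(`IsRRField K F`, any characteristic, `K` infinite where the multiplication lemma is used) the
operations of Khuri-Makdisi's linear algebra on the spaces `L(T - D)` are computed by
Riemann-Roch.  Everything is an equality of `K`-subspaces of `F`.

* `colon U V = {a | a • U ⊆ V}`, `dilate u V = u • V`;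
* `colon_riemannRochSpace` : `(L(C) : L(A)) = L(C - A)` for `deg A ≥ 2 g`;
* `dilate_riemannRochSpace` : `u • L(C) = L(C - div u)`;
* `colon_dilate` : `(u • L(C) : L(A)) = L(C - div u - A)`;
* `km_line` : `(u • L(2T - E) : L(T - Dx) L(T - Dy)) = L(2T - E - (div u + 2T - Dx - Dy))`
  `= u • L(Dx + Dy - E)`, of dimension `ℓ(Dx + Dy - E)`;
* `km_add` : for `t ≠ 0`, `u ≠ 0`:
  `(t • L(2T) : (u • L(3T - E) : L(T - Dx) L(T - Dy))) = L(T - (Dx + Dy - E + div t - div u))`;
* `km_sum` : if moreover `ℓ(Dx + Dy - E) = 1`, `t` is in the line of `km_line` and `Dz ≥ 0` is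
  linearly equivalent to `Dx + Dy - E`, the result is `L(T - Dz)`;
* `km_neg_line`, `km_neg`, `km_neg_sum` : the same for the inverse
  (`Dz ∼ 2E - Dx`), no auxiliary `u`;
* `eq_of_effective_of_ell_eq_one` : uniqueness of the effective divisor in a class with `ℓ = 1`;
* `finrank_*` : the dimensions of all the spaces that occur (the "constant rank" inputs).
-/

noncomputable section

open AlgebraicCurve

namespace Fermat.Agent.KMField

open Fermat.Agent.RR Fermat.Agent.RRMult

variable {K F : Type*} [Field K] [Field F] [Algebra K F]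

/-! ### transporters and dilations of subspaces of `F` -/

/-- the transporter `(V : U) = {a | a • U ⊆ V}`. -/
def colon (U V : Submodule K F) : Submodule K F where
  carrier := {a | ∀ w ∈ U, a * w ∈ V}
  zero_mem' := by
    intro w _
    rw [zero_mul]
    exact V.zero_mem
  add_mem' := by
    intro a b ha hb w hw
    rw [add_mul]
    exact V.add_mem (ha w hw) (hb w hw)
  smul_mem' := by
    intro c a ha w hw
    rw [smul_mul_assoc]
    exact V.smul_mem c (ha w hw)

theorem mem_colon {U V : Submodule K F} {a : F} : a ∈ colon U V ↔ ∀ w ∈ U, a * w ∈ V :=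
  Iff.rfl

/-- the transporter can be tested on generators. -/
theorem mem_colon_span {S : Set F} {V : Submodule K F} {a : F} :
    a ∈ colon (Submodule.span K S) V ↔ ∀ w ∈ S, a * w ∈ V := by
  constructor
  · intro ha w hw
    exact ha w (Submodule.subset_span hw)
  · intro ha w hw
    induction hw using Submodule.span_induction with
    | mem x hx => exact ha x hx
    | zero =>
      rw [mul_zero]
      exact V.zero_mem
    | add x y _ _ hx hy =>
      rw [mul_add]
      exact V.add_mem hx hy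
    | smul c x _ hx =>
      rw [mul_smul_comm]
      exact V.smul_mem c hx

theorem colon_mono_right {U V V' : Submodule K F} (hV : V ≤ V') : colon U V ≤ colon U V' :=
  fun _ ha w hw => hV (ha w hw)

theorem colon_anti_left {U U' V : Submodule K F} (hU : U ≤ U') : colon U' V ≤ colon U V :=
  fun _ ha w hw => ha w (hU hw)

/-- the dilation `u • V`. -/
def dilate (u : F) (V : Submodule K F) : Submodule K F :=
  V.map (LinearMap.mulLeft K u)

theorem mem_dilate {u : F} {V : Submodule K F} {x : F} :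
    x ∈ dilate u V ↔ ∃ c ∈ V, u * c = x := by
  unfold dilate
  rw [Submodule.mem_map]
  rfl

theorem mul_mem_dilate {u : F} {V : Submodule K F} {c : F} (hc : c ∈ V) : u * c ∈ dilate u V :=
  mem_dilate.mpr ⟨c, hc, rfl⟩

theorem mem_dilate_iff {u : F} (hu : u ≠ 0) {V : Submodule K F} {x : F} :
    x ∈ dilate u V ↔ u⁻¹ * x ∈ V := by
  rw [mem_dilate]
  constructor
  · rintro ⟨c, hc, rfl⟩
    rwa [← mul_assoc, inv_mul_cancel₀ hu, one_mul]
  · intro hx
    exact ⟨u⁻¹ * x, hx, by rw [← mul_assoc, mul_inv_cancel₀ hu, one_mul]⟩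

@[simp]
theorem dilate_one (V : Submodule K F) : dilate (1 : F) V = V := by
  ext x
  rw [mem_dilate_iff one_ne_zero, inv_one, one_mul]

/-- multiplication by `u ≠ 0` is a linear isomorphism `V ≃ u • V`. -/
def dilateEquiv {u : F} (hu : u ≠ 0) (V : Submodule K F) : V ≃ₗ[K] dilate u V :=
  Submodule.equivMapOfInjective (LinearMap.mulLeft K u)
    (fun a b hab => mul_left_cancel₀ hu (by simpa using hab)) V

theorem finrank_dilate {u : F} (hu : u ≠ 0) (V : Submodule K F) :
    Module.finrank K (dilate u V) = Module.finrank K V :=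
  (dilateEquiv hu V).finrank_eq.symm

/-! ### Riemann-Roch spaces -/

/-- `u • L(C) = L(C - div u)`. -/
theorem dilate_riemannRochSpace (h : IsRRField K F) (C : Divisor K F) {u : F} (hu : u ≠ 0) :
    dilate u (riemannRochSpace C) = riemannRochSpace (C - divOf h u) := by
  ext x
  rw [mem_dilate_iff hu, mem_riemannRochSpace_iff, mem_riemannRochSpace_iff]
  refine forall_congr' fun v => ?_
  rcases eq_or_ne x 0 with hx | hx
  · subst hx
    simp
  · have h1 : u⁻¹ * x ≠ 0 := mul_ne_zero (inv_ne_zero hu) hx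
    rw [v.ord_mul (inv_ne_zero hu) hx, v.ord_inv, Finsupp.sub_apply, divOf_apply]
    constructor
    · intro hh
      right
      have := hh.resolve_left h1
      omega
    · intro hh
      right
      have := hh.resolve_left hx
      omega

/-- the colon lemma as an equality of subspaces: `(L(C) : L(A)) = L(C - A)` for `deg A ≥ 2 g`. -/
theorem colon_riemannRochSpace (h : IsRRField K F) {A : Divisor K F} (C : Divisor K F)
    (hA : 2 * (genusFF K F : ℤ) ≤ Divisor.degree A) :
    colon (riemannRochSpace A) (riemannRochSpace C) = riemannRochSpace (C - A) := by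
  ext a
  rw [mem_colon, mem_iff_forall_mul_mem h hA (A := C - A) (f := a), sub_add_cancel]

/-- the twisted colon lemma: `(u • L(C) : L(A)) = L(C - div u - A)` for `deg A ≥ 2 g`. -/
theorem colon_dilate (h : IsRRField K F) {A : Divisor K F} (C : Divisor K F)
    (hA : 2 * (genusFF K F : ℤ) ≤ Divisor.degree A) {u : F} (hu : u ≠ 0) :
    colon (riemannRochSpace A) (dilate u (riemannRochSpace C))
      = riemannRochSpace (C - divOf h u - A) := by
  rw [dilate_riemannRochSpace h C hu, colon_riemannRochSpace h _ hA]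

/-- for `u ∈ L(A)`, `u ≠ 0`, the divisor of zeros of `u` relative to `A` is effective. -/
theorem residual_nonneg (h : IsRRField K F) {A : Divisor K F} {u : F} (hu : u ≠ 0)
    (huA : u ∈ riemannRochSpace A) : 0 ≤ divOf h u + A := by
  have := (mem_riemannRochSpace_iff_le h hu).mp huA
  exact neg_le_iff_add_nonneg.mp this

theorem degree_residual (h : IsRRField K F) (A : Divisor K F) (u : F) :
    Divisor.degree (divOf h u + A) = Divisor.degree A := by
  rw [map_add, degree_divOf, zero_add]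

/-- `ℓ(D) = deg D + 1 - g` for `deg D ≥ 2 g - 1`, as a `finrank`. -/
theorem finrank_riemannRochSpace (h : IsRRField K F) {D : Divisor K F}
    (hD : 2 * (genusFF K F : ℤ) - 2 < Divisor.degree D) :
    (Module.finrank K (riemannRochSpace D) : ℤ) = Divisor.degree D + 1 - (genusFF K F : ℤ) :=
  ell_of_degree_gt h hD

/-- uniqueness of the effective divisor in a class with `ℓ = 1`. -/
theorem eq_of_effective_of_ell_eq_one (h : IsRRField K F) {Z D₁ D₂ : Divisor K F}
    (hell : ell Z = 1) (h1 : 0 ≤ D₁) (h2 : 0 ≤ D₂) {f₁ f₂ : F} (hf₁ : f₁ ≠ 0) (hf₂ : f₂ ≠ 0)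
    (e1 : D₁ = Z + divOf h f₁) (e2 : D₂ = Z + divOf h f₂) : D₁ = D₂ := by
  have m1 : f₁ ∈ riemannRochSpace Z := by
    rw [mem_riemannRochSpace_iff_le h hf₁]
    have := h1
    rw [e1] at this
    exact neg_le_iff_add_nonneg'.mpr this
  have m2 : f₂ ∈ riemannRochSpace Z := by
    rw [mem_riemannRochSpace_iff_le h hf₂]
    have := h2
    rw [e2] at this
    exact neg_le_iff_add_nonneg'.mpr this
  have hne : (⟨f₁, m1⟩ : riemannRochSpace Z) ≠ 0 := by
    intro h0
    exact hf₁ (congrArg Subtype.val h0)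
  obtain ⟨c, hc⟩ := (finrank_eq_one_iff_of_nonzero' (⟨f₁, m1⟩ : riemannRochSpace Z) hne).mp hell
    ⟨f₂, m2⟩
  have hc' : c • f₁ = f₂ := congrArg Subtype.val hc
  have hc0 : c ≠ 0 := by
    rintro rfl
    rw [zero_smul] at hc'
    exact hf₂ hc'.symm
  have hdiv : divOf h f₂ = divOf h f₁ := by
    ext v
    rw [divOf_apply, divOf_apply, ← hc', Algebra.smul_def,
      v.ord_mul ((map_ne_zero (algebraMap K F)).mpr hc0) hf₁]
    have hcv : v.ord (algebraMap K F c) = 0 := by
      have hmem := algebraMap_mem_riemannRochSpace_zero (K := K) (F := F) c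
      have hmem' := algebraMap_mem_riemannRochSpace_zero (K := K) (F := F) c⁻¹
      have a1 := (mem_riemannRochSpace_iff.mp hmem v).resolve_left
        ((map_ne_zero (algebraMap K F)).mpr hc0)
      have a2 := (mem_riemannRochSpace_iff.mp hmem' v).resolve_left
        ((map_ne_zero (algebraMap K F)).mpr (inv_ne_zero hc0))
      rw [map_inv₀, v.ord_inv] at a2
      simp only [Finsupp.coe_zero, Pi.zero_apply, neg_zero] at a1 a2
      omega
    rw [hcv, zero_add]
  rw [e1, e2, hdiv]

/-! ### Khuri-Makdisi addition -/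

section Add

variable {T Dx Dy E : Divisor K F}

/-- the product step: `L(T - Dx) L(T - Dy) = L(2T - Dx - Dy)`. -/
theorem km_mul (h : IsRRField K F) [Infinite K]
    (hx : 3 * (genusFF K F : ℤ) ≤ Divisor.degree (T - Dx))
    (hy : 3 * (genusFF K F : ℤ) ≤ Divisor.degree (T - Dy)) :
    mulSpan (T - Dx) (T - Dy) = riemannRochSpace (2 • T - Dx - Dy) := by
  rw [mulSpan_eq h hx hy]
  congr 1
  rw [two_nsmul]
  abel

theorem km_mul_degree (hx : 3 * (genusFF K F : ℤ) ≤ Divisor.degree (T - Dx))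
    (hy : 3 * (genusFF K F : ℤ) ≤ Divisor.degree (T - Dy)) :
    6 * (genusFF K F : ℤ) ≤ Divisor.degree (2 • T - Dx - Dy) := by
  have e : 2 • T - Dx - Dy = (T - Dx) + (T - Dy) := by
    rw [two_nsmul]
    abel
  rw [e, map_add]
  linarith

/-- the dimension of the product space. -/
theorem finrank_km_mul (h : IsRRField K F) [Infinite K]
    (hx : 3 * (genusFF K F : ℤ) ≤ Divisor.degree (T - Dx))
    (hy : 3 * (genusFF K F : ℤ) ≤ Divisor.degree (T - Dy)) :
    (Module.finrank K (mulSpan (T - Dx) (T - Dy)) : ℤ)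
      = Divisor.degree (2 • T - Dx - Dy) + 1 - (genusFF K F : ℤ) := by
  rw [km_mul h hx hy]
  refine finrank_riemannRochSpace h ?_
  have := km_mul_degree (K := K) (F := F) hx hy
  have hg : (0 : ℤ) ≤ (genusFF K F : ℤ) := Int.natCast_nonneg _
  linarith

/-- the general colon step against the product space:
`(u • L(C) : L(T - Dx) L(T - Dy)) = L(C - (div u + 2T - Dx - Dy))`. -/
theorem km_colon (h : IsRRField K F) [Infinite K]
    (hx : 3 * (genusFF K F : ℤ) ≤ Divisor.degree (T - Dx))
    (hy : 3 * (genusFF K F : ℤ) ≤ Divisor.degree (T - Dy)) (C : Divisor K F)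
    {u : F} (hu : u ≠ 0) :
    colon (mulSpan (T - Dx) (T - Dy)) (dilate u (riemannRochSpace C))
      = riemannRochSpace (C - (divOf h u + (2 • T - Dx - Dy))) := by
  have hdeg := km_mul_degree (K := K) (F := F) hx hy
  have hg : (0 : ℤ) ≤ (genusFF K F : ℤ) := Int.natCast_nonneg _
  rw [km_mul h hx hy, colon_dilate h C (by linarith) hu]
  congr 1
  abel

/-- the colon step lands in the fixed ambient space `L(C)` when `u` is in the product space. -/
theorem km_colon_le (h : IsRRField K F) [Infinite K]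
    (hx : 3 * (genusFF K F : ℤ) ≤ Divisor.degree (T - Dx))
    (hy : 3 * (genusFF K F : ℤ) ≤ Divisor.degree (T - Dy)) (C : Divisor K F)
    {u : F} (hu : u ≠ 0) (huU : u ∈ mulSpan (T - Dx) (T - Dy)) :
    colon (mulSpan (T - Dx) (T - Dy)) (dilate u (riemannRochSpace C)) ≤ riemannRochSpace C := by
  rw [km_colon h hx hy C hu]
  refine riemannRochSpace_mono ?_
  have h0 : 0 ≤ divOf h u + (2 • T - Dx - Dy) :=
    residual_nonneg h hu (by rwa [km_mul h hx hy] at huU)
  exact sub_le_self C h0

/-- the line step: `(u • L(2T - E) : L(T - Dx) L(T - Dy)) = u • L(Dx + Dy - E)`. -/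
theorem km_line (h : IsRRField K F) [Infinite K]
    (hx : 3 * (genusFF K F : ℤ) ≤ Divisor.degree (T - Dx))
    (hy : 3 * (genusFF K F : ℤ) ≤ Divisor.degree (T - Dy))
    {u : F} (hu : u ≠ 0) :
    colon (mulSpan (T - Dx) (T - Dy)) (dilate u (riemannRochSpace (2 • T - E)))
      = dilate u (riemannRochSpace (Dx + Dy - E)) := by
  rw [km_colon h hx hy _ hu, dilate_riemannRochSpace h _ hu]
  congr 1
  abel

/-- the dimension of the line step is `ℓ(Dx + Dy - E)`. -/
theorem finrank_km_line (h : IsRRField K F) [Infinite K]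
    (hx : 3 * (genusFF K F : ℤ) ≤ Divisor.degree (T - Dx))
    (hy : 3 * (genusFF K F : ℤ) ≤ Divisor.degree (T - Dy))
    {u : F} (hu : u ≠ 0) :
    Module.finrank K
        (colon (mulSpan (T - Dx) (T - Dy)) (dilate u (riemannRochSpace (2 • T - E))))
      = ell (Dx + Dy - E) := by
  rw [km_line h hx hy hu, finrank_dilate hu]
  rfl

/-- an element `t ≠ 0` of the line has an effective residual divisor
`Dx + Dy - E + div t - div u`. -/
theorem km_residual_nonneg (h : IsRRField K F) [Infinite K]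
    (hx : 3 * (genusFF K F : ℤ) ≤ Divisor.degree (T - Dx))
    (hy : 3 * (genusFF K F : ℤ) ≤ Divisor.degree (T - Dy))
    {u t : F} (hu : u ≠ 0) (ht : t ≠ 0)
    (htQ : t ∈ colon (mulSpan (T - Dx) (T - Dy)) (dilate u (riemannRochSpace (2 • T - E)))) :
    0 ≤ Dx + Dy - E + divOf h t - divOf h u := by
  rw [km_line h hx hy hu, dilate_riemannRochSpace h _ hu] at htQ
  have := residual_nonneg h ht htQ
  have e : divOf h t + (Dx + Dy - E - divOf h u) = Dx + Dy - E + divOf h t - divOf h u := by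
    abel
  rwa [e] at this

/-- the auxiliary space `(u • L(3T - E) : L(T - Dx) L(T - Dy)) = L(T + Dx + Dy - E - div u)`. -/
theorem km_aux (h : IsRRField K F) [Infinite K]
    (hx : 3 * (genusFF K F : ℤ) ≤ Divisor.degree (T - Dx))
    (hy : 3 * (genusFF K F : ℤ) ≤ Divisor.degree (T - Dy))
    {u : F} (hu : u ≠ 0) :
    colon (mulSpan (T - Dx) (T - Dy)) (dilate u (riemannRochSpace (3 • T - E)))
      = riemannRochSpace (T + Dx + Dy - E - divOf h u) := by
  rw [km_colon h hx hy _ hu]
  congr 1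
  rw [three_nsmul, two_nsmul]
  abel

theorem km_aux_degree (h : IsRRField K F) (u : F) :
    Divisor.degree (T + Dx + Dy - E - divOf h u) = Divisor.degree (T + Dx + Dy - E) := by
  rw [map_sub _ _ (divOf h u), degree_divOf, sub_zero]

/-- the dimension of the auxiliary space. -/
theorem finrank_km_aux (h : IsRRField K F) [Infinite K]
    (hx : 3 * (genusFF K F : ℤ) ≤ Divisor.degree (T - Dx))
    (hy : 3 * (genusFF K F : ℤ) ≤ Divisor.degree (T - Dy))
    (hE : 2 * (genusFF K F : ℤ) ≤ Divisor.degree (T + Dx + Dy - E))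
    {u : F} (hu : u ≠ 0) :
    (Module.finrank K
        (colon (mulSpan (T - Dx) (T - Dy)) (dilate u (riemannRochSpace (3 • T - E)))) : ℤ)
      = Divisor.degree (T + Dx + Dy - E) + 1 - (genusFF K F : ℤ) := by
  rw [km_aux h hx hy hu, finrank_riemannRochSpace h (by rw [km_aux_degree]; linarith),
    km_aux_degree]

/-- **Khuri-Makdisi addition over a field**: for `u ≠ 0`, `t ≠ 0`,
`(t • L(2T) : (u • L(3T - E) : L(T - Dx) L(T - Dy))) = L(T - (Dx + Dy - E + div t - div u))`. -/
theorem km_add (h : IsRRField K F) [Infinite K]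
    (hx : 3 * (genusFF K F : ℤ) ≤ Divisor.degree (T - Dx))
    (hy : 3 * (genusFF K F : ℤ) ≤ Divisor.degree (T - Dy))
    (hE : 2 * (genusFF K F : ℤ) ≤ Divisor.degree (T + Dx + Dy - E))
    {u t : F} (hu : u ≠ 0) (ht : t ≠ 0) :
    colon (colon (mulSpan (T - Dx) (T - Dy)) (dilate u (riemannRochSpace (3 • T - E))))
        (dilate t (riemannRochSpace (2 • T)))
      = riemannRochSpace (T - (Dx + Dy - E + divOf h t - divOf h u)) := by
  rw [km_aux h hx hy hu, colon_dilate h _ (by rw [km_aux_degree]; exact hE) ht]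
  congr 1
  rw [two_nsmul]
  abel

/-- **Khuri-Makdisi sum**: if `ℓ(Dx + Dy - E) = 1`, `Dz ≥ 0` is linearly equivalent to
`Dx + Dy - E`, `u ≠ 0` and `t ≠ 0` is in the line `(u • L(2T - E) : L(T - Dx) L(T - Dy))`, then
`(t • L(2T) : (u • L(3T - E) : L(T - Dx) L(T - Dy))) = L(T - Dz)`. -/
theorem km_sum (h : IsRRField K F) [Infinite K]
    (hx : 3 * (genusFF K F : ℤ) ≤ Divisor.degree (T - Dx))
    (hy : 3 * (genusFF K F : ℤ) ≤ Divisor.degree (T - Dy))
    (hE : 2 * (genusFF K F : ℤ) ≤ Divisor.degree (T + Dx + Dy - E))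
    (hell : ell (Dx + Dy - E) = 1)
    {Dz : Divisor K F} (hDz : 0 ≤ Dz) {f : F} (hf : f ≠ 0)
    (hDzf : Dz = Dx + Dy - E + divOf h f)
    {u t : F} (hu : u ≠ 0) (ht : t ≠ 0)
    (htQ : t ∈ colon (mulSpan (T - Dx) (T - Dy)) (dilate u (riemannRochSpace (2 • T - E)))) :
    colon (colon (mulSpan (T - Dx) (T - Dy)) (dilate u (riemannRochSpace (3 • T - E))))
        (dilate t (riemannRochSpace (2 • T)))
      = riemannRochSpace (T - Dz) := by
  rw [km_add h hx hy hE hu ht]
  have h0 := km_residual_nonneg h hx hy hu ht htQ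
  have htu : t * u⁻¹ ≠ 0 := mul_ne_zero ht (inv_ne_zero hu)
  have e : Dx + Dy - E + divOf h t - divOf h u = Dx + Dy - E + divOf h (t * u⁻¹) := by
    rw [divOf_mul h ht (inv_ne_zero hu), divOf_inv]
    abel
  rw [e] at h0 ⊢
  rw [eq_of_effective_of_ell_eq_one h hell h0 hDz htu hf rfl hDzf]

/-- the dimension of the result of the addition. -/
theorem finrank_km_add (h : IsRRField K F) [Infinite K]
    (hx : 3 * (genusFF K F : ℤ) ≤ Divisor.degree (T - Dx))
    (hy : 3 * (genusFF K F : ℤ) ≤ Divisor.degree (T - Dy))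
    (hE : 2 * (genusFF K F : ℤ) ≤ Divisor.degree (T + Dx + Dy - E))
    (hT : 2 * (genusFF K F : ℤ) - 2 < Divisor.degree (T - (Dx + Dy - E)))
    {u t : F} (hu : u ≠ 0) (ht : t ≠ 0) :
    (Module.finrank K
        (colon (colon (mulSpan (T - Dx) (T - Dy)) (dilate u (riemannRochSpace (3 • T - E))))
          (dilate t (riemannRochSpace (2 • T)))) : ℤ)
      = Divisor.degree (T - (Dx + Dy - E)) + 1 - (genusFF K F : ℤ) := by
  have hd : Divisor.degree (T - (Dx + Dy - E + divOf h t - divOf h u))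
      = Divisor.degree (T - (Dx + Dy - E)) := by
    simp only [map_sub, map_add, degree_divOf]
    ring
  rw [km_add h hx hy hE hu ht, finrank_riemannRochSpace h (by rw [hd]; exact hT), hd]

end Add

/-! ### Khuri-Makdisi negation -/

section Neg

variable {T Dx E : Divisor K F}

/-- the product step of the negation: `L(T - Dx) L(T + 2E) = L(2T + 2E - Dx)`. -/
theorem km_neg_mul (h : IsRRField K F) [Infinite K]
    (hx : 3 * (genusFF K F : ℤ) ≤ Divisor.degree (T - Dx))
    (hE : 3 * (genusFF K F : ℤ) ≤ Divisor.degree (T + 2 • E)) :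
    mulSpan (T - Dx) (T + 2 • E) = riemannRochSpace (2 • T + 2 • E - Dx) := by
  rw [mulSpan_eq h hx hE]
  congr 1
  rw [two_nsmul, two_nsmul]
  abel

/-- the line step of the negation: `(L(T - Dx) L(T + 2E) : L(2T)) = L(2E - Dx)`. -/
theorem km_neg_line (h : IsRRField K F) [Infinite K]
    (hx : 3 * (genusFF K F : ℤ) ≤ Divisor.degree (T - Dx))
    (hE : 3 * (genusFF K F : ℤ) ≤ Divisor.degree (T + 2 • E))
    (hT : 2 * (genusFF K F : ℤ) ≤ Divisor.degree (2 • T)) :
    colon (riemannRochSpace (2 • T)) (mulSpan (T - Dx) (T + 2 • E))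
      = riemannRochSpace (2 • E - Dx) := by
  rw [km_neg_mul h hx hE, colon_riemannRochSpace h _ hT]
  congr 1
  abel

/-- the line of the negation lies in the fixed ambient space `L(2E)` when `Dx ≥ 0`. -/
theorem km_neg_line_le (h : IsRRField K F) [Infinite K]
    (hx : 3 * (genusFF K F : ℤ) ≤ Divisor.degree (T - Dx))
    (hE : 3 * (genusFF K F : ℤ) ≤ Divisor.degree (T + 2 • E))
    (hT : 2 * (genusFF K F : ℤ) ≤ Divisor.degree (2 • T)) (hDx : 0 ≤ Dx) :
    colon (riemannRochSpace (2 • T)) (mulSpan (T - Dx) (T + 2 • E))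
      ≤ riemannRochSpace (2 • E) := by
  rw [km_neg_line h hx hE hT]
  exact riemannRochSpace_mono (sub_le_self _ hDx)

theorem finrank_km_neg_line (h : IsRRField K F) [Infinite K]
    (hx : 3 * (genusFF K F : ℤ) ≤ Divisor.degree (T - Dx))
    (hE : 3 * (genusFF K F : ℤ) ≤ Divisor.degree (T + 2 • E))
    (hT : 2 * (genusFF K F : ℤ) ≤ Divisor.degree (2 • T)) :
    Module.finrank K (colon (riemannRochSpace (2 • T)) (mulSpan (T - Dx) (T + 2 • E)))
      = ell (2 • E - Dx) := by
  rw [km_neg_line h hx hE hT]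
  rfl

/-- **Khuri-Makdisi negation over a field**: for `t ≠ 0`,
`(t • L(2T - 2E) : L(T - Dx)) = L(T - (2E - Dx + div t))`. -/
theorem km_neg (h : IsRRField K F) (hx : 2 * (genusFF K F : ℤ) ≤ Divisor.degree (T - Dx))
    {t : F} (ht : t ≠ 0) :
    colon (riemannRochSpace (T - Dx)) (dilate t (riemannRochSpace (2 • T - 2 • E)))
      = riemannRochSpace (T - (2 • E - Dx + divOf h t)) := by
  rw [colon_dilate h _ hx ht]
  congr 1
  rw [two_nsmul, two_nsmul]
  abel

/-- **Khuri-Makdisi inverse**: if `ℓ(2E - Dx) = 1`, `Dz ≥ 0` is linearly equivalent to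
`2E - Dx` and `t ≠ 0` is in the line `(L(T - Dx) L(T + 2E) : L(2T))`, then
`(t • L(2T - 2E) : L(T - Dx)) = L(T - Dz)`. -/
theorem km_neg_sum (h : IsRRField K F) [Infinite K]
    (hx : 3 * (genusFF K F : ℤ) ≤ Divisor.degree (T - Dx))
    (hE : 3 * (genusFF K F : ℤ) ≤ Divisor.degree (T + 2 • E))
    (hT : 2 * (genusFF K F : ℤ) ≤ Divisor.degree (2 • T))
    (hell : ell (2 • E - Dx) = 1)
    {Dz : Divisor K F} (hDz : 0 ≤ Dz) {f : F} (hf : f ≠ 0)
    (hDzf : Dz = 2 • E - Dx + divOf h f)
    {t : F} (ht : t ≠ 0)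
    (htQ : t ∈ colon (riemannRochSpace (2 • T)) (mulSpan (T - Dx) (T + 2 • E))) :
    colon (riemannRochSpace (T - Dx)) (dilate t (riemannRochSpace (2 • T - 2 • E)))
      = riemannRochSpace (T - Dz) := by
  have hg : (0 : ℤ) ≤ (genusFF K F : ℤ) := Int.natCast_nonneg _
  rw [km_neg h (by linarith) ht]
  rw [km_neg_line h hx hE hT] at htQ
  have h0 : 0 ≤ 2 • E - Dx + divOf h t := by
    have := residual_nonneg h ht htQ
    rwa [add_comm] at this
  rw [eq_of_effective_of_ell_eq_one h hell h0 hDz ht hf rfl hDzf]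

end Neg

/-! ### the choice-free form (steps (S1)-(S4) of the R-G blueprint)

`u : ι → F` is a family of generators of `U = L(T - D₁) L(T - D₂)` (for instance the products of
two bases), `X = L(2T - E)`.  The space
`crossSpace X u = {z : ι → X | z α u β = z β u α}` is `{(h u α)_α | h ∈ L(D₁ + D₂ - E)}`, a line
when `ℓ(D₁ + D₂ - E) = 1`; for `z ≠ 0` in it, `span z = L(2T - D₃ - E)` and
`(span z : L(T - E)) = L(T - D₃)`, `D₃ ≥ 0` the divisor with `D₃ + E ∼ D₁ + D₂`. -/

section Cross

variable {ι : Type*}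

/-- the space `{z : ι → X | z α * u β = z β * u α}` of step (S2). -/
def crossSpace (X : Submodule K F) (u : ι → F) : Submodule K (ι → F) where
  carrier := {z | (∀ α, z α ∈ X) ∧ ∀ α β, z α * u β = z β * u α}
  zero_mem' := by
    refine ⟨fun α => X.zero_mem, fun α β => ?_⟩
    simp
  add_mem' := by
    rintro z z' ⟨hz, hzz⟩ ⟨hz', hzz'⟩
    refine ⟨fun α => X.add_mem (hz α) (hz' α), fun α β => ?_⟩
    simp only [Pi.add_apply, add_mul, hzz α β, hzz' α β]
  smul_mem' := by
    rintro c z ⟨hz, hzz⟩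
    refine ⟨fun α => X.smul_mem c (hz α), fun α β => ?_⟩
    simp only [Pi.smul_apply, smul_mul_assoc, hzz α β]

theorem mem_crossSpace {X : Submodule K F} {u : ι → F} {z : ι → F} :
    z ∈ crossSpace X u ↔ (∀ α, z α ∈ X) ∧ ∀ α β, z α * u β = z β * u α :=
  Iff.rfl

/-- the linear map `h ↦ (h u α)_α`. -/
def crossMap (u : ι → F) : F →ₗ[K] (ι → F) where
  toFun h := fun α => h * u α
  map_add' a b := by
    funext α
    simp [add_mul]
  map_smul' c a := by
    funext α
    simp

@[simp]
theorem crossMap_apply (u : ι → F) (h : F) (α : ι) : crossMap (K := K) u h α = h * u α := rfl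

theorem crossMap_injective {u : ι → F} (hu : ∃ β, u β ≠ 0) :
    Function.Injective (crossMap (K := K) u) := by
  obtain ⟨β, hβ⟩ := hu
  intro a b hab
  have := congrFun hab β
  simp only [crossMap_apply] at this
  exact mul_right_cancel₀ hβ this

theorem crossMap_mem {X : Submodule K F} {u : ι → F} {h : F}
    (hh : h ∈ colon (Submodule.span K (Set.range u)) X) : crossMap (K := K) u h ∈ crossSpace X u := by
  refine ⟨fun α => hh _ (Submodule.subset_span ⟨α, rfl⟩), fun α β => ?_⟩
  simp only [crossMap_apply]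
  ring

/-- step (S2), pure algebra: the cross space is the image of the transporter `(X : span u)`. -/
theorem crossSpace_eq_map {X : Submodule K F} {u : ι → F} (hu : ∃ β, u β ≠ 0) :
    crossSpace X u = (colon (Submodule.span K (Set.range u)) X).map (crossMap u) := by
  obtain ⟨β, hβ⟩ := hu
  apply le_antisymm
  · rintro z ⟨hz, hzz⟩
    refine ⟨z β * (u β)⁻¹, ?_, ?_⟩
    · rw [SetLike.mem_coe, mem_colon_span]
      rintro w ⟨α, rfl⟩
      have : z β * (u β)⁻¹ * u α = z α := by
        rw [mul_right_comm, ← hzz α β, mul_assoc, mul_inv_cancel₀ hβ, mul_one]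
      rw [this]
      exact hz α
    · funext α
      simp only [crossMap_apply]
      rw [mul_right_comm, ← hzz α β, mul_assoc, mul_inv_cancel₀ hβ, mul_one]
  · rintro z ⟨h, hh, rfl⟩
    exact crossMap_mem hh

/-- the linear isomorphism `(X : span u) ≃ crossSpace X u`, `h ↦ (h u α)_α`. -/
def crossEquiv {X : Submodule K F} {u : ι → F} (hu : ∃ β, u β ≠ 0) :
    colon (Submodule.span K (Set.range u)) X ≃ₗ[K] crossSpace X u :=
  (Submodule.equivMapOfInjective (crossMap u) (crossMap_injective hu) _).trans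
    (LinearEquiv.ofEq _ _ (crossSpace_eq_map hu).symm)

theorem crossEquiv_apply {X : Submodule K F} {u : ι → F} (hu : ∃ β, u β ≠ 0)
    (h : colon (Submodule.span K (Set.range u)) X) (α : ι) :
    (crossEquiv hu h : ι → F) α = (h : F) * u α := rfl

theorem finrank_crossSpace {X : Submodule K F} {u : ι → F} (hu : ∃ β, u β ≠ 0) :
    Module.finrank K (crossSpace X u)
      = Module.finrank K (colon (Submodule.span K (Set.range u)) X) :=
  (crossEquiv hu).finrank_eq.symm

/-- every element of the cross space is `(h u α)_α` for a unique `h` in the transporter. -/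
theorem exists_eq_crossMap {X : Submodule K F} {u : ι → F} (hu : ∃ β, u β ≠ 0) {z : ι → F}
    (hz : z ∈ crossSpace X u) :
    ∃ h ∈ colon (Submodule.span K (Set.range u)) X, z = fun α => h * u α := by
  rw [crossSpace_eq_map hu] at hz
  obtain ⟨h, hh, rfl⟩ := hz
  exact ⟨h, hh, rfl⟩

/-- the span of `(h u α)_α` is `h • span u`. -/
theorem span_range_mul (u : ι → F) (h : F) :
    Submodule.span K (Set.range fun α => h * u α) = dilate h (Submodule.span K (Set.range u)) := by
  unfold dilate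
  rw [Submodule.map_span, ← Set.range_comp]
  rfl

/-- `mulSpan A B` is the product of the two subspaces. -/
theorem mulSpan_eq_mul (A B : Divisor K F) :
    mulSpan A B = riemannRochSpace A * riemannRochSpace B := by
  rw [Submodule.mul_eq_span_mul_set]
  unfold mulSpan
  congr 1
  ext x
  constructor
  · rintro ⟨a, ha, b, hb, rfl⟩
    exact Set.mem_mul.mpr ⟨a, ha, b, hb, rfl⟩
  · intro hx
    obtain ⟨a, ha, b, hb, rfl⟩ := Set.mem_mul.mp hx
    exact ⟨a, ha, b, hb, rfl⟩

/-- products of generators generate `mulSpan`. -/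
theorem span_range_mul_eq_mulSpan {ι₁ ι₂ : Type*} {A B : Divisor K F} {w : ι₁ → F} {w' : ι₂ → F}
    (hw : Submodule.span K (Set.range w) = riemannRochSpace A)
    (hw' : Submodule.span K (Set.range w') = riemannRochSpace B) :
    Submodule.span K (Set.range fun p : ι₁ × ι₂ => w p.1 * w' p.2) = mulSpan A B := by
  rw [mulSpan_eq_mul, ← hw, ← hw', Submodule.span_mul_span]
  congr 1
  ext x
  simp only [Set.mem_range, Prod.exists, Set.mem_mul]
  constructor
  · rintro ⟨a, b, rfl⟩
    exact ⟨w a, ⟨a, rfl⟩, w' b, ⟨b, rfl⟩, rfl⟩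
  · rintro ⟨_, ⟨a, rfl⟩, _, ⟨b, rfl⟩, rfl⟩
    exact ⟨a, b, rfl⟩

variable {T D₁ D₂ D₃ E : Divisor K F}

/-- the product space is not zero. -/
theorem exists_ne_zero_of_span_eq (h : IsRRField K F) [Infinite K]
    (hx : 3 * (genusFF K F : ℤ) ≤ Divisor.degree (T - D₁))
    (hy : 3 * (genusFF K F : ℤ) ≤ Divisor.degree (T - D₂))
    {u : ι → F} (hu : Submodule.span K (Set.range u) = mulSpan (T - D₁) (T - D₂)) :
    ∃ β, u β ≠ 0 := by
  by_contra hcon
  simp only [not_exists, not_not] at hcon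
  have h0 : Submodule.span K (Set.range u) = ⊥ := by
    rw [Submodule.span_eq_bot]
    rintro _ ⟨β, rfl⟩
    exact hcon β
  have h1 := finrank_km_mul h hx hy
  rw [← hu, h0, finrank_bot] at h1
  have h2 := km_mul_degree (K := K) (F := F) hx hy
  have hg : (0 : ℤ) ≤ (genusFF K F : ℤ) := Int.natCast_nonneg _
  push_cast at h1
  linarith

/-- step (S2): the transporter is `L(D₁ + D₂ - E)`. -/
theorem km_colon_free (h : IsRRField K F) [Infinite K]
    (hx : 3 * (genusFF K F : ℤ) ≤ Divisor.degree (T - D₁))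
    (hy : 3 * (genusFF K F : ℤ) ≤ Divisor.degree (T - D₂))
    {u : ι → F} (hu : Submodule.span K (Set.range u) = mulSpan (T - D₁) (T - D₂)) :
    colon (Submodule.span K (Set.range u)) (riemannRochSpace (2 • T - E))
      = riemannRochSpace (D₁ + D₂ - E) := by
  have := km_line h hx hy (E := E) (one_ne_zero (α := F))
  rw [dilate_one, dilate_one] at this
  rw [hu, this]

/-- step (S2): the cross space `Hm` is `{(h u α)_α | h ∈ L(D₁ + D₂ - E)}`. -/
theorem km_cross_eq (h : IsRRField K F) [Infinite K]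
    (hx : 3 * (genusFF K F : ℤ) ≤ Divisor.degree (T - D₁))
    (hy : 3 * (genusFF K F : ℤ) ≤ Divisor.degree (T - D₂))
    {u : ι → F} (hu : Submodule.span K (Set.range u) = mulSpan (T - D₁) (T - D₂)) :
    crossSpace (riemannRochSpace (2 • T - E)) u
      = (riemannRochSpace (D₁ + D₂ - E)).map (crossMap u) := by
  rw [crossSpace_eq_map (exists_ne_zero_of_span_eq h hx hy hu), km_colon_free h hx hy hu]

/-- step (S2): `dim Hm = ℓ(D₁ + D₂ - E)`. -/
theorem finrank_km_cross (h : IsRRField K F) [Infinite K]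
    (hx : 3 * (genusFF K F : ℤ) ≤ Divisor.degree (T - D₁))
    (hy : 3 * (genusFF K F : ℤ) ≤ Divisor.degree (T - D₂))
    {u : ι → F} (hu : Submodule.span K (Set.range u) = mulSpan (T - D₁) (T - D₂)) :
    Module.finrank K (crossSpace (riemannRochSpace (2 • T - E)) u) = ell (D₁ + D₂ - E) := by
  rw [finrank_crossSpace (exists_ne_zero_of_span_eq h hx hy hu), km_colon_free h hx hy hu]
  rfl

/-- `ℓ` only depends on the class: `ℓ(D₃) = ℓ(D₁ + D₂ - E)` if `D₃ = D₁ + D₂ - E + div f`. -/
theorem ell_eq_of_linEquiv (h : IsRRField K F) {f : F} (hf : f ≠ 0)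
    (hD₃f : D₃ = D₁ + D₂ - E + divOf h f) : ell D₃ = ell (D₁ + D₂ - E) := by
  rw [hD₃f]
  exact ell_add_divOf h _ hf

/-- step (S2): `dim Hm = 1` when `ℓ(D₃) = 1`. -/
theorem finrank_km_cross_eq_one (h : IsRRField K F) [Infinite K]
    (hx : 3 * (genusFF K F : ℤ) ≤ Divisor.degree (T - D₁))
    (hy : 3 * (genusFF K F : ℤ) ≤ Divisor.degree (T - D₂))
    (hell : ell D₃ = 1) {f : F} (hf : f ≠ 0) (hD₃f : D₃ = D₁ + D₂ - E + divOf h f)
    {u : ι → F} (hu : Submodule.span K (Set.range u) = mulSpan (T - D₁) (T - D₂)) :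
    Module.finrank K (crossSpace (riemannRochSpace (2 • T - E)) u) = 1 := by
  rw [finrank_km_cross h hx hy hu, ← ell_eq_of_linEquiv h hf hD₃f, hell]

/-- step (S3): for `z ≠ 0` in `Hm`, `span z = L(2T - D₃ - E)`. -/
theorem km_span_cross (h : IsRRField K F) [Infinite K]
    (hx : 3 * (genusFF K F : ℤ) ≤ Divisor.degree (T - D₁))
    (hy : 3 * (genusFF K F : ℤ) ≤ Divisor.degree (T - D₂))
    (hell : ell D₃ = 1) (hD₃ : 0 ≤ D₃) {f : F} (hf : f ≠ 0)
    (hD₃f : D₃ = D₁ + D₂ - E + divOf h f)
    {u : ι → F} (hu : Submodule.span K (Set.range u) = mulSpan (T - D₁) (T - D₂))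
    {z : ι → F} (hz : z ∈ crossSpace (riemannRochSpace (2 • T - E)) u) (hz0 : z ≠ 0) :
    Submodule.span K (Set.range z) = riemannRochSpace (2 • T - D₃ - E) := by
  rw [km_cross_eq h hx hy hu] at hz
  obtain ⟨a, ha, rfl⟩ := hz
  have ha0 : a ≠ 0 := by
    rintro rfl
    exact hz0 (map_zero _)
  have hres : 0 ≤ D₁ + D₂ - E + divOf h a := by
    have := residual_nonneg h ha0 ha
    rwa [add_comm] at this
  have hD : D₁ + D₂ - E + divOf h a = D₃ :=
    eq_of_effective_of_ell_eq_one h (by rw [← ell_eq_of_linEquiv h hf hD₃f]; exact hell)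
      hres hD₃ ha0 hf rfl hD₃f
  have e1 : (crossMap (K := K) u a : ι → F) = fun α => a * u α := rfl
  rw [e1, span_range_mul, hu, km_mul h hx hy, dilate_riemannRochSpace h _ ha0]
  congr 1
  rw [← hD]
  abel

/-- step (S3): the dimension of `Y = span z`. -/
theorem finrank_km_span_cross (h : IsRRField K F) [Infinite K]
    (hx : 3 * (genusFF K F : ℤ) ≤ Divisor.degree (T - D₁))
    (hy : 3 * (genusFF K F : ℤ) ≤ Divisor.degree (T - D₂))
    (hell : ell D₃ = 1) (hD₃ : 0 ≤ D₃) {f : F} (hf : f ≠ 0)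
    (hD₃f : D₃ = D₁ + D₂ - E + divOf h f)
    {u : ι → F} (hu : Submodule.span K (Set.range u) = mulSpan (T - D₁) (T - D₂))
    {z : ι → F} (hz : z ∈ crossSpace (riemannRochSpace (2 • T - E)) u) (hz0 : z ≠ 0) :
    (Module.finrank K (Submodule.span K (Set.range z)) : ℤ)
      = Divisor.degree (2 • T - D₁ - D₂) + 1 - (genusFF K F : ℤ) := by
  have hd : Divisor.degree (2 • T - D₃ - E) = Divisor.degree (2 • T - D₁ - D₂) := by
    rw [hD₃f]
    simp only [map_sub, map_add, degree_divOf]
    ring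
  have h2 := km_mul_degree (K := K) (F := F) hx hy
  have hg : (0 : ℤ) ≤ (genusFF K F : ℤ) := Int.natCast_nonneg _
  rw [km_span_cross h hx hy hell hD₃ hf hD₃f hu hz hz0,
    finrank_riemannRochSpace h (by rw [hd]; linarith), hd]

/-- step (S4): `(L(2T - D₃ - E) : L(T - E)) = L(T - D₃)`. -/
theorem km_colon_final (h : IsRRField K F)
    (hE : 2 * (genusFF K F : ℤ) ≤ Divisor.degree (T - E)) (D : Divisor K F) :
    colon (riemannRochSpace (T - E)) (riemannRochSpace (2 • T - D - E))
      = riemannRochSpace (T - D) := by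
  rw [colon_riemannRochSpace h _ hE]
  congr 1
  rw [two_nsmul]
  abel

/-- **pointwise Khuri-Makdisi addition, choice-free** ((S1)-(S4) of the R-G blueprint):
if `D₃ ≥ 0`, `ℓ(D₃) = 1`, `D₃ + E ∼ D₁ + D₂`, `u` generates `L(T - D₁) L(T - D₂)` and `z ≠ 0`
satisfies `z α ∈ L(2T - E)`, `z α u β = z β u α`, then
`{s | s • L(T - E) ⊆ span z} = L(T - D₃)`. -/
theorem km_sum_cross (h : IsRRField K F) [Infinite K]
    (hx : 3 * (genusFF K F : ℤ) ≤ Divisor.degree (T - D₁))
    (hy : 3 * (genusFF K F : ℤ) ≤ Divisor.degree (T - D₂))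
    (hE : 2 * (genusFF K F : ℤ) ≤ Divisor.degree (T - E))
    (hell : ell D₃ = 1) (hD₃ : 0 ≤ D₃) {f : F} (hf : f ≠ 0)
    (hD₃f : D₃ = D₁ + D₂ - E + divOf h f)
    {u : ι → F} (hu : Submodule.span K (Set.range u) = mulSpan (T - D₁) (T - D₂))
    {z : ι → F} (hz : z ∈ crossSpace (riemannRochSpace (2 • T - E)) u) (hz0 : z ≠ 0) :
    colon (riemannRochSpace (T - E)) (Submodule.span K (Set.range z))
      = riemannRochSpace (T - D₃) := by
  rw [km_span_cross h hx hy hell hD₃ hf hD₃f hu hz hz0, km_colon_final h hE]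

/-- the result lies in the ambient space `L(T)`. -/
theorem km_sum_cross_le (h : IsRRField K F) [Infinite K]
    (hx : 3 * (genusFF K F : ℤ) ≤ Divisor.degree (T - D₁))
    (hy : 3 * (genusFF K F : ℤ) ≤ Divisor.degree (T - D₂))
    (hE : 2 * (genusFF K F : ℤ) ≤ Divisor.degree (T - E))
    (hell : ell D₃ = 1) (hD₃ : 0 ≤ D₃) {f : F} (hf : f ≠ 0)
    (hD₃f : D₃ = D₁ + D₂ - E + divOf h f)
    {u : ι → F} (hu : Submodule.span K (Set.range u) = mulSpan (T - D₁) (T - D₂))
    {z : ι → F} (hz : z ∈ crossSpace (riemannRochSpace (2 • T - E)) u) (hz0 : z ≠ 0) :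
    colon (riemannRochSpace (T - E)) (Submodule.span K (Set.range z)) ≤ riemannRochSpace T := by
  rw [km_sum_cross h hx hy hE hell hD₃ hf hD₃f hu hz hz0]
  exact riemannRochSpace_mono (sub_le_self T hD₃)

/-- the ambient spaces of the steps: `U ⊆ L(2T)` for `D₁, D₂ ≥ 0`. -/
theorem km_mul_le (h : IsRRField K F) [Infinite K]
    (hx : 3 * (genusFF K F : ℤ) ≤ Divisor.degree (T - D₁))
    (hy : 3 * (genusFF K F : ℤ) ≤ Divisor.degree (T - D₂)) (h1 : 0 ≤ D₁) (h2 : 0 ≤ D₂) :
    mulSpan (T - D₁) (T - D₂) ≤ riemannRochSpace (2 • T) := by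
  rw [km_mul h hx hy]
  refine riemannRochSpace_mono ?_
  have : 2 • T - D₁ - D₂ = 2 • T - (D₁ + D₂) := by abel
  rw [this]
  exact sub_le_self _ (add_nonneg h1 h2)

end Cross

end Fermat.Agent.KMField
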