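import Mathlib
import Fermat.Agent.Lib.FF.KMField
import Fermat.Agent.Lib.FF.KMRingDefs
import Fermat.Agent.Lib.FF.GoodEll.Chart

set_option autoImplicit false

/-!
# FF / S19, route R-G: bridge `KMGood ⇐ KMField` (helper20)

`F / K` a function field (`IsRRField K F`, `K` infinite, any characteristic), `d : KMData K …`
coordinate data of one Khuri-Makdisi step, `c : KMCoord T D₁ D₂ E d` the dictionary:
bases `b₁`, `b₂`, `b₄` of `V1 = L(T)`, `V2 = L(2T)` and of a subspace containing the products of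
`V2`, with structure constants `d.m₁`, `d.m₂`, such that the columns of `d.Γx`, `d.Γy`, `d.E₁`,
`d.E₂` generate `L(T - D₁)`, `L(T - D₂)`, `L(T - E)`, `L(2T - E)`.

`kmGood_of_coord` : if `D₃ ≥ 0`, `ℓ(D₃) = 1`, `D₃ + E ∼ D₁ + D₂` (and the degrees are large) then
`KMGood d ρ I₀` with `ρ = ℓ(2T - D₁ - D₂)`, `r₃ = ℓ(T - D₃)`, for every `I₀` satisfying the chart
condition; moreover `d.W₃` is `L(T - D₃)` in coordinates (`map_W₃`).
-/

noncomputable section

open AlgebraicCurve

namespace Fermat.Agent.KMBridge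

open Fermat.Agent.RR Fermat.Agent.RRMult Fermat.Agent.KMField Fermat.Agent.KMRing

variable {K F : Type*} [Field K] [Field F] [Algebra K F]
variable {n₁ n₂ n₄ rx ry e₁ e₂ : ℕ}

/-- the coordinate map `v ↦ ∑ i, v i • b i`. -/
abbrev coord {n : ℕ} (b : Fin n → F) : (Fin n → K) →ₗ[K] F := Fintype.linearCombination K b

theorem coord_apply {n : ℕ} (b : Fin n → F) (v : Fin n → K) :
    coord (K := K) b v = ∑ i, v i • b i := Fintype.linearCombination_apply K b v

/-- the dictionary between the coordinate data `d` and the function field. -/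
structure KMCoord (T D₁ D₂ E : Divisor K F) (d : KMData K n₁ n₂ n₄ rx ry e₁ e₂) where
  /-- basis of `V1 = L(T)` -/
  b₁ : Fin n₁ → F
  /-- basis of `V2 = L(2T)` -/
  b₂ : Fin n₂ → F
  /-- basis of (a space containing) `V2 · V2` -/
  b₄ : Fin n₄ → F
  li₁ : LinearIndependent K b₁
  li₂ : LinearIndependent K b₂
  li₄ : LinearIndependent K b₄
  span₁ : Submodule.span K (Set.range b₁) = riemannRochSpace T
  span₂ : Submodule.span K (Set.range b₂) = riemannRochSpace (2 • T)
  hm₁ : ∀ i j, b₁ i * b₁ j = ∑ k, d.m₁ i j k • b₂ k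
  hm₂ : ∀ i j, b₂ i * b₂ j = ∑ k, d.m₂ i j k • b₄ k
  hΓx : Submodule.span K (Set.range fun a => coord (K := K) b₁ fun i => d.Γx i a)
    = riemannRochSpace (T - D₁)
  hΓy : Submodule.span K (Set.range fun a => coord (K := K) b₁ fun i => d.Γy i a)
    = riemannRochSpace (T - D₂)
  hE₁ : Submodule.span K (Set.range fun a => coord (K := K) b₁ fun i => d.E₁ i a)
    = riemannRochSpace (T - E)
  hE₂ : Submodule.span K (Set.range fun a => coord (K := K) b₂ fun i => d.E₂ i a)
    = riemannRochSpace (2 • T - E)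

namespace KMCoord

variable {T D₁ D₂ D₃ E : Divisor K F} {d : KMData K n₁ n₂ n₄ rx ry e₁ e₂}
  (c : KMCoord T D₁ D₂ E d)

theorem inj₁ : Function.Injective (coord (K := K) c.b₁) :=
  linearIndependent_iff_injective_fintypeLinearCombination.mp c.li₁

theorem inj₂ : Function.Injective (coord (K := K) c.b₂) :=
  linearIndependent_iff_injective_fintypeLinearCombination.mp c.li₂

theorem inj₄ : Function.Injective (coord (K := K) c.b₄) :=
  linearIndependent_iff_injective_fintypeLinearCombination.mp c.li₄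

theorem range₁ : LinearMap.range (coord (K := K) c.b₁) = riemannRochSpace T := by
  rw [← c.span₁]
  exact Fintype.range_linearCombination K c.b₁

theorem range₂ : LinearMap.range (coord (K := K) c.b₂) = riemannRochSpace (2 • T) := by
  rw [← c.span₂]
  exact Fintype.range_linearCombination K c.b₂

/-- the multiplication `V1 × V1 → V2` in coordinates. -/
theorem coord_mul₁ (v w : Fin n₁ → K) :
    coord (K := K) c.b₂ (d.mul₁ v w) = coord (K := K) c.b₁ v * coord (K := K) c.b₁ w := by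
  rw [coord_apply, coord_apply, coord_apply, Finset.sum_mul_sum]
  simp only [KMData.mul₁_apply, Finset.sum_smul]
  rw [Finset.sum_comm]
  refine Finset.sum_congr rfl fun i _ => ?_
  rw [Finset.sum_comm]
  refine Finset.sum_congr rfl fun j _ => ?_
  rw [smul_mul_smul_comm, c.hm₁ i j, Finset.smul_sum]
  refine Finset.sum_congr rfl fun k _ => ?_
  rw [smul_smul]
  congr 1
  ring

/-- the multiplication `V2 × V2 → V4` in coordinates. -/
theorem coord_mul₂ (v w : Fin n₂ → K) :
    coord (K := K) c.b₄ (d.mul₂ v w) = coord (K := K) c.b₂ v * coord (K := K) c.b₂ w := by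
  rw [coord_apply, coord_apply, coord_apply, Finset.sum_mul_sum]
  simp only [KMData.mul₂_apply, Finset.sum_smul]
  rw [Finset.sum_comm]
  refine Finset.sum_congr rfl fun i _ => ?_
  rw [Finset.sum_comm]
  refine Finset.sum_congr rfl fun j _ => ?_
  rw [smul_mul_smul_comm, c.hm₂ i j, Finset.smul_sum]
  refine Finset.sum_congr rfl fun k _ => ?_
  rw [smul_smul]
  congr 1
  ring

/-- the generators `u α` of `U = L(T - D₁) L(T - D₂)` in the function field. -/
def uF (α : Fin rx × Fin ry) : F := coord (K := K) c.b₂ (d.u α)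

theorem uF_eq (α : Fin rx × Fin ry) :
    c.uF α = (coord (K := K) c.b₁ fun i => d.Γx i α.1) * (coord (K := K) c.b₁ fun i => d.Γy i α.2) :=
  c.coord_mul₁ _ _

theorem span_uF : Submodule.span K (Set.range c.uF) = mulSpan (T - D₁) (T - D₂) := by
  have := span_range_mul_eq_mulSpan (K := K) c.hΓx c.hΓy
  rw [← this]
  congr 1
  ext x
  simp only [Set.mem_range]
  constructor
  · rintro ⟨α, rfl⟩
    exact ⟨α, (c.uF_eq α).symm⟩
  · rintro ⟨α, rfl⟩
    exact ⟨α, c.uF_eq α⟩

/-- the image of the column space of a matrix under the coordinate map. -/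
theorem map_range_mulVecLin {n e : ℕ} (b : Fin n → F) (M : Matrix (Fin n) (Fin e) K) :
    (LinearMap.range M.mulVecLin).map (coord (K := K) b)
      = Submodule.span K (Set.range fun a => coord (K := K) b fun i => M i a) := by
  rw [Matrix.range_mulVecLin, Submodule.map_span, ← Set.range_comp]
  rfl

theorem map_X : d.X.map (coord (K := K) c.b₂) = riemannRochSpace (2 • T - E) := by
  rw [← c.hE₂]
  exact map_range_mulVecLin c.b₂ d.E₂

theorem mem_X_iff (v : Fin n₂ → K) :
    v ∈ d.X ↔ coord (K := K) c.b₂ v ∈ riemannRochSpace (2 • T - E) := by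
  rw [← c.map_X]
  constructor
  · intro hv
    exact Submodule.mem_map_of_mem hv
  · rintro ⟨w, hw, hwv⟩
    rwa [← c.inj₂ hwv]

/-- the coordinate map on families. -/
def coordFam : (Fin rx × Fin ry → Fin n₂ → K) →ₗ[K] (Fin rx × Fin ry → F) where
  toFun z := fun α => coord (K := K) c.b₂ (z α)
  map_add' z z' := by
    funext α
    simp
  map_smul' a z := by
    funext α
    simp

@[simp]
theorem coordFam_apply (z : Fin rx × Fin ry → Fin n₂ → K) (α : Fin rx × Fin ry) :
    c.coordFam z α = coord (K := K) c.b₂ (z α) := rfl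

theorem coordFam_injective : Function.Injective c.coordFam := by
  intro z z' hzz
  funext α
  exact c.inj₂ (congrFun hzz α)

/-- the cross space in coordinates is the cross space of the function field. -/
theorem map_cross :
    d.cross.map c.coordFam = crossSpace (riemannRochSpace (2 • T - E)) c.uF := by
  apply le_antisymm
  · rintro _ ⟨z, hz, rfl⟩
    obtain ⟨hzX, hzz⟩ := hz
    refine ⟨fun α => (c.mem_X_iff (z α)).mp (hzX α), fun α β => ?_⟩
    simp only [coordFam_apply, uF]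
    rw [← c.coord_mul₂, ← c.coord_mul₂, hzz α β]
  · rintro z' ⟨hz'X, hz'z⟩
    have hex : ∀ α, ∃ v : Fin n₂ → K, v ∈ d.X ∧ coord (K := K) c.b₂ v = z' α := by
      intro α
      have := hz'X α
      rw [← c.map_X] at this
      obtain ⟨v, hv, hvz⟩ := this
      exact ⟨v, hv, hvz⟩
    choose z hzX hz using hex
    refine ⟨z, ⟨hzX, fun α β => ?_⟩, ?_⟩
    · apply c.inj₄
      rw [c.coord_mul₂, c.coord_mul₂, hz α, hz β]
      exact hz'z α β
    · funext α
      exact hz α

theorem finrank_cross_eq :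
    Module.finrank K d.cross
      = Module.finrank K (crossSpace (riemannRochSpace (2 • T - E)) c.uF) := by
  rw [← c.map_cross]
  exact (Submodule.equivMapOfInjective c.coordFam c.coordFam_injective d.cross).finrank_eq

/-- `Y` in coordinates: the span of all members of all elements of the cross space. -/
theorem map_Y :
    d.Y.map (coord (K := K) c.b₂)
      = Submodule.span K {v | ∃ z ∈ crossSpace (riemannRochSpace (2 • T - E)) c.uF, ∃ α, v = z α} := by
  unfold KMData.Y
  rw [Submodule.map_span]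
  congr 1
  ext v
  constructor
  · rintro ⟨w, ⟨z, hz, α, rfl⟩, rfl⟩
    refine ⟨c.coordFam z, ?_, α, rfl⟩
    rw [← c.map_cross]
    exact Submodule.mem_map_of_mem hz
  · rintro ⟨z', hz', α, rfl⟩
    rw [← c.map_cross] at hz'
    obtain ⟨z, hz, rfl⟩ := hz'
    exact ⟨z α, ⟨z, hz, α, rfl⟩, rfl⟩

section RR

/-- the Riemann-Roch hypotheses of one Khuri-Makdisi addition step: degrees, `D₃ ≥ 0`,
`ℓ(D₃) = 1` and `D₃ + E ∼ D₁ + D₂`. -/
structure KMHyp (h : IsRRField K F) (T D₁ D₂ D₃ E : Divisor K F) : Prop where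
  hx : 3 * (genusFF K F : ℤ) ≤ Divisor.degree (T - D₁)
  hy : 3 * (genusFF K F : ℤ) ≤ Divisor.degree (T - D₂)
  hE : 2 * (genusFF K F : ℤ) ≤ Divisor.degree (T - E)
  hell : ell D₃ = 1
  hD₃ : 0 ≤ D₃
  equiv : ∃ f : F, f ≠ 0 ∧ D₃ = D₁ + D₂ - E + divOf h f

theorem finrank_cross (c : KMCoord T D₁ D₂ E d) (h : IsRRField K F) [Infinite K]
    (H : KMHyp h T D₁ D₂ D₃ E) :
    Module.finrank K d.cross = 1 := by
  obtain ⟨f, hf, hD₃f⟩ := H.equiv
  rw [c.finrank_cross_eq]
  exact finrank_km_cross_eq_one h H.hx H.hy H.hell hf hD₃f c.span_uF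

/-- `Y` is `L(2T - D₃ - E)` in coordinates. -/
theorem map_Y_eq (h : IsRRField K F) [Infinite K] (H : KMHyp h T D₁ D₂ D₃ E) :
    d.Y.map (coord (K := K) c.b₂) = riemannRochSpace (2 • T - D₃ - E) := by
  obtain ⟨f, hf, hD₃f⟩ := H.equiv
  rw [c.map_Y]
  apply le_antisymm
  · rw [Submodule.span_le]
    rintro v ⟨z, hz, α, rfl⟩
    by_cases hz0 : z = 0
    · rw [hz0]
      exact Submodule.zero_mem _
    · rw [← km_span_cross h H.hx H.hy H.hell H.hD₃ hf hD₃f c.span_uF hz hz0]
      exact Submodule.subset_span ⟨α, rfl⟩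
  · -- the cross space is not zero
    have h1 := finrank_km_cross_eq_one h H.hx H.hy H.hell hf hD₃f c.span_uF (E := E)
    have hne : crossSpace (riemannRochSpace (2 • T - E)) c.uF ≠ ⊥ := by
      intro hbot
      rw [hbot, finrank_bot] at h1
      exact zero_ne_one h1
    obtain ⟨z, hz, hz0⟩ := Submodule.exists_mem_ne_zero_of_ne_bot hne
    rw [← km_span_cross h H.hx H.hy H.hell H.hD₃ hf hD₃f c.span_uF hz hz0, Submodule.span_le]
    rintro _ ⟨α, rfl⟩
    exact Submodule.subset_span ⟨z, hz, α, rfl⟩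

theorem finrank_Y (c : KMCoord T D₁ D₂ E d) (h : IsRRField K F) [Infinite K]
    (H : KMHyp h T D₁ D₂ D₃ E) :
    (Module.finrank K d.Y : ℤ)
      = Divisor.degree (2 • T - D₁ - D₂) + 1 - (genusFF K F : ℤ) := by
  obtain ⟨f, hf, hD₃f⟩ := H.equiv
  have e := (Submodule.equivMapOfInjective (coord (K := K) c.b₂) c.inj₂ d.Y).finrank_eq
  rw [e, c.map_Y_eq h H]
  have hd : Divisor.degree (2 • T - D₃ - E) = Divisor.degree (2 • T - D₁ - D₂) := by
    rw [hD₃f]
    simp only [map_sub, map_add, degree_divOf]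
    ring
  have h2 := km_mul_degree (K := K) (F := F) H.hx H.hy
  have hg : (0 : ℤ) ≤ (genusFF K F : ℤ) := Int.natCast_nonneg _
  rw [finrank_riemannRochSpace h (by rw [hd]; linarith), hd]

theorem mem_Y_iff (h : IsRRField K F) [Infinite K] (H : KMHyp h T D₁ D₂ D₃ E)
    (v : Fin n₂ → K) :
    v ∈ d.Y ↔ coord (K := K) c.b₂ v ∈ riemannRochSpace (2 • T - D₃ - E) := by
  rw [← c.map_Y_eq h H]
  constructor
  · intro hv
    exact Submodule.mem_map_of_mem hv
  · rintro ⟨w, hw, hwv⟩
    rwa [← c.inj₂ hwv]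

/-- membership in `W₃` in the function field. -/
theorem mem_W₃_iff (h : IsRRField K F) [Infinite K] (H : KMHyp h T D₁ D₂ D₃ E)
    (s : Fin n₁ → K) :
    s ∈ d.W₃ ↔ coord (K := K) c.b₁ s ∈ riemannRochSpace (T - D₃) := by
  rw [← km_colon_final h H.hE D₃, ← c.hE₁, mem_colon_span, KMData.mem_W₃]
  constructor
  · rintro hs _ ⟨i, rfl⟩
    have := (c.mem_Y_iff h H _).mp (hs i)
    rwa [c.coord_mul₁] at this
  · intro hs i
    rw [c.mem_Y_iff h H, c.coord_mul₁]
    exact hs _ ⟨i, rfl⟩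

/-- `W₃` is `L(T - D₃)` in coordinates. -/
theorem map_W₃ (h : IsRRField K F) [Infinite K] (H : KMHyp h T D₁ D₂ D₃ E) :
    d.W₃.map (coord (K := K) c.b₁) = riemannRochSpace (T - D₃) := by
  apply le_antisymm
  · rintro _ ⟨s, hs, rfl⟩
    exact (c.mem_W₃_iff h H s).mp hs
  · intro y hy
    have hyT : y ∈ LinearMap.range (coord (K := K) c.b₁) := by
      rw [c.range₁]
      exact riemannRochSpace_mono (sub_le_self T H.hD₃) hy
    obtain ⟨s, rfl⟩ := hyT
    exact Submodule.mem_map_of_mem ((c.mem_W₃_iff h H s).mpr hy)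

theorem finrank_W₃ (c : KMCoord T D₁ D₂ E d) (h : IsRRField K F) [Infinite K]
    (H : KMHyp h T D₁ D₂ D₃ E)
    (hT : 2 * (genusFF K F : ℤ) - 2 < Divisor.degree (T - D₃)) :
    (Module.finrank K d.W₃ : ℤ) = Divisor.degree (T - D₃) + 1 - (genusFF K F : ℤ) := by
  have e := (Submodule.equivMapOfInjective (coord (K := K) c.b₁) c.inj₁ d.W₃).finrank_eq
  rw [e, c.map_W₃ h H, finrank_riemannRochSpace h hT]

/-- **the bridge**: the pointwise rank statements `KMGood` from Riemann-Roch. -/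
theorem kmGood (c : KMCoord T D₁ D₂ E d) (h : IsRRField K F) [Infinite K]
    (H : KMHyp h T D₁ D₂ D₃ E)
    (hT : 2 * (genusFF K F : ℤ) - 2 < Divisor.degree (T - D₃))
    {ρ r₃ : ℕ} (hρ : (ρ : ℤ) = Divisor.degree (2 • T - D₁ - D₂) + 1 - (genusFF K F : ℤ))
    (hr₃ : (r₃ : ℤ) = Divisor.degree (T - D₃) + 1 - (genusFF K F : ℤ))
    (I₀ : Fin r₃ → Fin n₁)
    (hchart : ∀ s : Fin n₁ → K, coord (K := K) c.b₁ s ∈ riemannRochSpace (T - D₃) →
      (∀ i, s (I₀ i) = 0) → s = 0) :
    KMGood d ρ I₀ where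
  finrank_cross := c.finrank_cross h H
  finrank_Y := by
    have := c.finrank_Y h H
    omega
  finrank_W₃ := by
    have := c.finrank_W₃ h H hT
    omega
  chart := fun s hs hs0 => hchart s ((c.mem_W₃_iff h H s).mp hs) hs0

/-- the chart condition from a complement: if the basis vectors `b₁ j`, `j ∉ range I₀`, lie in
a subspace `C` with `L(T - D₃) ⊓ C = ⊥`, the chart condition holds. -/
theorem chart_of_inf_eq_bot {r₃ : ℕ} (I₀ : Fin r₃ → Fin n₁) (C : Submodule K F)
    (hC : ∀ j, j ∉ Set.range I₀ → c.b₁ j ∈ C)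
    (hinf : riemannRochSpace (T - D₃) ⊓ C = ⊥) :
    ∀ s : Fin n₁ → K, coord (K := K) c.b₁ s ∈ riemannRochSpace (T - D₃) →
      (∀ i, s (I₀ i) = 0) → s = 0 := by
  intro s hs hs0
  have hmemC : coord (K := K) c.b₁ s ∈ C := by
    rw [coord_apply]
    refine Submodule.sum_mem _ fun j _ => ?_
    by_cases hj : j ∈ Set.range I₀
    · obtain ⟨i, rfl⟩ := hj
      rw [hs0 i, zero_smul]
      exact C.zero_mem
    · exact C.smul_mem _ (hC j hj)
  have h0 : coord (K := K) c.b₁ s ∈ riemannRochSpace (T - D₃) ⊓ C := ⟨hs, hmemC⟩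
  rw [hinf, Submodule.mem_bot] at h0
  exact c.inj₁ (by rw [h0, map_zero])

/-- **the bridge, with the chart `C = L((2g-1) P)`**: `T = M₀ P`, `D₃` good at `P`
(`FFGoodEll.IsGoodDiv`), and the basis vectors `b₁ j`, `j ∉ range I₀`, lie in `L((2g-1) P)`. -/
theorem kmGood_of_isGoodDiv {P : Place K F} {M₀ : ℤ}
    (c : KMCoord (Finsupp.single P M₀) D₁ D₂ E d) (h : IsRRField K F) [Infinite K]
    (H : KMHyp h (Finsupp.single P M₀) D₁ D₂ D₃ E)
    (hgood : Fermat.Agent.FFGoodEll.IsGoodDiv P D₃)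
    (hT : 2 * (genusFF K F : ℤ) - 2 < Divisor.degree (Finsupp.single P M₀ - D₃))
    {ρ r₃ : ℕ}
    (hρ : (ρ : ℤ) = Divisor.degree (2 • Finsupp.single P M₀ - D₁ - D₂) + 1 - (genusFF K F : ℤ))
    (hr₃ : (r₃ : ℤ) = Divisor.degree (Finsupp.single P M₀ - D₃) + 1 - (genusFF K F : ℤ))
    (I₀ : Fin r₃ → Fin n₁)
    (hC : ∀ j, j ∉ Set.range I₀ →
      c.b₁ j ∈ riemannRochSpace (Finsupp.single P (2 * (genusFF K F : ℤ) - 1))) :
    KMGood d ρ I₀ :=
  c.kmGood h H hT hρ hr₃ I₀
    (c.chart_of_inf_eq_bot I₀ _ hC (hgood.inf_eq_bot h H.hD₃ M₀))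

end RR

end KMCoord

end Fermat.Agent.KMBridge
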