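import Mathlib
import Fermat.Agent.Lib.FF.RedGood
import Fermat.Agent.Lib.FF.KMBridge

/-!
# S19 / route R-G, piece G-e (helper12): Khuri-Makdisi on the special fibre

Abstract constant reduction `S : Deuring.ValSetup K F k Fk` with the lattice property, `r` a
Deuring reduction of places, genus equality.

* `redSpace_colSpan` : the reduction of the column space of an INTEGRAL matrix whose reduced
  columns are linearly independent is the column space of the reduced matrix;
* `linearIndependent_colVec_of_leftInverse` : columns of a matrix with a left inverse are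
  independent (for `X τ`, `Lx τ` of `KMGeom`);
* `kmCoordRed` : an integral model `d` (over the valuation ring `S.A`) of the Khuri-Makdisi data of
  `c : KMCoord T D₁ D₂ E (d.map S.A.subtype)` with ORTHONORMAL bases reduces to a dictionary
  `KMCoord (r_* T) (r_* D₁) (r_* D₂) (r_* E) (d.map S.res)` over the residue field;
* `kmHyp_red` : the Riemann-Roch hypotheses `KMHyp` reduce, if `r_* D₃` is good;
* `kmGood_residue` : **`KMGood (d.map S.res) ρ I₀`** from goodness of `r_* D₃` on the special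
  fibre (this is the field `good_cl` of `KMGeom`, `Lib/FF/FormalDefs.lean`).
-/

set_option autoImplicit false

noncomputable section

open AlgebraicCurve Fermat.Agent.RR Fermat.Agent.Deuring Fermat.Agent.FFGoodEll
  Fermat.Agent.KMRing Fermat.Agent.KMBridge

namespace Fermat.Agent.FF

section LinAlg

variable {R M : Type*} [CommRing R] [AddCommGroup M] [Module R M] {n e : ℕ}

/-- the column space in the notation of `KMBridge`. -/
theorem colSpan_eq_span_coord {K F : Type*} [Field K] [Field F] [Algebra K F]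
    (b : Fin n → F) (X : Matrix (Fin n) (Fin e) K) :
    colSpan b X = Submodule.span K (Set.range fun a => coord (K := K) b fun i => X i a) := by
  unfold colSpan
  congr 1

/-- the columns of a matrix with a left inverse are linearly independent. -/
theorem linearIndependent_colVec_of_leftInverse {b : Fin n → M} (hb : LinearIndependent R b)
    (X : Matrix (Fin n) (Fin e) R) (L : Matrix (Fin e) (Fin n) R) (h : L * X = 1) :
    LinearIndependent R (colVec b X) := by
  rw [Fintype.linearIndependent_iff]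
  intro v hv a
  rw [sum_smul_colVec] at hv
  have h1 : X.mulVec v = 0 := by
    funext i
    exact Fintype.linearIndependent_iff.mp hb _ hv i
  have h2 : v = L.mulVec (X.mulVec v) := by
    rw [Matrix.mulVec_mulVec, h, Matrix.one_mulVec]
  rw [h2, h1, Matrix.mulVec_zero]
  rfl

end LinAlg

variable {K F k Fk : Type*} [Field K] [Field F] [Algebra K F]
  [Field k] [Field Fk] [Algebra k Fk]

variable (S : ValSetup K F k Fk)

/-- reduction of a column of an integral matrix. -/
theorem colVec_map_red {n e : ℕ} (b : Fin n → F) (hb : ∀ i, b i ∈ S.Ov)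
    (X : Matrix (Fin n) (Fin e) S.A) (a : Fin e) :
    colVec b (X.map S.A.subtype) a ∈ S.Ov ∧
      S.red (colVec b (X.map S.A.subtype) a) =
        colVec (fun i => S.red (b i)) (X.map S.res) a :=
  red_sum S b hb (fun i => (X i a : K)) (fun i => (X i a).2)

/-- the reduction of the column space of an integral matrix whose reduced columns are linearly
independent. -/
theorem redSpace_colSpan (hL : HasLattice S) {n e : ℕ} (b : Fin n → F)
    (hb : ∀ i, b i ∈ S.Ov) (X : Matrix (Fin n) (Fin e) S.A)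
    (hX : LinearIndependent k (colVec (fun i => S.red (b i)) (X.map S.res))) :
    redSpace S (colSpan b (X.map S.A.subtype)) =
      colSpan (fun i => S.red (b i)) (X.map S.res) := by
  have hfd : FiniteDimensional K (colSpan b (X.map S.A.subtype)) :=
    FiniteDimensional.span_of_finite K (Set.finite_range _)
  have hfd' : FiniteDimensional k (redSpace S (colSpan b (X.map S.A.subtype))) :=
    finiteDimensional_redSpace S hL _
  have hle : colSpan (fun i => S.red (b i)) (X.map S.res) ≤
      redSpace S (colSpan b (X.map S.A.subtype)) := by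
    unfold colSpan
    rw [Submodule.span_le]
    rintro _ ⟨a, rfl⟩
    rw [← (colVec_map_red S b hb X a).2]
    exact red_mem_redSpace S _ (Submodule.subset_span ⟨a, rfl⟩) (colVec_map_red S b hb X a).1
  refine (Submodule.eq_of_le_of_finrank_le hle ?_).symm
  rw [finrank_redSpace S hL]
  have h1 : Module.finrank k (colSpan (fun i => S.red (b i)) (X.map S.res)) = e := by
    unfold colSpan
    rw [finrank_span_eq_card hX, Fintype.card_fin]
  rw [h1]
  have h2 := finrank_range_le_card (R := K) (colVec b (X.map S.A.subtype))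
  rw [Fintype.card_fin] at h2
  exact h2

/-- the reduced columns of an integral matrix which is in echelon form are independent. -/
theorem linearIndependent_colVec_res_of_echelon {n e : ℕ} {b : Fin n → F}
    (hli : LinearIndependent k (fun i => S.red (b i))) (X : Matrix (Fin n) (Fin e) S.A)
    (I₀ : Fin e → Fin n) (h : (X.map S.A.subtype).submatrix I₀ id = 1) :
    LinearIndependent k (colVec (fun i => S.red (b i)) (X.map S.res)) := by
  classical
  apply linearIndependent_colVec hli (I₀ := I₀)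
  ext i j
  have h1 := congrFun (congrFun h i) j
  simp only [Matrix.submatrix_apply, Matrix.map_apply, id_eq, Matrix.one_apply] at h1 ⊢
  by_cases hij : i = j
  · rw [if_pos hij] at h1 ⊢
    have h2 : X (I₀ i) j = 1 := Subtype.ext h1
    rw [h2, map_one]
  · rw [if_neg hij] at h1 ⊢
    have h2 : X (I₀ i) j = 0 := Subtype.ext h1
    rw [h2, map_zero]

/-- the reduced columns of an integral matrix with an integral left inverse are independent. -/
theorem linearIndependent_colVec_res_of_leftInverse {n e : ℕ} {b : Fin n → F}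
    (hli : LinearIndependent k (fun i => S.red (b i))) (X : Matrix (Fin n) (Fin e) S.A)
    (L : Matrix (Fin e) (Fin n) K) (hL : ∀ a i, L a i ∈ S.A)
    (h : L * X.map S.A.subtype = 1) :
    LinearIndependent k (colVec (fun i => S.red (b i)) (X.map S.res)) := by
  classical
  set L' : Matrix (Fin e) (Fin n) S.A := Matrix.of fun a i => ⟨L a i, hL a i⟩ with hL'
  have h1 : L' * X = 1 := by
    ext a a'
    have h2 := congrFun (congrFun h a) a'
    rw [Matrix.mul_apply] at h2
    rw [Matrix.mul_apply]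
    have h3 : (((∑ j, L' a j * X j a' : S.A)) : K) = ∑ j, L a j * (X.map S.A.subtype) j a' := by
      rw [← ValuationSubring.subtype_apply, map_sum]
      rfl
    rw [h3, h2]
    by_cases haa : a = a'
    · rw [Matrix.one_apply, Matrix.one_apply, if_pos haa, if_pos haa]
      rfl
    · rw [Matrix.one_apply, Matrix.one_apply, if_neg haa, if_neg haa]
      rfl
  have h4 : L'.map S.res * X.map S.res = 1 := by
    rw [← Matrix.map_mul, h1]
    ext i j
    simp [Matrix.one_apply, apply_ite]
  exact linearIndependent_colVec_of_leftInverse hli _ _ h4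

variable {S}
variable {n₁ n₂ n₄ rx ry e₁ e₂ : ℕ}

/-- **Reduction of the Khuri-Makdisi dictionary.** -/
def kmCoordRed (hL : HasLattice S) {r : Place K F → Place k Fk} (hr : IsReduction S r)
    {T D₁ D₂ E : Divisor K F} (d : KMData S.A n₁ n₂ n₄ rx ry e₁ e₂)
    (c : KMCoord T D₁ D₂ E (d.map S.A.subtype))
    (hb₁ : ∀ i, c.b₁ i ∈ S.Ov) (hli₁ : LinearIndependent k (fun i => S.red (c.b₁ i)))
    (hb₂ : ∀ i, c.b₂ i ∈ S.Ov) (hli₂ : LinearIndependent k (fun i => S.red (c.b₂ i)))
    (hb₄ : ∀ i, c.b₄ i ∈ S.Ov) (hli₄ : LinearIndependent k (fun i => S.red (c.b₄ i)))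
    (hT : 2 * (genusFF K F : ℤ) ≤ Divisor.degree T)
    (hT₂ : 2 * (genusFF K F : ℤ) ≤ Divisor.degree (2 • T))
    (hx : 2 * (genusFF K F : ℤ) ≤ Divisor.degree (T - D₁))
    (hy : 2 * (genusFF K F : ℤ) ≤ Divisor.degree (T - D₂))
    (hE : 2 * (genusFF K F : ℤ) ≤ Divisor.degree (T - E))
    (hE' : 2 * (genusFF K F : ℤ) ≤ Divisor.degree (2 • T - E))
    (hΓx : LinearIndependent k (colVec (fun i => S.red (c.b₁ i)) (d.Γx.map S.res)))
    (hΓy : LinearIndependent k (colVec (fun i => S.red (c.b₁ i)) (d.Γy.map S.res)))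
    (hE₁ : LinearIndependent k (colVec (fun i => S.red (c.b₁ i)) (d.E₁.map S.res)))
    (hE₂ : LinearIndependent k (colVec (fun i => S.red (c.b₂ i)) (d.E₂.map S.res)))
    {T' : Divisor k Fk} (hT' : redDiv r T = T') :
    KMCoord T' (redDiv r D₁) (redDiv r D₂) (redDiv r E) (d.map S.res) where
  b₁ := fun i => S.red (c.b₁ i)
  b₂ := fun i => S.red (c.b₂ i)
  b₄ := fun i => S.red (c.b₄ i)
  li₁ := hli₁
  li₂ := hli₂
  li₄ := hli₄
  span₁ := by
    rw [← redSpace_span S c.b₁ hb₁ hli₁, c.span₁, hr.redSpace_eq hT, hT']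
  span₂ := by
    rw [← redSpace_span S c.b₂ hb₂ hli₂, c.span₂, hr.redSpace_eq hT₂, map_nsmul, hT']
  hm₁ := fun i j => by
    have h1 := c.hm₁ i j
    have h2 := red_sum S c.b₂ hb₂ (fun l => ((d.m₁ i j l : S.A) : K)) (fun l => (d.m₁ i j l).2)
    rw [← S.red_mul (hb₁ i) (hb₁ j), h1]
    exact h2.2
  hm₂ := fun i j => by
    have h1 := c.hm₂ i j
    have h2 := red_sum S c.b₄ hb₄ (fun l => ((d.m₂ i j l : S.A) : K)) (fun l => (d.m₂ i j l).2)
    rw [← S.red_mul (hb₂ i) (hb₂ j), h1]
    exact h2.2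
  hΓx := by
    have h1 := c.hΓx
    rw [← colSpan_eq_span_coord] at h1
    rw [← colSpan_eq_span_coord]
    show colSpan (fun i => S.red (c.b₁ i)) (d.Γx.map S.res) = _
    rw [← redSpace_colSpan S hL c.b₁ hb₁ d.Γx hΓx]
    show redSpace S (colSpan c.b₁ (d.map S.A.subtype).Γx) = _
    rw [h1, hr.redSpace_eq hx, map_sub, hT']
  hΓy := by
    have h1 := c.hΓy
    rw [← colSpan_eq_span_coord] at h1
    rw [← colSpan_eq_span_coord]
    show colSpan (fun i => S.red (c.b₁ i)) (d.Γy.map S.res) = _
    rw [← redSpace_colSpan S hL c.b₁ hb₁ d.Γy hΓy]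
    show redSpace S (colSpan c.b₁ (d.map S.A.subtype).Γy) = _
    rw [h1, hr.redSpace_eq hy, map_sub, hT']
  hE₁ := by
    have h1 := c.hE₁
    rw [← colSpan_eq_span_coord] at h1
    rw [← colSpan_eq_span_coord]
    show colSpan (fun i => S.red (c.b₁ i)) (d.E₁.map S.res) = _
    rw [← redSpace_colSpan S hL c.b₁ hb₁ d.E₁ hE₁]
    show redSpace S (colSpan c.b₁ (d.map S.A.subtype).E₁) = _
    rw [h1, hr.redSpace_eq hE, map_sub, hT']
  hE₂ := by
    have h1 := c.hE₂
    rw [← colSpan_eq_span_coord] at h1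
    rw [← colSpan_eq_span_coord]
    show colSpan (fun i => S.red (c.b₂ i)) (d.E₂.map S.res) = _
    rw [← redSpace_colSpan S hL c.b₂ hb₂ d.E₂ hE₂]
    show redSpace S (colSpan c.b₂ (d.map S.A.subtype).E₂) = _
    rw [h1, hr.redSpace_eq hE', map_sub, map_nsmul, hT']

/-- the Riemann-Roch hypotheses of a Khuri-Makdisi step reduce, if `r_* D₃` has `ℓ = 1`. -/
theorem kmHyp_red {r : Place K F → Place k Fk} (hr : IsReduction S r)
    (hg : genusFF K F = genusFF k Fk) {T D₁ D₂ D₃ E : Divisor K F}
    (H : KMCoord.KMHyp S.hF T D₁ D₂ D₃ E) (hell : ell (redDiv r D₃) = 1) :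
    KMCoord.KMHyp S.hFk (redDiv r T) (redDiv r D₁) (redDiv r D₂) (redDiv r D₃) (redDiv r E) where
  hx := by
    rw [← map_sub, hr.degree_redDiv, ← hg]
    exact H.hx
  hy := by
    rw [← map_sub, hr.degree_redDiv, ← hg]
    exact H.hy
  hE := by
    rw [← map_sub, hr.degree_redDiv, ← hg]
    exact H.hE
  hell := hell
  hD₃ := redDiv_nonneg r H.hD₃
  equiv := by
    obtain ⟨f, hf, hD₃f⟩ := H.equiv
    obtain ⟨c, -, -, hred, hdiv⟩ := hr.redDiv_divOf hf
    refine ⟨_, hred, ?_⟩
    rw [hD₃f, map_add, map_sub, map_add, hdiv]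

/-- **Khuri-Makdisi on the special fibre** (`good_cl` of `KMGeom`): for an integral model `d` of
the data of a dictionary `c` with orthonormal bases, `T = M₀ P`, and `r_* D₃` good for the chart at
`r P`, the reduced data satisfy `KMGood`. -/
theorem kmGood_residue (hL : HasLattice S) [Infinite k] {r : Place K F → Place k Fk}
    (hr : IsReduction S r) (hg : genusFF K F = genusFF k Fk)
    {P : Place K F} {M₀ : ℤ} (hM₀ : 3 * (genusFF K F : ℤ) ≤ M₀)
    {D₁ D₂ D₃ E : Divisor K F} (d : KMData S.A n₁ n₂ n₄ rx ry e₁ e₂)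
    (c : KMCoord (Finsupp.single P M₀) D₁ D₂ E (d.map S.A.subtype))
    (hb₁ : ∀ i, c.b₁ i ∈ S.Ov) (hli₁ : LinearIndependent k (fun i => S.red (c.b₁ i)))
    (hb₂ : ∀ i, c.b₂ i ∈ S.Ov) (hli₂ : LinearIndependent k (fun i => S.red (c.b₂ i)))
    (hb₄ : ∀ i, c.b₄ i ∈ S.Ov) (hli₄ : LinearIndependent k (fun i => S.red (c.b₄ i)))
    (H : KMCoord.KMHyp S.hF (Finsupp.single P M₀) D₁ D₂ D₃ E)
    (hdeg₃ : Divisor.degree D₃ = (genusFF K F : ℤ))
    (hΓx : LinearIndependent k (colVec (fun i => S.red (c.b₁ i)) (d.Γx.map S.res)))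
    (hΓy : LinearIndependent k (colVec (fun i => S.red (c.b₁ i)) (d.Γy.map S.res)))
    (hE₁ : LinearIndependent k (colVec (fun i => S.red (c.b₁ i)) (d.E₁.map S.res)))
    (hE₂ : LinearIndependent k (colVec (fun i => S.red (c.b₂ i)) (d.E₂.map S.res)))
    (hgood : IsGoodDiv (r P) (redDiv r D₃))
    {ρ r₃ : ℕ}
    (hρ : (ρ : ℤ) = Divisor.degree (2 • Finsupp.single P M₀ - D₁ - D₂) + 1
      - (genusFF K F : ℤ))
    (hr₃ : (r₃ : ℤ) = Divisor.degree (Finsupp.single P M₀ - D₃) + 1 - (genusFF K F : ℤ))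
    (I₀ : Fin r₃ → Fin n₁)
    (hC : ∀ j, j ∉ Set.range I₀ →
      c.b₁ j ∈ riemannRochSpace (Finsupp.single P (2 * (genusFF K F : ℤ) - 1))) :
    KMGood (d.map S.res) ρ I₀ := by
  have hg0 : (0 : ℤ) ≤ (genusFF K F : ℤ) := Int.natCast_nonneg _
  have hdT : Divisor.degree (Finsupp.single P M₀) = M₀ := degree_single_one S.hF P M₀
  have hx := H.hx
  have hy := H.hy
  have hE := H.hE
  have hT : 2 * (genusFF K F : ℤ) ≤ Divisor.degree (Finsupp.single P M₀) := by
    rw [hdT]; omega
  have hT₂ : 2 * (genusFF K F : ℤ) ≤ Divisor.degree (2 • Finsupp.single P M₀) := by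
    rw [map_nsmul, hdT]
    simp only [nsmul_eq_mul, Nat.cast_ofNat]
    omega
  have hE' : 2 * (genusFF K F : ℤ) ≤ Divisor.degree (2 • Finsupp.single P M₀ - E) := by
    have e1 : 2 • Finsupp.single P M₀ - E = Finsupp.single P M₀ + (Finsupp.single P M₀ - E) := by
      rw [two_nsmul]; abel
    rw [e1, map_add, hdT]
    omega
  have hx2 : 2 * (genusFF K F : ℤ) ≤ Divisor.degree (Finsupp.single P M₀ - D₁) := by omega
  have hy2 : 2 * (genusFF K F : ℤ) ≤ Divisor.degree (Finsupp.single P M₀ - D₂) := by omega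
  have hdeg₃' : Divisor.degree (redDiv r D₃) = (genusFF k Fk : ℤ) := by
    rw [hr.degree_redDiv, hdeg₃, hg]
  have Hred := kmHyp_red hr hg H (hgood.ell_eq_one S.hFk hdeg₃')
  rw [redDiv_single] at Hred
  have hd3 : Divisor.degree (Finsupp.single (r P) M₀ - redDiv r D₃) =
      Divisor.degree (Finsupp.single P M₀ - D₃) := by
    rw [← redDiv_single, ← map_sub, hr.degree_redDiv]
  have hd12 : Divisor.degree (2 • Finsupp.single (r P) M₀ - redDiv r D₁ - redDiv r D₂) =
      Divisor.degree (2 • Finsupp.single P M₀ - D₁ - D₂) := by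
    rw [← redDiv_single, ← map_nsmul, ← map_sub, ← map_sub, hr.degree_redDiv]
  have hd3' : Divisor.degree (Finsupp.single P M₀ - D₃) = M₀ - (genusFF K F : ℤ) := by
    rw [map_sub, hdT, hdeg₃]
  refine KMCoord.kmGood_of_isGoodDiv
    (kmCoordRed hL hr d c hb₁ hli₁ hb₂ hli₂ hb₄ hli₄ hT hT₂ hx2 hy2 hE hE' hΓx hΓy hE₁ hE₂
      (redDiv_single r P M₀)) S.hFk Hred hgood ?_ ?_ ?_ I₀ ?_
  · rw [hd3, hd3', ← hg]
    omega
  · rw [hd12, ← hg]
    exact hρ
  · rw [hd3, ← hg]
    exact hr₃
  · intro j hj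
    have h1 := hr.red_mem (hC j hj) (hb₁ j)
    rw [redDiv_single, hg] at h1
    exact h1

end Fermat.Agent.FF
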