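import Mathlib
import Fermat.Agent.Lib.FF.RedKM
import Fermat.Agent.Lib.FF.GeomEch
import Fermat.Agent.Lib.FF.GeomDefs
import Fermat.Agent.Lib.FF.FormalDefs
import Fermat.Agent.Lib.FF.KMIso

/-!
# S19 / route R-G, piece G-e (helper12): `good_cl` — Khuri-Makdisi on the special fibre

Wiring of `Lib/FF/RedKM.lean` (`kmGood_residue`) into the echelon coordinates of
`Lib/FF/GeomEch.lean` (`EchData`, helper93).

* `cl_kmHyp` : the Riemann-Roch hypotheses `KMHyp` of the step `(x, y) ↦ x + y`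
  for the divisors `D τ x`, `D τ y`, `D τ (x + y)`, `E τ` of an `EchData`;
* `cl_kmCoord` : the dictionary `KMCoord` in characteristic `0`;
* `EchData.good_cl` : for a constant reduction `S` with Deuring reduction `r`, orthonormal bases,
  and goodness of the REDUCED divisors `r_* (D τ w)`: for every INTEGRAL model `d` (over `S.A`) of
  the Khuri-Makdisi data at `(τ, x, y)`, `KMGood (d.map S.res) ρ I₁`;
* `EchData.isGoodDiv_red_D` : the goodness hypothesis in the form of `GoodFibres.good`;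
* `EchData.good_cl_geomSetup` : the same for `𝒮 : GeomSetup p F Fk A₀`, with `d : KMData A₀ ..`
  and the residue map of `A₀` — this is literally the field `good_cl` of `KMGeom`.
-/

set_option autoImplicit false

noncomputable section

open AlgebraicCurve Fermat.Agent.RR Fermat.Agent.Deuring Fermat.Agent.FFGoodEll
  Fermat.Agent.KMRing Fermat.Agent.KMBridge Fermat.Agent.FF Fermat.Agent.FFGal

namespace Fermat.Agent.FFGeom

variable {G K F W T : Type} [Group G] [Field K] [Field F] [Algebra K F] [AddCommGroup W]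

theorem two_nsmul_single (P : Place K F) (n : ℤ) :
    2 • (Finsupp.single P n : Divisor K F) = Finsupp.single P (2 * n) := by
  rw [two_nsmul, ← Finsupp.single_add, two_mul]

/-- the Riemann-Roch hypotheses of the Khuri-Makdisi step `(x, y) ↦ x + y`. -/
theorem cl_kmHyp (e : EchData G K F W T) (hT₀ : 4 * (genusFF K F : ℤ) ≤ e.T₀) (τ : T)
    (x y : W) :
    KMCoord.KMHyp e.hF (Finsupp.single e.P e.T₀) (e.D τ x) (e.D τ y) (e.D τ (x + y))
      (e.E τ) where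
  hx := by rw [map_sub, degree_single_one e.hF, e.degree_D]; omega
  hy := by rw [map_sub, degree_single_one e.hF, e.degree_D]; omega
  hE := by
    have hg : (0 : ℤ) ≤ (genusFF K F : ℤ) := Int.natCast_nonneg _
    rw [map_sub, degree_single_one e.hF, e.E_deg]; omega
  hell := e.ell_D τ (x + y)
  hD₃ := e.D_nonneg τ (x + y)
  equiv := by
    obtain ⟨-, h1, hx⟩ := e.isRepOf_D τ x
    obtain ⟨-, h2, hy⟩ := e.isRepOf_D τ y
    obtain ⟨-, h3, hxy⟩ := e.isRepOf_D τ (x + y)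
    have hprin : ((⟨e.D τ (x + y) - e.E τ, h3⟩ : Divisor.degZero (K := K) (F := F)) -
        (⟨e.D τ x - e.E τ, h1⟩ + ⟨e.D τ y - e.E τ, h2⟩) :
        Divisor.degZero (K := K) (F := F)) ∈
        (Divisor.principal (K := K) (F := F)).addSubgroupOf
          (Divisor.degZero (K := K) (F := F)) := by
      have h0 : Pic0.mk ((⟨e.D τ (x + y) - e.E τ, h3⟩ : Divisor.degZero (K := K) (F := F)) -
          (⟨e.D τ x - e.E τ, h1⟩ + ⟨e.D τ y - e.E τ, h2⟩)) = 0 := by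
        have e' : Pic0.mk ((⟨e.D τ (x + y) - e.E τ, h3⟩ : Divisor.degZero (K := K) (F := F)) -
            (⟨e.D τ x - e.E τ, h1⟩ + ⟨e.D τ y - e.E τ, h2⟩))
            = Pic0.mk ⟨e.D τ (x + y) - e.E τ, h3⟩ -
              (Pic0.mk ⟨e.D τ x - e.E τ, h1⟩ + Pic0.mk ⟨e.D τ y - e.E τ, h2⟩) := rfl
        rw [e', hx, hy, hxy, map_add, sub_self]
      exact (QuotientAddGroup.eq_zero_iff _).mp h0
    rw [AddSubgroup.mem_addSubgroupOf] at hprin
    obtain ⟨f, hf, hfD⟩ := hprin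
    refine ⟨f, hf, ?_⟩
    ext w
    have h4 := hfD w
    have h5 : ((((⟨e.D τ (x + y) - e.E τ, h3⟩ : Divisor.degZero (K := K) (F := F)) -
        (⟨e.D τ x - e.E τ, h1⟩ + ⟨e.D τ y - e.E τ, h2⟩) :
        Divisor.degZero (K := K) (F := F)) : Divisor K F)) w =
        e.D τ (x + y) w - e.E τ w - ((e.D τ x w - e.E τ w) + (e.D τ y w - e.E τ w)) := by
      show ((e.D τ (x + y) - e.E τ) - ((e.D τ x - e.E τ) + (e.D τ y - e.E τ))) w = _
      simp
    rw [h5] at h4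
    simp only [Finsupp.add_apply, Finsupp.sub_apply, divOf_apply]
    omega

/-- the dictionary in characteristic `0` for ANY data `d₀` with the right entries. -/
def cl_kmCoord (e : EchData G K F W T) {n₄ : ℕ} (b₄ : Fin n₄ → F)
    (li₄ : LinearIndependent K b₄)
    (d₀ : KMData K e.n₁ e.n₂ n₄ e.r e.r e.r e.e₂)
    (hm₁ : ∀ i j, e.b₁ i * e.b₁ j = ∑ l, d₀.m₁ i j l • e.b₂ l)
    (hm₂ : ∀ i j, e.b₂ i * e.b₂ j = ∑ l, d₀.m₂ i j l • b₄ l)
    (τ : T) (x y : W) (hΓx : d₀.Γx = e.Γ τ x) (hΓy : d₀.Γy = e.Γ τ y)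
    (hE₁ : d₀.E₁ = e.Γ τ 0) (hE₂ : d₀.E₂ = e.X τ) :
    KMCoord (Finsupp.single e.P e.T₀) (e.D τ x) (e.D τ y) (e.E τ) d₀ where
  b₁ := e.b₁
  b₂ := e.b₂
  b₄ := b₄
  li₁ := e.hb₁
  li₂ := e.hb₂
  li₄ := li₄
  span₁ := e.span₁
  span₂ := by rw [e.span₂, two_nsmul_single]
  hm₁ := hm₁
  hm₂ := hm₂
  hΓx := by rw [← colSpan_eq_span_coord, hΓx]; exact e.colSpan_Γ τ x
  hΓy := by rw [← colSpan_eq_span_coord, hΓy]; exact e.colSpan_Γ τ y
  hE₁ := by rw [← colSpan_eq_span_coord, hE₁]; exact e.colSpan_Γ_zero τ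
  hE₂ := by rw [← colSpan_eq_span_coord, hE₂, e.colSpan_X, two_nsmul_single]

namespace EchData

variable {k Fk : Type*} [Field k] [Field Fk] [Algebra k Fk]

/-- the goodness hypothesis of `good_cl`, from goodness in the form of `GoodFibres.good`
(all divisors `X + E τ`, `X` of degree `0` and class `cls w`). -/
theorem isGoodDiv_red_D (e : EchData G K F W T) (r : Place K F → Place k Fk) (Q : Place k Fk)
    (τ : T) (w : W)
    (h : ∀ (X : Divisor K F) (hX : X ∈ Divisor.degZero (K := K) (F := F)),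
      Pic0.mk ⟨X, hX⟩ = e.cls w → IsGoodDiv Q (redDiv r (X + e.E τ))) :
    IsGoodDiv Q (redDiv r (e.D τ w)) := by
  obtain ⟨-, h0, hx⟩ := e.isRepOf_D τ w
  have := h _ h0 hx
  rwa [sub_add_cancel] at this

/-- **`good_cl`, abstract form.** -/
theorem good_cl (e : EchData G K F W T) (S : ValSetup K F k Fk) (hL : HasLattice S)
    [Infinite k] {r : Place K F → Place k Fk} (hr : IsReduction S r)
    (hg : genusFF K F = genusFF k Fk)
    (int₁ : ∀ i, e.b₁ i ∈ S.Ov) (red₁ : LinearIndependent k fun i => S.red (e.b₁ i))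
    (int₂ : ∀ i, e.b₂ i ∈ S.Ov) (red₂ : LinearIndependent k fun i => S.red (e.b₂ i))
    {n₄ : ℕ} (b₄ : Fin n₄ → F) (li₄ : LinearIndependent K b₄)
    (int₄ : ∀ i, b₄ i ∈ S.Ov) (red₄ : LinearIndependent k fun i => S.red (b₄ i))
    (hT₀ : 4 * (genusFF K F : ℤ) ≤ e.T₀)
    (hgood : ∀ τ w, IsGoodDiv (r e.P) (redDiv r (e.D τ w)))
    {ρ : ℕ} (hρ : (ρ : ℤ) = 2 * e.T₀ + 1 - 3 * (genusFF K F : ℤ))
    (τ : T) (x y : W) (d : KMData S.A e.n₁ e.n₂ n₄ e.r e.r e.r e.e₂)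
    (hm₁ : ∀ i j, e.b₁ i * e.b₁ j = ∑ l, ((d.m₁ i j l : S.A) : K) • e.b₂ l)
    (hm₂ : ∀ i j, e.b₂ i * e.b₂ j = ∑ l, ((d.m₂ i j l : S.A) : K) • b₄ l)
    (hΓx : d.Γx.map S.A.subtype = e.Γ τ x) (hΓy : d.Γy.map S.A.subtype = e.Γ τ y)
    (hE₁ : d.E₁.map S.A.subtype = e.Γ τ 0) (hE₂ : d.E₂.map S.A.subtype = e.X τ) :
    KMGood (d.map S.res) ρ e.I₁ := by
  have hg0 : (0 : ℤ) ≤ (genusFF K F : ℤ) := Int.natCast_nonneg _
  have hdT : Divisor.degree (Finsupp.single e.P e.T₀) = e.T₀ := degree_single_one e.hF e.P e.T₀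
  refine kmGood_residue hL hr hg (P := e.P) (M₀ := e.T₀) (by omega) d
    (cl_kmCoord e b₄ li₄ (d.map S.A.subtype) hm₁ hm₂ τ x y hΓx hΓy hE₁ hE₂)
    int₁ red₁ int₂ red₂ int₄ red₄ (cl_kmHyp e hT₀ τ x y) (e.degree_D τ (x + y))
    ?_ ?_ ?_ ?_ (hgood τ (x + y)) ?_ ?_ e.I₁ ?_
  · exact linearIndependent_colVec_res_of_echelon S red₁ d.Γx e.I₁ (by rw [hΓx]; exact e.Γ_ech τ x)
  · exact linearIndependent_colVec_res_of_echelon S red₁ d.Γy e.I₁ (by rw [hΓy]; exact e.Γ_ech τ y)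
  · exact linearIndependent_colVec_res_of_echelon S red₁ d.E₁ e.I₁ (by rw [hE₁]; exact e.Γ_ech τ 0)
  · exact linearIndependent_colVec_res_of_echelon S red₂ d.E₂ e.I₂ (by rw [hE₂]; exact e.X_ech τ)
  · rw [hρ, map_sub, map_sub, map_nsmul, hdT, e.degree_D, e.degree_D]
    simp only [nsmul_eq_mul, Nat.cast_ofNat]
    ring
  · rw [map_sub, hdT, e.degree_D]
    have := e.hr
    omega
  · intro j hj
    have h1 : e.b₁ j ∈ chartSpan K e.b₁ e.I₁ := Submodule.subset_span ⟨j, hj, rfl⟩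
    rw [e.chart₁] at h1
    exact h1

end EchData

section GeomSetup

local notation "Kb" => AlgebraicClosure ℚ

variable {p : ℕ} {F' Fk' : Type} [Field F'] [Algebra Kb F'] {A₀ : ValuationSubring Kb}
  [Field Fk'] [Algebra (IsLocalRing.ResidueField A₀) Fk'] {G' W' T' : Type} [Group G']
  [AddCommGroup W']

/-- the inclusion `A₀ → 𝒮.S.A` (an equality of valuation subrings). -/
def clIncl (𝒮 : GeomSetup p F' Fk' A₀) : A₀ →+* 𝒮.S.A :=
  ValuationSubring.inclusion A₀ 𝒮.S.A (le_of_eq 𝒮.S_A.symm)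

theorem subtype_comp_clIncl (𝒮 : GeomSetup p F' Fk' A₀) :
    (𝒮.S.A.subtype).comp (clIncl 𝒮) = A₀.subtype :=
  RingHom.ext fun _ => rfl

theorem res_comp_clIncl (𝒮 : GeomSetup p F' Fk' A₀) :
    (𝒮.S.res).comp (clIncl 𝒮) = IsLocalRing.residue A₀ :=
  RingHom.ext fun a => 𝒮.S_res a.1 _ a.2

/-- **`good_cl`** in the form of the field `good_cl` of `KMGeom` (`Lib/FF/FormalDefs.lean`):
for every model `d` over `A₀` of the Khuri-Makdisi data at `(τ, x, y)`, the reduction of `d`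
modulo the maximal ideal of `A₀` satisfies `KMGood`. -/
theorem EchData.good_cl_geomSetup (𝒮 : GeomSetup p F' Fk' A₀) (e : EchData G' Kb F' W' T')
    (int₁ : ∀ i, e.b₁ i ∈ 𝒮.S.Ov)
    (red₁ : LinearIndependent (IsLocalRing.ResidueField A₀) fun i => 𝒮.S.red (e.b₁ i))
    (int₂ : ∀ i, e.b₂ i ∈ 𝒮.S.Ov)
    (red₂ : LinearIndependent (IsLocalRing.ResidueField A₀) fun i => 𝒮.S.red (e.b₂ i))
    {n₄ : ℕ} (b₄ : Fin n₄ → F') (li₄ : LinearIndependent Kb b₄)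
    (int₄ : ∀ i, b₄ i ∈ 𝒮.S.Ov)
    (red₄ : LinearIndependent (IsLocalRing.ResidueField A₀) fun i => 𝒮.S.red (b₄ i))
    (hT₀ : 4 * (genusFF Kb F' : ℤ) ≤ e.T₀)
    (hgood : ∀ τ w, IsGoodDiv (𝒮.r e.P) (redDiv 𝒮.r (e.D τ w)))
    {ρ : ℕ} (hρ : (ρ : ℤ) = 2 * e.T₀ + 1 - 3 * (genusFF Kb F' : ℤ))
    (m₁ : Fin e.n₁ → Fin e.n₁ → Fin e.n₂ → Kb) (m₂ : Fin e.n₂ → Fin e.n₂ → Fin n₄ → Kb)
    (hm₁ : ∀ i j, e.b₁ i * e.b₁ j = ∑ l, m₁ i j l • e.b₂ l)
    (hm₂ : ∀ i j, e.b₂ i * e.b₂ j = ∑ l, m₂ i j l • b₄ l)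
    (τ : T') (x y : W') (d : KMData A₀ e.n₁ e.n₂ n₄ e.r e.r e.r e.e₂)
    (hd : d.map A₀.subtype = Fermat.Agent.FF.kmDataAt m₁ m₂ (e.Γ τ) (e.X τ) x y) :
    KMGood (d.map (IsLocalRing.residue A₀)) ρ e.I₁ := by
  haveI := 𝒮.inf_k
  have hd' : (d.map (clIncl 𝒮)).map 𝒮.S.A.subtype =
      Fermat.Agent.FF.kmDataAt m₁ m₂ (e.Γ τ) (e.X τ) x y := by
    rw [KMData.map_map, subtype_comp_clIncl, hd]
  have h1 := e.good_cl 𝒮.S 𝒮.hL 𝒮.hr 𝒮.hg int₁ red₁ int₂ red₂ b₄ li₄ int₄ red₄ hT₀ hgood hρ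
    τ x y (d.map (clIncl 𝒮))
    (fun i j => by
      have h2 := congrFun (congrFun (congrArg KMData.m₁ hd') i) j
      have h3 : ∀ l, (((d.map (clIncl 𝒮)).m₁ i j l : 𝒮.S.A) : Kb) = m₁ i j l :=
        fun l => congrFun h2 l
      simp only [h3]
      exact hm₁ i j)
    (fun i j => by
      have h2 := congrFun (congrFun (congrArg KMData.m₂ hd') i) j
      have h3 : ∀ l, (((d.map (clIncl 𝒮)).m₂ i j l : 𝒮.S.A) : Kb) = m₂ i j l :=
        fun l => congrFun h2 l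
      simp only [h3]
      exact hm₂ i j)
    (congrArg KMData.Γx hd') (congrArg KMData.Γy hd') (congrArg KMData.E₁ hd')
    (congrArg KMData.E₂ hd')
  rw [KMData.map_map, res_comp_clIncl] at h1
  exact h1

end GeomSetup

end Fermat.Agent.FFGeom
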