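/-
FF / S19, route R-G, seat F2: the GEOMETRIC ASSEMBLY (abstract in the function field).

`isFlat_of_geom`: `GeomSetup + RatBases + GoodFibres ⇒ IsFlatGaloisModule p W act`.

PROVED in Lib/FF/GeomAsm.lean (`FFGeom.isFlat_of_geomSetup`, helper93); this file only restates it.
Proof = construct `KMGeom p W act Fib perm n₁ n₂ n₄ r₁ r₂` (Lib/FF/FormalDefs.lean) and apply
`isFlat_of_kmGeom` (Lib/FF/Formal.lean).  Pieces (see NOTES/blueprint-FF-S19.md, §F2):
 G-a  definitions `Γ τ w`, `X τ`, `Lx τ` (echelon matrices), `Γ_ech`, `Lx_mul_X`   (GeomEch.lean)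
 G-b  `Γ_equiv`, `X_equiv`, `Lx_equiv`                                              (GeomEch.lean)
 G-c  `Γ_int`, `X_int`                                                              (GeomInt.lean)
 G-d  `sep`, `good_gen`, `sum_gen`                                                  (GeomGen.lean)
 G-e  `good_cl`                                                                     (GeomCl.lean)
-/
import Mathlib
import Fermat.Agent.Lib.FF.GeomDefs
import Fermat.Agent.Lib.FF.FormalDefs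
import Fermat.Agent.Lib.FlatMod.Defs
import Fermat.Agent.Lib.FF.GeomAsm

set_option autoImplicit false

noncomputable section

namespace Fermat.Agent.FF

open AlgebraicCurve GaloisRep Fermat.Agent.RR Fermat.Agent.Deuring Fermat.Agent.FFGoodEll
  Fermat.Agent.FlatMod

local notation "Kb" => AlgebraicClosure ℚ
local notation "GK" => (AlgebraicClosure ℚ ≃ₐ[ℚ] AlgebraicClosure ℚ)

variable {p : ℕ} {F Fk : Type} [Field F] [Algebra Kb F] {A₀ : ValuationSubring Kb} [Field Fk]
  [Algebra (IsLocalRing.ResidueField A₀) Fk]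

/-- **Geometric assembly** (seat F2).  `W` is a finite group with an injective equivariant
homomorphism `ι` to `Pic⁰`; `g` is the genus, `M₀ ≥ 4g + 2`, and the dimensions are the ones of
Riemann-Roch: `n₁ = M₀ + 1 - g`, `n₂ = 2 M₀ + 1 - g`, `r₁ = n₁ - g`, `r₂ = n₂ - g`. -/
theorem isFlat_of_geom [Fact p.Prime] (𝒮 : GeomSetup p F Fk A₀)
    {W : Type} [AddCommGroup W] [Finite W] (act : GK → W → W)
    (ι : W →+ Pic0 Kb F) (hι : Function.Injective ι)
    (hιeq : ∀ (σ : GK) (w : W), ι (act σ w) = 𝒮.gal σ • ι w)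
    {g M₀ n₁ n₂ n₄ r₁ r₂ : ℕ} (hg : g = genusFF Kb F) (hM₀ : 4 * g + 2 ≤ M₀)
    (hn₁ : n₁ + g = M₀ + 1) (hn₂ : n₂ + g = 2 * M₀ + 1) (hr₁ : r₁ + g = n₁) (hr₂ : r₂ + g = n₂)
    (B : RatBases 𝒮 M₀ n₁ n₂ n₄ r₁ r₂) (𝔉 : GoodFibres 𝒮 ι g) :
    IsFlatGaloisModule p W act :=
  Fermat.Agent.FFGeom.isFlat_of_geomSetup 𝒮 act ι hιeq hg hM₀ hn₁ hn₂ hr₁ hr₂ B 𝔉 hι

end Fermat.Agent.FF
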