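/-
FF / S19, route R-G, seat F2: the MODULAR instance of `GeomSetup` (Lib/FF/GeomDefs.lean) and the
final reduction
  `RatBases (modular) + GoodFibres (modular) ⇒ FlatTorsionAt M ℓ k`     (4 ∣ M or 9 ∣ M, ℓ ∤ M).
-/
import Mathlib
import Fermat.Agent.Lib.FF.GeomDefs
import Fermat.Agent.Lib.FF.GalAct
import Fermat.Agent.Lib.GenusEq.Main

set_option autoImplicit false
set_option synthInstance.maxHeartbeats 400000

noncomputable section

namespace Fermat.Agent.FF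

open AlgebraicCurve ModularCurve GaloisRep Fermat.Agent.RR Fermat.Agent.Deuring
  Fermat.Agent.FFGoodEll Fermat.Agent.GaussInt

local notation "Kb" => AlgebraicClosure ℚ
local notation "GK" => (AlgebraicClosure ℚ ≃ₐ[ℚ] AlgebraicClosure ℚ)

/-- **The modular `GeomSetup`** at a level `M` with `4 ∣ M` or `9 ∣ M`, a prime `ℓ ∤ M` and a
place `A₀` of `ℚ̄` over `ℓ`. -/
def modGeomSetup (A₀ : ValuationSubring Kb) (ℓ M : ℕ) [NeZero M] (hℓ : ℓ.Prime)
    (hA : A₀.LiesOverPrime ℓ) (hℓM : ¬ ℓ ∣ M) (h49 : 4 ∣ M ∨ 9 ∣ M) :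
    GeomSetup ℓ ↥(modularFunctionFieldBar M)
      ↥(modularFunctionFieldFullC (IsLocalRing.ResidueField A₀) M) A₀ where
  hA₀ := hA
  S := modularValSetup A₀ ℓ M hℓ hA hℓM
  S_A := rfl
  S_res := fun _ _ _ => rfl
  hL := hasLattice_modularValSetup A₀ ℓ M hℓ hA hℓM
  hg := Fermat.Agent.GenusEq.genusFF_eq M h49 ℓ hℓ hℓM A₀ hA
  inf_k := infinite_residue A₀
  r := redPlace A₀ ℓ M hℓ hA hℓM (Fermat.Agent.GenusEq.genusFF_eq M h49 ℓ hℓ hℓM A₀ hA)
  hr := isReduction_redPlace A₀ ℓ M hℓ hA hℓM _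
  gal := arithmeticGalois (modularFunctionFieldFull M)
  gal_base := fun σ c => arithmeticRingAut_algebraMap (modularFunctionFieldFull M) σ c
  oo := Fermat.Agent.S17.Setup.cuspPlace M
  gal_oo := fun σ => Fermat.Agent.FFGal.galQ_smul_cuspPlace M σ

end Fermat.Agent.FF
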