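/-
FF / S19, route R-G: FINAL WIRING.

* `torsIncl M n` : the inclusion `J₀(M)[n] → J₀(M)` as an additive homomorphism;
* `flatTorsionAt_of_data` : the modular `GeomSetup` with `RatBases` (seat D1) and `GoodFibres`
  (seat FIB) gives `FlatTorsionAt M ℓ k`  (by `isFlat_of_geom`);
* `ModularData M ℓ k` : the existence statement to be proved by the seats D1 + FIB;
* `flatTorsionAt_aux` and `s19` : the statement S19 from `ModularData` at the auxiliary levels.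
-/
import Mathlib
import Fermat.Agent.Lib.FF.Geom
import Fermat.Agent.Lib.FF.ModSetup
import Fermat.Agent.Lib.FF.Transfer
import Fermat.Agent.F3.TorsFin.Final

set_option autoImplicit false
set_option synthInstance.maxHeartbeats 400000

noncomputable section

namespace Fermat.Agent.FF

open AlgebraicCurve ModularCurve GaloisRep Fermat.Agent.RR Fermat.Agent.Deuring
  Fermat.Agent.FFGoodEll Fermat.Agent.GaussInt Fermat.Agent.FlatMod

local notation "Kb" => AlgebraicClosure ℚ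
local notation "GK" => (AlgebraicClosure ℚ ≃ₐ[ℚ] AlgebraicClosure ℚ)

/-- the inclusion of the torsion. -/
def torsIncl (M : ℕ) (n : ℤ) :
    ↥(Submodule.torsionBy ℤ (JZero M) n) →+ Pic0 Kb ↥(modularFunctionFieldBar M) :=
  (Submodule.torsionBy ℤ (JZero M) n).subtype.toAddMonoidHom

theorem torsIncl_injective (M : ℕ) (n : ℤ) : Function.Injective (torsIncl M n) :=
  Subtype.val_injective

/-- the torsion is finite. -/
theorem finite_torsionBy (M : ℕ) [NeZero M] (n : ℕ) (hn : 0 < n) :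
    Finite ↥(Submodule.torsionBy ℤ (JZero M) (n : ℤ)) := by
  have h := Fermat.Agent.F3TF.torsionFinite M n hn
  refine Set.Finite.to_subtype (h.subset ?_)
  intro x hx
  have hx' : (n : ℤ) • x = 0 := (Submodule.mem_torsionBy_iff _ _).mp hx
  show n • x = 0
  rwa [natCast_zsmul] at hx'

/-- **the data to be constructed by the seats D1 (bases) and FIB (fibres)** at a level `M` with
`4 ∣ M` or `9 ∣ M`, for a prime `ℓ ∤ M` and `k`: a place `A₀` over `ℓ`, Galois-invariant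
orthonormal bases and good towers of places. -/
def ModularData (M ℓ k : ℕ) [NeZero M] (hℓ : ℓ.Prime) (hℓM : ¬ ℓ ∣ M) (h49 : 4 ∣ M ∨ 9 ∣ M) :
    Prop :=
  ∃ (A₀ : ValuationSubring Kb) (hA : A₀.LiesOverPrime ℓ) (g M₀ n₁ n₂ n₄ r₁ r₂ : ℕ),
    g = genusFF Kb ↥(modularFunctionFieldBar M) ∧ 4 * g + 2 ≤ M₀ ∧
    n₁ + g = M₀ + 1 ∧ n₂ + g = 2 * M₀ + 1 ∧ r₁ + g = n₁ ∧ r₂ + g = n₂ ∧
    Nonempty (RatBases (modGeomSetup A₀ ℓ M hℓ hA hℓM h49) M₀ n₁ n₂ n₄ r₁ r₂) ∧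
    Nonempty (GoodFibres (modGeomSetup A₀ ℓ M hℓ hA hℓM h49) (torsIncl M ((ℓ : ℤ) ^ k)) g)

/-- **Final wiring**: `ModularData ⇒ FlatTorsionAt`. -/
theorem flatTorsionAt_of_data (M ℓ k : ℕ) [NeZero M] (hℓ : ℓ.Prime) (hℓM : ¬ ℓ ∣ M)
    (h49 : 4 ∣ M ∨ 9 ∣ M) (h : ModularData M ℓ k hℓ hℓM h49) : FlatTorsionAt M ℓ k := by
  obtain ⟨A₀, hA, g, M₀, n₁, n₂, n₄, r₁, r₂, hg, hM₀, hn₁, hn₂, hr₁, hr₂, ⟨B⟩, ⟨𝔉⟩⟩ := h
  have : Fact ℓ.Prime := ⟨hℓ⟩
  have : Finite ↥(Submodule.torsionBy ℤ (JZero M) ((ℓ : ℤ) ^ k)) := by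
    have := finite_torsionBy M (ℓ ^ k) (pow_pos hℓ.pos k)
    simpa using this
  exact isFlat_of_geom (modGeomSetup A₀ ℓ M hℓ hA hℓM h49) (torsAct M ((ℓ : ℤ) ^ k))
    (torsIncl M ((ℓ : ℤ) ^ k)) (torsIncl_injective M _) (fun σ w => rfl)
    hg hM₀ hn₁ hn₂ hr₁ hr₂ B 𝔉

/-- **S19 from the modular data** at the auxiliary levels. -/
theorem s19_of_modularData
    (h : ∀ (M ℓ k : ℕ) [NeZero M] (hℓ : ℓ.Prime) (hℓM : ¬ ℓ ∣ M) (h49 : 4 ∣ M ∨ 9 ∣ M),
      ModularData M ℓ k hℓ hℓM h49) :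
    S19Statement :=
  s19Statement_of_aux fun M ℓ k hM hℓ hℓM h49 =>
    haveI : NeZero M := ⟨hM⟩
    flatTorsionAt_of_data M ℓ k hℓ hℓM h49 (h M ℓ k hℓ hℓM h49)

end Fermat.Agent.FF
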