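/-
FF seat D1 (helper19): the RATIONAL INTEGRAL LATTICE of a Galois-stable space of modular functions.

Setting: `A0` a valuation ring of `ℚ̄` over `l ∤ M`, `S = GaussInt.modularValSetup A0 l M hl hA hlM`
(Gauss valuation of `F = ℚ̄(X₀(M))`), `k` the residue field of `A0`.

* `exists_ratOrtho_basis`      : a finite-dimensional `G_ℚ`-stable subspace `W` of `F` has a basis of
                                 `G_ℚ`-fixed elements of `S.Ov` with `k`-linearly independent
                                 reductions;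
* `exists_ratOrtho_basis_flag` : the same, adapted to a stable subspace `W' ≤ W`;
* `ratOrtho_coeff`             : the coordinates of a `G_ℚ`-fixed integral element in such a basis
                                 are rational numbers in `ℤ_(l)`;
* `mem_ratLocalizedAt_of_mem`  : `A ∩ ℚ ⊆ ℤ_(l)`.
-/
import Mathlib
import Fermat.Agent.Lib.FF.RedRat.Core
import Fermat.Agent.Lib.FF.RedRat.Extend
import Fermat.Agent.Lib.GaussInt.ModularInst

set_option autoImplicit false
set_option linter.style.haveILetI false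
set_option synthInstance.maxHeartbeats 400000
set_option maxHeartbeats 1600000

noncomputable section

namespace Fermat.Agent.FF

open ModularCurve HahnSeries AlgebraicCurve Fermat.Agent.GaussInt Fermat.Agent.Deuring
  Fermat.Agent.FF.RedRat Fermat.Agent.S17.RatDesc

local notation "Qb" => AlgebraicClosure ℚ

/-- `A ∩ ℚ ⊆ ℤ_(ℓ)` for a valuation ring `A` over `ℓ`. -/
theorem mem_ratLocalizedAt_of_mem {L : Type*} [Field L] [Algebra ℚ L] {A : ValuationSubring L}
    {ℓ : ℕ} (hℓ : ℓ.Prime) (hA : A.LiesOverPrime ℓ) {c : ℚ} (hcA : algebraMap ℚ L c ∈ A) :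
    c ∈ GaloisRep.ratLocalizedAt ℓ := by
  show c.den.Coprime ℓ
  rw [Nat.coprime_comm, hℓ.coprime_iff_not_dvd]
  intro hd
  have hden : (c.den : L) ≠ 0 := by
    have : (c.den : ℚ) ≠ 0 := by exact_mod_cast c.den_ne_zero
    have h := (algebraMap ℚ L).injective.ne this
    simpa using h
  have hcK : algebraMap ℚ L c = (c.num : L) / (c.den : L) := by
    conv_lhs => rw [← Rat.num_div_den c]
    simp
  have hvl := valuation_prime_lt_one hℓ hA
  have hnum' : ¬ (ℓ : ℤ) ∣ c.num := by
    intro hn
    have h1 : ℓ ∣ c.num.natAbs := Int.natCast_dvd.mp hn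
    have h2 := Nat.dvd_gcd h1 hd
    rw [c.reduced] at h2
    exact hℓ.one_lt.ne' (Nat.dvd_one.mp h2)
  have hv1 : A.valuation (c.num : L) = 1 :=
    S05H5.v_intCast_eq_one A.valuation hℓ hvl hnum'
  have hv2 : A.valuation (c.den : L) < 1 := by
    have := S05H5.v_intCast_lt_one A.valuation hvl (n := (c.den : ℤ))
      (Int.natCast_dvd_natCast.mpr hd)
    simpa using this
  have hv3 : A.valuation (algebraMap ℚ L c) ≤ 1 := (A.valuation_le_one_iff _).mpr hcA
  rw [hcK, map_div₀, hv1] at hv3
  have hv4 : A.valuation (c.den : L) ≠ 0 := (Valuation.ne_zero_iff _).mpr hden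
  rw [div_le_iff₀ (zero_lt_iff.mpr hv4), one_mul] at hv3
  exact absurd hv2 (not_lt.mpr hv3)

variable (A0 : ValuationSubring Qb) (l M : ℕ) [NeZero M]
  (hl : l.Prime) (hA : A0.LiesOverPrime l) (hlM : ¬ l ∣ M)

/-- the property "fixed by `G_ℚ`" -/
def IsRatFun (f : modularFunctionFieldBar M) : Prop :=
  ∀ σ : Qb ≃ₐ[ℚ] Qb, arithmeticGalois (modularFunctionFieldFull M) σ • f = f

/-- rational orthonormal families in the modular setup -/
theorem isOrtho_of_gauss {n : ℕ} (b : Fin n → modularFunctionFieldBar M)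
    (hfix : ∀ i (σ : Qb ≃ₐ[ℚ] Qb),
      arithmeticGalois (modularFunctionFieldFull M) σ • b i = b i)
    (hint : ∀ i, ((b i : modularFunctionFieldBar M) : LaurentSeries Qb) ∈
      gaussSub A0 (modularFunctionFieldBar M))
    (hind : ∀ c : Fin n → IsLocalRing.ResidueField A0,
      ∑ i, algebraMap (IsLocalRing.ResidueField A0)
          (LaurentSeries (IsLocalRing.ResidueField A0)) (c i) *
        gaussResFun A0 (modularFunctionFieldBar M)
          ((b i : modularFunctionFieldBar M) : LaurentSeries Qb) = 0 → ∀ i, c i = 0) :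
    IsOrtho (modularValSetup A0 l M hl hA hlM) (IsRatFun M) b where
  int := fun i => (mem_modularValSetup_Ov_iff A0 l M hl hA hlM (b i)).mpr (hint i)
  li := by
    rw [Fintype.linearIndependent_iff]
    intro g hg i
    apply hind g _ i
    have key : ∑ i, algebraMap (IsLocalRing.ResidueField A0)
        (LaurentSeries (IsLocalRing.ResidueField A0)) (g i) *
          gaussResFun A0 (modularFunctionFieldBar M)
            ((b i : modularFunctionFieldBar M) : LaurentSeries Qb) =
        ((∑ i, g i • (modularValSetup A0 l M hl hA hlM).red (b i) :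
            modularFunctionFieldFullC (IsLocalRing.ResidueField A0) M) :
          LaurentSeries (IsLocalRing.ResidueField A0)) := by
      rw [AddSubmonoidClass.coe_finsetSum]
      refine Finset.sum_congr rfl fun j _ => ?_
      rw [coe_smul_subfield, coe_modularValSetup_red A0 l M hl hA hlM (hint j)]
    rw [key, hg]
    rfl
  prop := hfix

/-- **D1: RATIONAL ORTHONORMAL BASIS.**  A finite-dimensional `G_ℚ`-stable subspace of
`F = ℚ̄(X₀(M))` has a basis consisting of `G_ℚ`-fixed elements of the Gauss ring at `A0` whose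
reductions are linearly independent over the residue field. -/
theorem exists_ratOrtho_basis (W : Submodule Qb (modularFunctionFieldBar M))
    [FiniteDimensional Qb W]
    (hW : ∀ σ : Qb ≃ₐ[ℚ] Qb, ∀ f ∈ W, arithmeticGalois (modularFunctionFieldFull M) σ • f ∈ W) :
    ∃ (n : ℕ) (b : Fin n → modularFunctionFieldBar M), LinearIndependent Qb b ∧
      Submodule.span Qb (Set.range b) = W ∧
      (∀ i (σ : Qb ≃ₐ[ℚ] Qb), arithmeticGalois (modularFunctionFieldFull M) σ • b i = b i) ∧
      (∀ i, b i ∈ (modularValSetup A0 l M hl hA hlM).Ov) ∧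
      LinearIndependent (IsLocalRing.ResidueField A0)
        (fun i => (modularValSetup A0 l M hl hA hlM).red (b i)) := by
  obtain ⟨n, b, hspan, hfix, hint, hind⟩ :=
    exists_ratOrtho_gauss (gaussHyp_modular (A := A0) M hl hA) W hW
  have ho := isOrtho_of_gauss A0 l M hl hA hlM b hfix hint hind
  exact ⟨n, b, ho.linearIndependent, hspan, hfix, ho.int, ho.li⟩

/-- **D1, flag form.**  For `G_ℚ`-stable subspaces `W' ≤ W` there is a rational orthonormal basis
`b` of `W` whose first `m` members form a basis of `W'`. -/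
theorem exists_ratOrtho_basis_flag (W' W : Submodule Qb (modularFunctionFieldBar M))
    [FiniteDimensional Qb W] (hle : W' ≤ W)
    (hW' : ∀ σ : Qb ≃ₐ[ℚ] Qb, ∀ f ∈ W',
      arithmeticGalois (modularFunctionFieldFull M) σ • f ∈ W')
    (hW : ∀ σ : Qb ≃ₐ[ℚ] Qb, ∀ f ∈ W, arithmeticGalois (modularFunctionFieldFull M) σ • f ∈ W) :
    ∃ (m n : ℕ) (hmn : m ≤ n) (b : Fin n → modularFunctionFieldBar M),
      LinearIndependent Qb b ∧
      Submodule.span Qb (Set.range b) = W ∧
      Submodule.span Qb (Set.range fun i : Fin m => b (Fin.castLE hmn i)) = W' ∧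
      (∀ i (σ : Qb ≃ₐ[ℚ] Qb), arithmeticGalois (modularFunctionFieldFull M) σ • b i = b i) ∧
      (∀ i, b i ∈ (modularValSetup A0 l M hl hA hlM).Ov) ∧
      LinearIndependent (IsLocalRing.ResidueField A0)
        (fun i => (modularValSetup A0 l M hl hA hlM).red (b i)) := by
  haveI : FiniteDimensional Qb W' := Submodule.finiteDimensional_of_le hle
  obtain ⟨m, b', hspan', hfix', hint', hind'⟩ :=
    exists_ratOrtho_gauss (gaussHyp_modular (A := A0) M hl hA) W' hW'
  obtain ⟨n, c, hspan, hfix, hint, hind⟩ :=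
    exists_ratOrtho_gauss (gaussHyp_modular (A := A0) M hl hA) W hW
  have hb' := isOrtho_of_gauss A0 l M hl hA hlM b' hfix' hint' hind'
  have hc := isOrtho_of_gauss A0 l M hl hA hlM c hfix hint hind
  have hmem : ∀ i, b' i ∈ Submodule.span Qb (Set.range c) := by
    intro i
    rw [hspan]
    apply hle
    rw [← hspan']
    exact Submodule.subset_span ⟨i, rfl⟩
  obtain ⟨hmn, b, hb, hbspan, hbb⟩ := hb'.exists_extension hc hmem
  refine ⟨m, n, hmn, b, hb.linearIndependent, hbspan.trans hspan, ?_, hb.prop, hb.int, hb.li⟩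
  rw [← hspan']
  congr 2
  funext i
  exact hbb i

/-- **D1, coefficients.**  The coordinates of a `G_ℚ`-fixed element of the Gauss ring with respect
to a rational orthonormal family are rational numbers in `ℤ_(l)`. -/
theorem ratOrtho_coeff {n : ℕ} (b : Fin n → modularFunctionFieldBar M)
    (hfix : ∀ i (σ : Qb ≃ₐ[ℚ] Qb),
      arithmeticGalois (modularFunctionFieldFull M) σ • b i = b i)
    (hO : ∀ i, b i ∈ (modularValSetup A0 l M hl hA hlM).Ov)
    (hli : LinearIndependent (IsLocalRing.ResidueField A0)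
      (fun i => (modularValSetup A0 l M hl hA hlM).red (b i)))
    (c : Fin n → Qb)
    (hf : ∀ σ : Qb ≃ₐ[ℚ] Qb,
      arithmeticGalois (modularFunctionFieldFull M) σ • (∑ i, c i • b i) = ∑ i, c i • b i)
    (hfO : (∑ i, c i • b i) ∈ (modularValSetup A0 l M hl hA hlM).Ov) :
    ∀ i, ∃ z ∈ GaloisRep.ratLocalizedAt l, algebraMap ℚ Qb z = c i := by
  have hliK := linearIndependent_of_red (modularValSetup A0 l M hl hA hlM) b hO hli
  have hcA := coeff_mem_of_sum_mem (modularValSetup A0 l M hl hA hlM) b hO hli c hfO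
  intro i
  have hfixc : ∀ σ : Qb ≃ₐ[ℚ] Qb, σ (c i) = c i := by
    intro σ
    have h1 := hf σ
    rw [Finset.smul_sum] at h1
    have h2 : ∑ j, (σ (c j) - c j) • b j = 0 := by
      simp_rw [sub_smul]
      rw [Finset.sum_sub_distrib, sub_eq_zero, ← h1]
      refine Finset.sum_congr rfl fun j _ => ?_
      rw [arith_smul_smul, hfix j σ]
    exact sub_eq_zero.mp (Fintype.linearIndependent_iff.mp hliK _ h2 i)
  obtain ⟨z, hz⟩ := fixed_const (c i) hfixc
  refine ⟨z, mem_ratLocalizedAt_of_mem hl hA ?_, hz⟩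
  rw [hz]
  exact hcA i

end Fermat.Agent.FF
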