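/-
FF / S19, route R-G, seat D1 (helper19): the input `HasRatOrtho` for the MODULAR function fields,
and `RatBases` for every `GeomSetup` built on `GaussInt.modularValSetup` with the arithmetic Galois
action.
-/
import Mathlib
import Fermat.Agent.Lib.FF.GeomBases
import Fermat.Agent.Lib.FF.RedRat

set_option autoImplicit false
set_option linter.style.haveILetI false
set_option synthInstance.maxHeartbeats 400000
set_option maxHeartbeats 1600000

noncomputable section

namespace Fermat.Agent.FF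

open ModularCurve AlgebraicCurve GaloisRep Fermat.Agent.RR Fermat.Agent.Deuring
  Fermat.Agent.GaussInt

local notation "Kb" => AlgebraicClosure ℚ
local notation "GK" => (AlgebraicClosure ℚ ≃ₐ[ℚ] AlgebraicClosure ℚ)

variable (A₀ : ValuationSubring Kb) (p M : ℕ) [NeZero M]
  (hp : p.Prime) (hA : A₀.LiesOverPrime p) (hpM : ¬ p ∣ M)

/-- **D1 for the modular function field**: every `GeomSetup` on the Gauss valuation of
`ℚ̄(X₀(M))` at `A₀` with the arithmetic Galois action has rational orthonormal bases. -/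
theorem hasRatOrtho_of_modular
    (𝒮 : GeomSetup p (modularFunctionFieldBar M)
      (modularFunctionFieldFullC (IsLocalRing.ResidueField A₀) M) A₀)
    (hS : 𝒮.S = modularValSetup A₀ p M hp hA hpM)
    (hgal : ∀ σ : GK, 𝒮.gal σ = arithmeticGalois (modularFunctionFieldFull M) σ) :
    HasRatOrtho 𝒮 := by
  intro W hW hstab
  haveI := hW
  obtain ⟨n, b, -, hspan, hfix, hint, hli⟩ := exists_ratOrtho_basis A₀ p M hp hA hpM W
    (fun σ f hf => by
      have := hstab σ f hf
      rwa [hgal σ] at this)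
  refine ⟨n, b, hspan, fun i σ => ?_, fun i => ?_, ?_⟩
  · rw [hgal σ]
    exact hfix i σ
  · rw [hS]
    exact hint i
  · rw [hS]
    exact hli

/-- **`RatBases` for the modular function field.** -/
theorem exists_ratBases_modular
    (𝒮 : GeomSetup p (modularFunctionFieldBar M)
      (modularFunctionFieldFullC (IsLocalRing.ResidueField A₀) M) A₀)
    (hS : 𝒮.S = modularValSetup A₀ p M hp hA hpM)
    (hgal : ∀ σ : GK, 𝒮.gal σ = arithmeticGalois (modularFunctionFieldFull M) σ)
    {g M₀ n₁ n₂ r₁ r₂ : ℕ} (hg : g = genusFF Kb (modularFunctionFieldBar M))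
    (hM₀ : 2 * g ≤ M₀ + 1)
    (hn₁ : n₁ + g = M₀ + 1) (hn₂ : n₂ + g = 2 * M₀ + 1) (hr₁ : r₁ + g = n₁)
    (hr₂ : r₂ + g = n₂) :
    ∃ n₄ : ℕ, Nonempty (RatBases 𝒮 M₀ n₁ n₂ n₄ r₁ r₂) :=
  exists_ratBases hp 𝒮 (hasRatOrtho_of_modular A₀ p M hp hA hpM 𝒮 hS hgal) hg hM₀ hn₁ hn₂ hr₁ hr₂

end Fermat.Agent.FF
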