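/-
FF / S19, route R-G, seat D1 (helper19), FINAL: `RatBases` for the modular `GeomSetup`
`modGeomSetup` of `Lib/FF/ModSetup.lean`, and the reduction of `ModularData` (`Lib/FF/Final.lean`)
to the good fibres (seat FIB) alone.
-/
import Mathlib
import Fermat.Agent.Lib.FF.GeomBasesMod
import Fermat.Agent.Lib.FF.Final

set_option autoImplicit false
set_option linter.style.haveILetI false
set_option synthInstance.maxHeartbeats 400000

noncomputable section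

namespace Fermat.Agent.FF

open ModularCurve AlgebraicCurve GaloisRep Fermat.Agent.RR Fermat.Agent.Deuring
  Fermat.Agent.GaussInt

local notation "Kb" => AlgebraicClosure ℚ
local notation "GK" => (AlgebraicClosure ℚ ≃ₐ[ℚ] AlgebraicClosure ℚ)

/-- **`RatBases` for `modGeomSetup`** (seat D1, final form). -/
theorem exists_ratBases_modGeomSetup (A₀ : ValuationSubring Kb) (ℓ M : ℕ) [NeZero M]
    (hℓ : ℓ.Prime) (hA : A₀.LiesOverPrime ℓ) (hℓM : ¬ ℓ ∣ M) (h49 : 4 ∣ M ∨ 9 ∣ M)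
    {g M₀ n₁ n₂ r₁ r₂ : ℕ} (hg : g = genusFF Kb (modularFunctionFieldBar M))
    (hM₀ : 2 * g ≤ M₀ + 1)
    (hn₁ : n₁ + g = M₀ + 1) (hn₂ : n₂ + g = 2 * M₀ + 1) (hr₁ : r₁ + g = n₁)
    (hr₂ : r₂ + g = n₂) :
    ∃ n₄ : ℕ, Nonempty (RatBases (modGeomSetup A₀ ℓ M hℓ hA hℓM h49) M₀ n₁ n₂ n₄ r₁ r₂) :=
  exists_ratBases_modular A₀ ℓ M hℓ hA hℓM (modGeomSetup A₀ ℓ M hℓ hA hℓM h49) rfl
    (fun _ => rfl) hg hM₀ hn₁ hn₂ hr₁ hr₂

/-- **`ModularData` from the good fibres alone**: with the bases of seat D1, the only remaining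
input of `ModularData M ℓ k` is the tower of good fibres (seat FIB) at ONE place `A₀` over `ℓ`. -/
theorem modularData_of_goodFibres (M ℓ k : ℕ) [NeZero M] (hℓ : ℓ.Prime) (hℓM : ¬ ℓ ∣ M)
    (h49 : 4 ∣ M ∨ 9 ∣ M) (A₀ : ValuationSubring Kb) (hA : A₀.LiesOverPrime ℓ)
    (hfib : Nonempty (GoodFibres (modGeomSetup A₀ ℓ M hℓ hA hℓM h49)
      (torsIncl M ((ℓ : ℤ) ^ k)) (genusFF Kb (modularFunctionFieldBar M)))) :
    ModularData M ℓ k hℓ hℓM h49 := by
  set g := genusFF Kb (modularFunctionFieldBar M) with hg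
  obtain ⟨n₄, hB⟩ := exists_ratBases_modGeomSetup A₀ ℓ M hℓ hA hℓM h49
    (g := g) (M₀ := 4 * g + 2) (n₁ := 3 * g + 3) (n₂ := 7 * g + 5) (r₁ := 2 * g + 3)
    (r₂ := 6 * g + 5) hg (by omega) (by omega) (by omega) (by omega) (by omega)
  exact ⟨A₀, hA, g, 4 * g + 2, 3 * g + 3, 7 * g + 5, n₄, 2 * g + 3, 6 * g + 5, hg, le_refl _,
    by omega, by omega, by omega, by omega, hB, hfib⟩

/-- **S19 from the good fibres**: if at every auxiliary level `M` (`4 ∣ M` or `9 ∣ M`), every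
prime `ℓ ∤ M` and every `k` SOME place `A₀` over `ℓ` carries a tower of good fibres, then the
statement S19 holds. -/
theorem s19_of_goodFibres
    (h : ∀ (M ℓ k : ℕ) [NeZero M] (hℓ : ℓ.Prime) (hℓM : ¬ ℓ ∣ M) (h49 : 4 ∣ M ∨ 9 ∣ M),
      ∃ (A₀ : ValuationSubring Kb) (hA : A₀.LiesOverPrime ℓ),
        Nonempty (GoodFibres (modGeomSetup A₀ ℓ M hℓ hA hℓM h49)
          (torsIncl M ((ℓ : ℤ) ^ k)) (genusFF Kb (modularFunctionFieldBar M)))) :
    S19Statement :=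
  s19_of_modularData fun M ℓ k _ hℓ hℓM h49 => by
    obtain ⟨A₀, hA, hfib⟩ := h M ℓ k hℓ hℓM h49
    exact modularData_of_goodFibres M ℓ k hℓ hℓM h49 A₀ hA hfib

end Fermat.Agent.FF
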