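/-
FF / S19, seat FIB(c) (helper24): GENERIC UNRAMIFIEDNESS and SEPARATION of places by `L(N·∞)`.

`F / K` a function field (`RR.IsRRField`), `K` algebraically closed, any characteristic.

* `ramValues x`           : the values `c` such that `x - c` has a multiple zero
* `finite_ramValues`      : if `F / K(x)` is finite separable, only finitely many values are
                            ramified (Riemann-Hurwitz lower bound `hurwitz_lower_fibres`)
* `ord_le_one_of_notMem_ramValues`
* `exists_valueAt_ne`     : two distinct places `Q ≠ Q'`, both `≠ P∞`, are separated by the values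
                            of a function of `L(N · P∞)`, `N ≥ 2g + 1`
-/
import Mathlib
import Fermat.Agent.Lib.RR.Hurwitz.Fibres
import Fermat.Agent.Lib.Deuring.Generic
import Fermat.Agent.Lib.FF.Value

set_option autoImplicit false

noncomputable section

namespace Fermat.Agent.FF

open AlgebraicCurve Fermat.Agent.RR Fermat.Agent.RRHur IntermediateField

variable {K F : Type*} [Field K] [Field F] [Algebra K F]

/-! ### ramified values -/

/-- the ramified values of `x`: the `c` such that `x - c` has a multiple zero. -/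
def ramValues (K : Type*) {F : Type*} [Field K] [Field F] [Algebra K F] (x : F) : Set K :=
  {c | ∃ v : Place K F, 2 ≤ v.ord (x - algebraMap K F c)}

theorem ord_le_one_of_notMem_ramValues {x : F} {c : K} (hc : c ∉ ramValues K x)
    (v : Place K F) : v.ord (x - algebraMap K F c) ≤ 1 := by
  by_contra hcon
  exact hc ⟨v, by omega⟩

/-- `deg ramAt ≥ 1` at a ramified value. -/
theorem one_le_degree_ramAt (h : IsRRField K F) {x : F} {c : K} (hc : c ∈ ramValues K x) :
    1 ≤ Divisor.degree (ramAt h x c) := by
  obtain ⟨v, hv⟩ := hc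
  have hle : (Finsupp.single v 1 : Divisor K F) ≤ ramAt h x c := by
    classical
    rw [Finsupp.le_def]
    intro w
    rw [ramAt_apply]
    by_cases hw : w = v
    · subst hw
      rw [Finsupp.single_eq_same]
      exact le_max_of_le_left (by omega)
    · rw [Finsupp.single_eq_of_ne hw]
      exact le_max_right _ _
  have := degree_le_of_le h hle
  rwa [degree_single_one h] at this

theorem degree_ramAt_nonneg (h : IsRRField K F) (x : F) (c : K) :
    0 ≤ Divisor.degree (ramAt h x c) := by
  apply degree_nonneg_of_nonneg h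
  rw [Finsupp.le_def]
  intro w
  rw [ramAt_apply]
  exact le_max_right _ _

theorem degree_ramInf_nonneg (h : IsRRField K F) (x : F) :
    0 ≤ Divisor.degree (ramInf h x) := by
  apply degree_nonneg_of_nonneg h
  rw [Finsupp.le_def]
  intro w
  rw [ramInf_apply]
  exact le_max_right _ _

/-- **generic unramifiedness**: a finite separable `x : C → ℙ¹` has finitely many ramified
values (any characteristic). -/
theorem finite_ramValues [IsAlgClosed K] (h : IsRRField K F) {x : F} (hx : Transcendental K x)
    [FiniteDimensional K⟮x⟯ F] [Algebra.IsSeparable K⟮x⟯ F] : (ramValues K x).Finite := by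
  classical
  by_contra hinf
  have hinf' : (ramValues K x).Infinite := hinf
  set B : ℕ := (2 * (genusFF K F : ℤ) - 2 + 2 * (Module.finrank K⟮x⟯ F : ℤ)).toNat with hB
  obtain ⟨S, hS, hcard⟩ := hinf'.exists_subset_card_eq (B + 1)
  have hH := hurwitz_lower_fibres h hx S
  have h1 : ∀ c ∈ S, (1 : ℤ) ≤ (Module.finrank K⟮x⟯ F : ℤ) -
      (Nat.card {v : Place K F // 0 < v.ord (x - algebraMap K F c)} : ℤ) := by
    intro c hc
    rw [← degree_ramAt h hx c]
    exact one_le_degree_ramAt h (hS hc)
  have h2 : (0 : ℤ) ≤ (Module.finrank K⟮x⟯ F : ℤ) -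
      (Nat.card {v : Place K F // v.ord x < 0} : ℤ) := by
    rw [← degree_ramInf h hx]
    exact degree_ramInf_nonneg h x
  have h3 : (S.card : ℤ) ≤ ∑ c ∈ S, ((Module.finrank K⟮x⟯ F : ℤ) -
      (Nat.card {v : Place K F // 0 < v.ord (x - algebraMap K F c)} : ℤ)) := by
    have := Finset.sum_le_sum h1
    simpa using this
  have h4 : (S.card : ℤ) ≤ 2 * (genusFF K F : ℤ) - 2 + 2 * (Module.finrank K⟮x⟯ F : ℤ) := by
    linarith
  rw [hcard] at h4
  have h5 : (2 * (genusFF K F : ℤ) - 2 + 2 * (Module.finrank K⟮x⟯ F : ℤ)) ≤ (B : ℤ) := by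
    rw [hB]
    exact Int.self_le_toNat _
  push_cast at h4
  omega

/-! ### separation of places by `L(N · P∞)` -/

/-- **separation**: two distinct places different from `P∞` are separated by the values of a
function with poles only at `P∞`, of order `≤ N`, as soon as `N ≥ 2g + 1`. -/
theorem exists_valueAt_ne (h : IsRRField K F) (Pinf Q Q' : Place K F) (hQ : Q ≠ Pinf)
    (hQ' : Q' ≠ Pinf) (hne : Q ≠ Q') {N : ℤ} (hN : 2 * (genusFF K F : ℤ) + 1 ≤ N) :
    ∃ f ∈ riemannRochSpace (Finsupp.single Pinf N : Divisor K F),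
      valueAt h Q f ≠ valueAt h Q' f := by
  classical
  set E : Divisor K F := Finsupp.single Pinf N - Finsupp.single Q 1 with hE
  have hdeg : 2 * (genusFF K F : ℤ) ≤ Divisor.degree E := by
    rw [hE, map_sub, degree_single_one h, degree_single_one h]
    omega
  obtain ⟨f, hfE, hf0, hord⟩ := Fermat.Agent.Deuring.exists_ord_eq h hdeg Q'
  have hEQ' : E Q' = 0 := by
    rw [hE, Finsupp.sub_apply, Finsupp.single_eq_of_ne hQ', Finsupp.single_eq_of_ne hne.symm,
      sub_zero]
  have hEQ : E Q = -1 := by
    rw [hE, Finsupp.sub_apply, Finsupp.single_eq_of_ne hQ, Finsupp.single_eq_same, zero_sub]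
  rw [hEQ', neg_zero] at hord
  have hle : E ≤ Finsupp.single Pinf N := by
    rw [hE, Finsupp.le_def]
    intro w
    rw [Finsupp.sub_apply]
    have : 0 ≤ (Finsupp.single Q (1 : ℤ) : Divisor K F) w := by
      by_cases hw : w = Q
      · subst hw
        rw [Finsupp.single_eq_same]
        norm_num
      · rw [Finsupp.single_eq_of_ne hw]
    omega
  refine ⟨f, riemannRochSpace_mono hle hfE, ?_⟩
  have hQord : 0 < Q.ord f := by
    have := ((mem_riemannRochSpace_iff.mp hfE) Q).resolve_left hf0
    rw [hEQ] at this
    omega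
  have hfQ : f ∈ Q.toValuationSubring := mem_of_ord_nonneg' Q hQord.le
  have hfQ' : f ∈ Q'.toValuationSubring := mem_of_ord_nonneg' Q' hord.ge
  have hv : valueAt h Q f = 0 := (valueAt_eq_zero_iff h Q hfQ).mpr (Or.inr hQord)
  have hv' : valueAt h Q' f ≠ 0 := by
    intro h0
    rcases (valueAt_eq_zero_iff h Q' hfQ').mp h0 with h1 | h1
    · exact hf0 h1
    · omega
  rw [hv]
  exact fun hh => hv' hh.symm

end Fermat.Agent.FF
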