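/-
FF / S19, seat FIB(c) (helper24): SEPARATION WITH UNIT DIFFERENCES (abstract).

`S : Deuring.ValSetup K F k Fk`, `r` a Deuring reduction of places, `Pinf` a place of `F`,
`b : Fin n → F` an integral family of `L(N · Pinf)` whose reductions span `L(N · r Pinf)`
(`SepBasis`; this is what an orthonormal basis of `L(N · Pinf)` gives: `sepBasis_of_orthonormal`).

* `IsReduction.exists_unit_valueAt_sub` : if `r P ≠ r P'` (both `≠ r Pinf`) then some
  `b i (P) - b i (P')` is a unit of `A`;
* `IsReduction.exists_unit_of_fibre` : two distinct points `P ≠ P'` of the fibre of `x` over `t ∈ A`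
  are separated by a unit difference of some `b i`, if `t̄` is not a ramified value of `x̄`;
* `IsReduction.valueAt_mem_of_fibre` : the values of the `b i` on such fibres lie in `A`.
-/
import Mathlib
import Fermat.Agent.Lib.FF.RedValue
import Fermat.Agent.Lib.FF.Unram

set_option autoImplicit false

noncomputable section

namespace Fermat.Agent.FF

open AlgebraicCurve Fermat.Agent.RR Fermat.Agent.Deuring

variable {K F k Fk : Type*} [Field K] [Field F] [Algebra K F]
  [Field k] [Field Fk] [Algebra k Fk]

variable {S : ValSetup K F k Fk} {r : Place K F → Place k Fk}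

/-- a separating family: integral functions of `L(N · Pinf)` whose reductions span
`L(N · r Pinf)`. -/
structure SepBasis (S : ValSetup K F k Fk) (r : Place K F → Place k Fk) (Pinf : Place K F)
    (N : ℤ) {n : ℕ} (b : Fin n → F) : Prop where
  mem_L : ∀ i, b i ∈ riemannRochSpace (Finsupp.single Pinf N : Divisor K F)
  mem_Ov : ∀ i, b i ∈ S.Ov
  span : riemannRochSpace (Finsupp.single (r Pinf) N : Divisor k Fk) ≤
    Submodule.span k (Set.range fun i => S.red (b i))

/-- an orthonormal basis of `L(N · Pinf)`, `N ≥ 2g`, is a separating family. -/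
theorem sepBasis_of_orthonormal (hr : IsReduction S r) (Pinf : Place K F) {N : ℤ}
    (hN : 2 * (genusFF K F : ℤ) ≤ N) {n : ℕ} (b : Fin n → F)
    (hspan : Submodule.span K (Set.range b) = riemannRochSpace (Finsupp.single Pinf N))
    (hbO : ∀ i, b i ∈ S.Ov) (hli : LinearIndependent k (fun i => S.red (b i))) :
    SepBasis S r Pinf N b where
  mem_L := fun i => by
    rw [← hspan]
    exact Submodule.subset_span ⟨i, rfl⟩
  mem_Ov := hbO
  span := by
    have h1 := hr.gr (Finsupp.single Pinf N) (by rw [degree_single_one S.hF]; exact hN)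
    rw [Finsupp.mapDomain_single, ← hspan, redSpace_span S b hbO hli] at h1
    rw [← h1]

namespace SepBasis

variable {Pinf : Place K F} {N : ℤ} {n : ℕ} {b : Fin n → F}

/-- the `b i` are regular away from `Pinf`. -/
theorem ord_nonneg (hb : SepBasis S r Pinf N b) (i : Fin n) {P : Place K F} (hP : P ≠ Pinf) :
    0 ≤ P.ord (b i) := by
  rcases (mem_riemannRochSpace_iff.mp (hb.mem_L i)) P with h0 | h0
  · rw [h0, P.ord_zero]
  · rw [Finsupp.single_eq_of_ne hP] at h0
    omega

/-- the `b i` are regular on the residue disc of a place `P` with `r P ≠ r Pinf`. -/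
theorem regular (hb : SepBasis S r Pinf N b) (i : Fin n) {P : Place K F} (hP : r P ≠ r Pinf) :
    ∀ P', r P' = r P → 0 ≤ P'.ord (b i) := by
  intro P' hP'
  apply hb.ord_nonneg i
  rintro rfl
  exact hP hP'.symm

/-- the reductions of the `b i` lie in `L(N · r Pinf)`. -/
theorem red_mem (hr : IsReduction S r) (hb : SepBasis S r Pinf N b) (i : Fin n) :
    S.red (b i) ∈ riemannRochSpace (Finsupp.single (r Pinf) N : Divisor k Fk) := by
  have := hr.red_mem (hb.mem_L i) (hb.mem_Ov i)
  rwa [redDiv_single] at this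

/-- the reductions of the `b i` are regular away from `r Pinf`. -/
theorem red_ord_nonneg (hr : IsReduction S r) (hb : SepBasis S r Pinf N b) (i : Fin n)
    {Q : Place k Fk} (hQ : Q ≠ r Pinf) : 0 ≤ Q.ord (S.red (b i)) := by
  rcases (mem_riemannRochSpace_iff.mp (hb.red_mem hr i)) Q with h0 | h0
  · rw [h0, Q.ord_zero]
  · rw [Finsupp.single_eq_of_ne hQ] at h0
    omega

/-- the values of the `b i` at a place `P` with `r P ≠ r Pinf` are integral. -/
theorem valueAt_mem (hr : IsReduction S r) (hb : SepBasis S r Pinf N b) (i : Fin n)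
    {P : Place K F} (hP : r P ≠ r Pinf) : valueAt S.hF P (b i) ∈ S.A :=
  hr.valueAt_mem (hb.mem_Ov i) P (hb.regular i hP)

end SepBasis

/-- **separation with unit differences**: places with distinct reductions (both different from
`r Pinf`) are separated by a unit difference of values of some `b i`. -/
theorem IsReduction.exists_unit_valueAt_sub (hr : IsReduction S r) {Pinf : Place K F} {N : ℤ}
    {n : ℕ} {b : Fin n → F} (hb : SepBasis S r Pinf N b)
    (hN : 2 * (genusFF k Fk : ℤ) + 1 ≤ N) {P P' : Place K F} (hP : r P ≠ r Pinf)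
    (hP' : r P' ≠ r Pinf) (hne : r P ≠ r P') :
    ∃ i, S.A.valuation (valueAt S.hF P (b i) - valueAt S.hF P' (b i)) = 1 := by
  obtain ⟨f, hfL, hfne⟩ := exists_valueAt_ne S.hFk (r Pinf) (r P) (r P') hP hP' hne hN
  obtain ⟨c, rfl⟩ := (Submodule.mem_span_range_iff_exists_fun k).mp (hb.span hfL)
  by_contra hcon0
  have hcon : ∀ i, S.A.valuation (valueAt S.hF P (b i) - valueAt S.hF P' (b i)) ≠ 1 :=
    fun i hi => hcon0 ⟨i, hi⟩
  apply hfne
  have hmemP : ∀ i, S.red (b i) ∈ (r P).toValuationSubring := fun i =>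
    mem_of_ord_nonneg' (r P) (hb.red_ord_nonneg hr i hP)
  have hmemP' : ∀ i, S.red (b i) ∈ (r P').toValuationSubring := fun i =>
    mem_of_ord_nonneg' (r P') (hb.red_ord_nonneg hr i hP')
  have heq : ∀ i, valueAt S.hFk (r P) (S.red (b i)) = valueAt S.hFk (r P') (S.red (b i)) := by
    intro i
    by_contra hi
    exact hcon i (hr.valuation_valueAt_sub (hb.mem_Ov i) P P' (hb.regular i hP)
      (hb.regular i hP') hi)
  rw [valueAt_sum S.hFk (r P) _ _ (fun i _ => by
      rw [Algebra.smul_def]
      exact mul_mem ((r P).algebraMap_mem' _) (hmemP i)),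
    valueAt_sum S.hFk (r P') _ _ (fun i _ => by
      rw [Algebra.smul_def]
      exact mul_mem ((r P').algebraMap_mem' _) (hmemP' i))]
  refine Finset.sum_congr rfl fun i _ => ?_
  rw [valueAt_smul_const S.hFk (r P) _ (hmemP i), valueAt_smul_const S.hFk (r P') _ (hmemP' i),
    heq i]

section Fibre

variable {x : F} (hr : IsReduction S r) (hx : x ∈ S.Ov) (htr : Transcendental k (S.red x))
  (hdeg : Divisor.degree (poleDiv S.hFk (S.red x)) = Divisor.degree (poleDiv S.hF x))

include hr hx htr hdeg

/-- a zero of `x - t`, `t ∈ A`, does not reduce to the reduction of a pole of `x`. -/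
theorem IsReduction.red_ne_of_fibre {Pinf : Place K F} (hPinf : Pinf.ord x < 0) {t : K}
    (ht : t ∈ S.A) {P : Place K F} (hP : 0 < P.ord (x - algebraMap K F t)) : r P ≠ r Pinf := by
  intro h
  have h1 := hr.ord_nonneg_of_disc hx htr hdeg ht hP (P' := Pinf) h.symm
  omega

/-- the values of a separating family on the fibres of `x` over integral values are integral. -/
theorem IsReduction.valueAt_mem_of_fibre {Pinf : Place K F} (hPinf : Pinf.ord x < 0) {N : ℤ}
    {n : ℕ} {b : Fin n → F} (hb : SepBasis S r Pinf N b) {t : K} (ht : t ∈ S.A)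
    {P : Place K F} (hP : 0 < P.ord (x - algebraMap K F t)) (i : Fin n) :
    valueAt S.hF P (b i) ∈ S.A :=
  hb.valueAt_mem hr i (hr.red_ne_of_fibre hx htr hdeg hPinf ht hP)

/-- **FIB(c), abstract form**: two distinct points of the fibre of `x` over `t ∈ A` are separated
by a unit difference of values of some `b i`, if `t̄` is not a ramified value of `x̄`. -/
theorem IsReduction.exists_unit_of_fibre {Pinf : Place K F} (hPinf : Pinf.ord x < 0) {N : ℤ}
    {n : ℕ} {b : Fin n → F} (hb : SepBasis S r Pinf N b)
    (hN : 2 * (genusFF k Fk : ℤ) + 1 ≤ N) {t : K} (ht : t ∈ S.A)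
    (hunr : S.res ⟨t, ht⟩ ∉ ramValues k (S.red x)) {P P' : Place K F}
    (hP : 0 < P.ord (x - algebraMap K F t)) (hP' : 0 < P'.ord (x - algebraMap K F t))
    (hne : P ≠ P') :
    ∃ i, S.A.valuation (valueAt S.hF P (b i) - valueAt S.hF P' (b i)) = 1 := by
  refine hr.exists_unit_valueAt_sub hb hN (hr.red_ne_of_fibre hx htr hdeg hPinf ht hP)
    (hr.red_ne_of_fibre hx htr hdeg hPinf ht hP') ?_
  intro h
  exact hne (hr.eq_of_unramified hx htr hdeg ht
    (fun Q => ord_le_one_of_notMem_ramValues hunr Q) hP hP' h)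

end Fibre

end Fermat.Agent.FF
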