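/-
FF / S19, seat FIB(c) (helper24): SEPARATION on the fibres of `j`, MODULAR INSTANCE.

`A₀` a valuation ring of `ℚ̄` over `ℓ ∤ M`, `S = GaussInt.modularValSetup A₀ ℓ M ..`,
`F = ℚ̄(X₀(M))`, `j = S24.jBar M`, `∞ = S17.Setup.cuspPlace M`, genus equality `hg`.

* `fibsep_*`                     : the standing facts (`j ∈ Ov`, `red j = j̄`, degrees, pole at `∞`)
* `badValues A₀ ℓ M ..`          : the (finite) set of ramified values of `j̄` in `k`
* `galQ_smul_fibre`              : `P` over `j = t` ⟹ `σ P` over `j = σ t`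
* `valueAt_galQ`                 : `b(σ P) = σ (b(P))` for a `G_ℚ`-fixed function `b`
* `exists_sepFamily`             : **FIB(c)**: a finite family `b` of `G_ℚ`-fixed functions, regular
  away from `∞`, with integral values on the fibres of `j` over integral `t`, and separating any two
  distinct points of such a fibre by a UNIT difference at `A₀`, as soon as `t̄ ∉ badValues`.
-/
import Mathlib
import Fermat.Agent.Lib.FF.Sep
import Fermat.Agent.Lib.FF.RedRat
import Fermat.Agent.Lib.FF.GalAct
import Fermat.Agent.Lib.FF.PlacesQbar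
import Fermat.Agent.Lib.IgusaDeg.JInput
import Fermat.Agent.Lib.GoodRed.Modular
import Fermat.Agent.Lib.GoodRed.ModularData

set_option autoImplicit false
set_option linter.style.haveILetI false
set_option linter.unusedSectionVars false
set_option synthInstance.maxHeartbeats 400000
set_option maxHeartbeats 1000000

noncomputable section

namespace Fermat.Agent.FF

open ModularCurve AlgebraicCurve Fermat.Agent.RR Fermat.Agent.Deuring Fermat.Agent.GaussInt
  Fermat.Agent.FFGal IntermediateField

local notation "Qb" => AlgebraicClosure ℚ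
local notation "GQ" => (AlgebraicClosure ℚ ≃ₐ[ℚ] AlgebraicClosure ℚ)

variable (A₀ : ValuationSubring Qb) (ℓ M : ℕ) [NeZero M]
  (hℓ : ℓ.Prime) (hA : A₀.LiesOverPrime ℓ) (hℓM : ¬ ℓ ∣ M)

/-! ### standing facts on `j` -/

theorem fibsep_j_mem : Fermat.Agent.S24.jBar M ∈ (modularValSetup A₀ ℓ M hℓ hA hℓM).Ov :=
  Fermat.Agent.GoodRed.jBar_mem_gaussValSub M hℓ hA

theorem fibsep_red_j :
    (modularValSetup A₀ ℓ M hℓ hA hℓM).red (Fermat.Agent.S24.jBar M)
      = Fermat.Agent.RRMod.jC (IsLocalRing.ResidueField A₀) M := by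
  apply Subtype.ext
  rw [coe_modularValSetup_red A₀ ℓ M hℓ hA hℓM
    ((mem_modularValSetup_Ov_iff A₀ ℓ M hℓ hA hℓM _).mp (fibsep_j_mem A₀ ℓ M hℓ hA hℓM))]
  exact Fermat.Agent.GoodRed.gaussResFun_jBar M

theorem fibsep_transcendental_jC :
    Transcendental (IsLocalRing.ResidueField A₀)
      (Fermat.Agent.RRMod.jC (IsLocalRing.ResidueField A₀) M) :=
  Fermat.Agent.GoodRed.transcendental_of_coe _ _
    (Fermat.Agent.GoodRed.transcendental_jqModC _)

theorem fibsep_transcendental_red_j :
    Transcendental (IsLocalRing.ResidueField A₀)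
      ((modularValSetup A₀ ℓ M hℓ hA hℓM).red (Fermat.Agent.S24.jBar M)) := by
  rw [fibsep_red_j]
  exact fibsep_transcendental_jC A₀ M

theorem fibsep_transcendental_j : Transcendental Qb (Fermat.Agent.S24.jBar M) :=
  Fermat.Agent.GoodRed.transcendental_of_coe (modularFunctionFieldBar M) _ (by
    rw [Fermat.Agent.S24.coe_jBar_eq_jqModC]
    exact Fermat.Agent.GoodRed.transcendental_jqModC _)

theorem fibsep_finrank_pos :
    0 < Module.finrank Qb⟮Fermat.Agent.S24.jBar M⟯ ↥(modularFunctionFieldBar M) := by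
  rw [Fermat.Agent.GoodRedBranch.finrank_jBar M]
  exact Fermat.Agent.GoodRed.index_Gamma0_pos M

theorem fibsep_finiteDimensional_j :
    FiniteDimensional Qb⟮Fermat.Agent.S24.jBar M⟯ ↥(modularFunctionFieldBar M) :=
  Module.finite_of_finrank_pos (fibsep_finrank_pos M)

include hℓ hA hℓM in
theorem fibsep_finiteDimensional_jC :
    FiniteDimensional
      (IsLocalRing.ResidueField A₀)⟮Fermat.Agent.RRMod.jC (IsLocalRing.ResidueField A₀) M⟯
      ↥(modularFunctionFieldFullC (IsLocalRing.ResidueField A₀) M) := by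
  apply Module.finite_of_finrank_pos
  rw [← Fermat.Agent.IgusaDeg.finrank_jBar_eq_finrank_jC M hℓ hA hℓM]
  exact fibsep_finrank_pos M

/-- the degrees of the pole divisors of `j` and `j̄` agree. -/
theorem fibsep_degree_poleDiv :
    Divisor.degree (poleDiv (modularValSetup A₀ ℓ M hℓ hA hℓM).hFk
        ((modularValSetup A₀ ℓ M hℓ hA hℓM).red (Fermat.Agent.S24.jBar M)))
      = Divisor.degree (poleDiv (modularValSetup A₀ ℓ M hℓ hA hℓM).hF
          (Fermat.Agent.S24.jBar M)) := by
  haveI := fibsep_finiteDimensional_j M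
  haveI := fibsep_finiteDimensional_jC A₀ ℓ M hℓ hA hℓM
  rw [fibsep_red_j,
    Fermat.Agent.RRHur.degree_poleDiv_eq_finrank _ (fibsep_transcendental_jC A₀ M),
    Fermat.Agent.RRHur.degree_poleDiv_eq_finrank _ (fibsep_transcendental_j M),
    Fermat.Agent.IgusaDeg.finrank_jBar_eq_finrank_jC M hℓ hA hℓM]

/-- `j` has a pole at the cusp `∞`. -/
theorem fibsep_ord_cusp : (Fermat.Agent.S17.Setup.cuspPlace M).ord (Fermat.Agent.S24.jBar M) < 0 := by
  apply Fermat.Agent.S24Res.ord_neg_of_not_mem
  rw [Fermat.Agent.S17.Setup.mem_cuspPlace_iff]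
  intro h
  have h1 := h (-1) (by norm_num)
  rw [Fermat.Agent.S24.coe_jBar_eq_jqModC, coeff_jqModC_neg_one] at h1
  exact one_ne_zero h1

/-! ### the bad values -/

/-- the ramified values of `j̄` on the reduction of `X₀(M)`. -/
def badValues : Set (IsLocalRing.ResidueField A₀) :=
  ramValues (IsLocalRing.ResidueField A₀)
    (Fermat.Agent.RRMod.jC (IsLocalRing.ResidueField A₀) M)

include hℓ hA hℓM in
/-- only finitely many values of `j̄` are ramified. -/
theorem finite_badValues : (badValues A₀ M).Finite := by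
  haveI := isAlgClosed_residue A₀
  haveI := fibsep_finiteDimensional_jC A₀ ℓ M hℓ hA hℓM
  haveI := Fermat.Agent.RRMod.isSeparable_fullC' (IsLocalRing.ResidueField A₀) M
  exact finite_ramValues (Fermat.Agent.RRMod.isRRField_fullC' (IsLocalRing.ResidueField A₀) M)
    (fibsep_transcendental_jC A₀ M)

/-! ### Galois -/

/-- `j` is fixed by `G_ℚ`. -/
theorem galQ_smul_jBar (σ : GQ) : galQ M σ • Fermat.Agent.S24.jBar M = Fermat.Agent.S24.jBar M := by
  apply Subtype.ext
  rw [coe_galQ_smul, Fermat.Agent.S24.coe_jBar_eq_jqModC]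
  exact coeffMap_jqModC _

/-- the fibres of `j` are permuted by `G_ℚ`: `P` over `t` ⟹ `σ P` over `σ t`. -/
theorem galQ_smul_fibre (σ : GQ) {t : Qb} {P : Place Qb ↥(modularFunctionFieldBar M)}
    (hP : 0 < P.ord (Fermat.Agent.S24.jBar M - algebraMap Qb _ t)) :
    0 < (galQ M σ • P).ord (Fermat.Agent.S24.jBar M - algebraMap Qb _ (σ t)) := by
  have h1 : Fermat.Agent.S24.jBar M - algebraMap Qb ↥(modularFunctionFieldBar M) (σ t)
      = galQ M σ • (Fermat.Agent.S24.jBar M - algebraMap Qb _ t) := by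
    rw [smul_sub, galQ_smul_jBar, SemilinearAut.smul_algebraMap]
    rfl
  rw [h1, SemilinearAut.ord_smul]
  exact hP

/-- equivariance of the values of a `G_ℚ`-fixed function. -/
theorem valueAt_galQ (σ : GQ) (P : Place Qb ↥(modularFunctionFieldBar M))
    {b : modularFunctionFieldBar M} (hb : galQ M σ • b = b) :
    valueAt (Fermat.Agent.RRMod.isRRField_bar M) (galQ M σ • P) b
      = σ (valueAt (Fermat.Agent.RRMod.isRRField_bar M) P b) :=
  valueAt_smul_of_fixed _ (galQ M σ) P hb

/-- the value of `j` on its fibre. -/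
theorem valueAt_jBar {t : Qb} {P : Place Qb ↥(modularFunctionFieldBar M)}
    (hP : 0 < P.ord (Fermat.Agent.S24.jBar M - algebraMap Qb _ t)) :
    valueAt (Fermat.Agent.RRMod.isRRField_bar M) P (Fermat.Agent.S24.jBar M) = t :=
  valueAt_eq_of_ord_pos _ P hP

/-! ### FIB(c) -/

variable (hg : genusFF Qb (modularFunctionFieldBar M) =
  genusFF (IsLocalRing.ResidueField A₀)
    (modularFunctionFieldFullC (IsLocalRing.ResidueField A₀) M))

include hℓ hA hℓM hg in
/-- **FIB(c), modular instance.**  There is a finite family `b` of `G_ℚ`-fixed functions on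
`X₀(M)`, regular away from the cusp `∞`, such that on the fibres of `j` over `t ∈ A₀`:
the values of the `b i` lie in `A₀`, and any two distinct points of the fibre are separated by a
unit difference (at `A₀`) of the values of some `b i`, provided `t̄` is not a bad value. -/
theorem exists_sepFamily :
    ∃ (n : ℕ) (b : Fin n → modularFunctionFieldBar M),
      (∀ i (σ : GQ), galQ M σ • b i = b i) ∧
      (∀ i (P : Place Qb ↥(modularFunctionFieldBar M)),
        P ≠ Fermat.Agent.S17.Setup.cuspPlace M → 0 ≤ P.ord (b i)) ∧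
      (∀ (t : Qb), t ∈ A₀ → ∀ P : Place Qb ↥(modularFunctionFieldBar M),
        0 < P.ord (Fermat.Agent.S24.jBar M - algebraMap Qb _ t) → ∀ i,
          valueAt (Fermat.Agent.RRMod.isRRField_bar M) P (b i) ∈ A₀) ∧
      (∀ (t : Qb) (ht : t ∈ A₀), IsLocalRing.residue A₀ ⟨t, ht⟩ ∉ badValues A₀ M →
        ∀ P P' : Place Qb ↥(modularFunctionFieldBar M),
          0 < P.ord (Fermat.Agent.S24.jBar M - algebraMap Qb _ t) →
          0 < P'.ord (Fermat.Agent.S24.jBar M - algebraMap Qb _ t) → P ≠ P' →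
          ∃ i, A₀.valuation (valueAt (Fermat.Agent.RRMod.isRRField_bar M) P (b i)
            - valueAt (Fermat.Agent.RRMod.isRRField_bar M) P' (b i)) = 1) := by
  set S := modularValSetup A₀ ℓ M hℓ hA hℓM with hS
  set r := redPlace A₀ ℓ M hℓ hA hℓM hg with hr_def
  have hr : IsReduction S r := isReduction_redPlace A₀ ℓ M hℓ hA hℓM hg
  set Pinf := Fermat.Agent.S17.Setup.cuspPlace M with hPinf_def
  set N : ℤ := 2 * (genusFF Qb (modularFunctionFieldBar M) : ℤ) + 1 with hN
  -- the rational orthonormal basis of `L(N ∞)`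
  haveI : FiniteDimensional Qb (riemannRochSpace (Finsupp.single Pinf N :
      Divisor Qb ↥(modularFunctionFieldBar M))) :=
    finite_riemannRochSpace (Fermat.Agent.RRMod.isRRField_bar M) _
  obtain ⟨n, b, -, hspan, hfix, hbO, hli⟩ := exists_ratOrtho_basis A₀ ℓ M hℓ hA hℓM
    (riemannRochSpace (Finsupp.single Pinf N : Divisor Qb ↥(modularFunctionFieldBar M)))
    (fun σ f hf => by
      have h1 := (FFGal.smul_mem_riemannRochSpace_iff (galQ M σ)
        (Finsupp.single Pinf N : Divisor Qb ↥(modularFunctionFieldBar M)) f).mpr hf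
      rwa [galQ_smul_single_cuspPlace] at h1)
  have hb : SepBasis S r Pinf N b :=
    sepBasis_of_orthonormal hr Pinf (by rw [hN]; omega) b hspan hbO hli
  have hx := fibsep_j_mem A₀ ℓ M hℓ hA hℓM
  have htr := fibsep_transcendental_red_j A₀ ℓ M hℓ hA hℓM
  have hdeg := fibsep_degree_poleDiv A₀ ℓ M hℓ hA hℓM
  have hcusp := fibsep_ord_cusp M
  refine ⟨n, b, fun i σ => hfix i σ, fun i P hP => hb.ord_nonneg i hP, ?_, ?_⟩
  · intro t ht P hP i
    exact hr.valueAt_mem_of_fibre hx htr hdeg hcusp hb ht hP i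
  · intro t ht hbad P P' hP hP' hne
    have hN' : 2 * (genusFF (IsLocalRing.ResidueField A₀)
        (modularFunctionFieldFullC (IsLocalRing.ResidueField A₀) M) : ℤ) + 1 ≤ N := by
      rw [hN, hg]
    refine hr.exists_unit_of_fibre hx htr hdeg hcusp hb hN' ht ?_ hP hP' hne
    rw [fibsep_red_j]
    exact hbad

include hℓ hA in
/-- integrality over `ℤ_(ℓ)` of the values of a `G_ℚ`-fixed function on the fibres of `j` over
integral `t`, from integrality at the ONE place `A₀`. -/
theorem isIntegral_valueAt_of_fibre {b : modularFunctionFieldBar M}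
    (hfix : ∀ σ : GQ, galQ M σ • b = b)
    (hval : ∀ (t : Qb), t ∈ A₀ → ∀ P : Place Qb ↥(modularFunctionFieldBar M),
      0 < P.ord (Fermat.Agent.S24.jBar M - algebraMap Qb _ t) →
        valueAt (Fermat.Agent.RRMod.isRRField_bar M) P b ∈ A₀)
    {t : Qb} (ht : IsIntegral (GaloisRep.ratLocalizedAt ℓ) t)
    {P : Place Qb ↥(modularFunctionFieldBar M)}
    (hP : 0 < P.ord (Fermat.Agent.S24.jBar M - algebraMap Qb _ t)) :
    IsIntegral (GaloisRep.ratLocalizedAt ℓ)
      (valueAt (Fermat.Agent.RRMod.isRRField_bar M) P b) := by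
  apply pl_isIntegral_of_forall_conj hℓ A₀ hA
  intro σ
  rw [← valueAt_galQ M σ P (hfix σ)]
  exact hval (σ t) (pl_mem_of_isIntegral A₀ hA (pl_isIntegral_conj ht σ)) _
    (galQ_smul_fibre M σ hP)

end Fermat.Agent.FF
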