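import Mathlib
import Fermat.Agent.Lib.RR.NonSpecial

set_option autoImplicit false

/-!
# FF / S19, route R-G: simultaneously non-special points (helper43)

For a function field `F / K` of genus `g` (`IsRRField`), a FINITE family `𝒟` of divisors and a
finite set `T` of places, there are `n` distinct places `S`, off `T`, such that for EVERY `D ∈ 𝒟`
the index of speciality drops as much as possible: `i(D + ∑_{P ∈ S} P) = i(D) - n` (truncated).

Consequence (`exists_good_E`): if all `D ∈ 𝒟` have degree `0` there is `E = ∑_{P ∈ S} P` with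
`#S = g`, off `T`, and `ℓ(D + E) = 1` for all `D ∈ 𝒟`.  (Any characteristic; this is the choice of
`Ē` on the special fibre in R-G §1.)
-/

noncomputable section

open AlgebraicCurve IntermediateField

namespace Fermat.Agent.FF

open Fermat.Agent.RR

variable {K F : Type*} [Field K] [Field F] [Algebra K F]

/-- special divisors: `ℓ(D) > deg D + 1 - g`. -/
theorem ff_special_iff (h : IsRRField K F) (D : Divisor K F) :
    Divisor.degree D + 1 - (genusFF K F : ℤ) < (ell D : ℤ) ↔ 0 < idx D := by
  have := riemann_roch_H1 h D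
  constructor <;> intro h1 <;> omega

/-- **Finiteness of the base points.** If `D` is special, `ℓ(D + P) = ℓ(D)` for all but
finitely many places `P`. -/
theorem ff_finite_setOf_ell_add_single_ne (h : IsRRField K F) (D : Divisor K F)
    (hD : Divisor.degree D + 1 - (genusFF K F : ℤ) < (ell D : ℤ)) :
    {P : Place K F | ell (D + Finsupp.single P 1) ≠ ell D}.Finite := by
  classical
  by_contra hinf
  have hinf' : {P : Place K F | ell (D + Finsupp.single P 1) ≠ ell D}.Infinite := hinf
  have hall : ∀ P ∈ {P : Place K F | ell (D + Finsupp.single P 1) ≠ ell D},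
      ell (D + Finsupp.single P 1) = ell D + 1 := by
    intro P hP
    have h1 := ell_add_single_le h D P
    have h2 := ell_mono h (le_add_single D P)
    have h3 : ell (D + Finsupp.single P 1) ≠ ell D := hP
    omega
  obtain ⟨c, hc⟩ := exists_idx_eq_zero (K := K) (F := F) h
  set n : ℕ := (c - Divisor.degree D).toNat with hn
  obtain ⟨S, hST, hScard⟩ := hinf'.exists_subset_card_eq n
  have hge := ell_add_sumPlaces_ge h D S fun P hP => hall P (hST hP)
  have hdeg : Divisor.degree (D + sumPlaces S) = Divisor.degree D + n := by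
    rw [map_add, degree_sumPlaces h, hScard]
  have hcle : c ≤ Divisor.degree (D + sumPlaces S) := by
    rw [hdeg, hn]
    have := Int.self_le_toNat (c - Divisor.degree D)
    omega
  have hrr := riemann_roch_H1 h (D + sumPlaces S)
  rw [hc _ hcle, hdeg] at hrr
  have : ((ell D + S.card : ℕ) : ℤ) ≤ (ell (D + sumPlaces S) : ℤ) := by exact_mod_cast hge
  rw [hScard] at this
  push_cast at this hrr
  omega

/-- One place, off `T`, which is not a base point for any special `D` of a finite family. -/
theorem ff_exists_place_forall (h : IsRRField K F) [Infinite (Place K F)]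
    (𝒟 : Finset (Divisor K F)) (T : Finset (Place K F)) :
    ∃ P, P ∉ T ∧ ∀ D ∈ 𝒟, Divisor.degree D + 1 - (genusFF K F : ℤ) < (ell D : ℤ) →
      ell (D + Finsupp.single P 1) = ell D := by
  classical
  have hfin : ((↑T : Set (Place K F)) ∪ ⋃ D ∈ {D ∈ 𝒟 | Divisor.degree D + 1 -
      (genusFF K F : ℤ) < (ell D : ℤ)},
        {P : Place K F | ell (D + Finsupp.single P 1) ≠ ell D}).Finite := by
    refine T.finite_toSet.union (Set.Finite.biUnion (Finset.finite_toSet _) fun D hD => ?_)
    have hD' := (Finset.mem_filter.mp (Finset.mem_coe.mp hD)).2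
    exact ff_finite_setOf_ell_add_single_ne h D hD'
  obtain ⟨P, hP⟩ := hfin.infinite_compl.nonempty
  rw [Set.mem_compl_iff, Set.mem_union, not_or] at hP
  refine ⟨P, fun hPT => hP.1 (Finset.mem_coe.mpr hPT), fun D hD hsp => ?_⟩
  by_contra hne
  apply hP.2
  rw [Set.mem_iUnion₂]
  exact ⟨D, Finset.mem_coe.mpr (Finset.mem_filter.mpr ⟨hD, hsp⟩), hne⟩

/-- the index of speciality after adding a place which is not a base point. -/
theorem ff_idx_add_single (h : IsRRField K F) (D : Divisor K F) (P : Place K F)
    (hP : Divisor.degree D + 1 - (genusFF K F : ℤ) < (ell D : ℤ) →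
      ell (D + Finsupp.single P 1) = ell D) :
    idx (D + Finsupp.single P 1) = idx D - 1 := by
  have h1 := riemann_roch_H1 h D
  have h2 := riemann_roch_H1 h (D + Finsupp.single P 1)
  rw [degree_add_single h] at h2
  have h3 := idx_anti h (le_add_single D P)
  by_cases hsp : Divisor.degree D + 1 - (genusFF K F : ℤ) < (ell D : ℤ)
  · have h4 := hP hsp
    rw [h4] at h2
    omega
  · have h5 : idx D = 0 := by omega
    omega

/-- **Simultaneously general points.** -/
theorem ff_exists_sumPlaces_idx (h : IsRRField K F) [Infinite (Place K F)]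
    (𝒟 : Finset (Divisor K F)) (T : Finset (Place K F)) (n : ℕ) :
    ∃ S : Finset (Place K F), Disjoint S T ∧ S.card = n ∧
      ∀ D ∈ 𝒟, idx (D + sumPlaces S) = idx D - n := by
  classical
  induction n with
  | zero =>
    exact ⟨∅, Finset.disjoint_empty_left T, rfl, fun D _ => by rw [sumPlaces_empty, add_zero]; rfl⟩
  | succ n ih =>
    obtain ⟨S, hST, hcard, hS⟩ := ih
    obtain ⟨P, hP, hgood⟩ := ff_exists_place_forall h (𝒟.image fun D => D + sumPlaces S) (T ∪ S)
    have hPT : P ∉ T := fun hh => hP (Finset.mem_union_left _ hh)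
    have hPS : P ∉ S := fun hh => hP (Finset.mem_union_right _ hh)
    refine ⟨Finset.cons P S hPS, ?_, ?_, fun D hD => ?_⟩
    · rw [Finset.disjoint_left]
      intro Q hQ
      rcases Finset.mem_cons.mp hQ with rfl | hQ'
      · exact hPT
      · exact Finset.disjoint_left.mp hST hQ'
    · rw [Finset.card_cons, hcard]
    · rw [sumPlaces_cons hPS, ← add_assoc,
        ff_idx_add_single h (D + sumPlaces S) P
          (hgood (D + sumPlaces S) (Finset.mem_image_of_mem _ hD)), hS D hD]
      omega

/-- for a divisor of degree `0`: `i(D) ≤ g`. -/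
theorem ff_idx_le_genus_of_degree_zero (h : IsRRField K F) {D : Divisor K F}
    (hD : Divisor.degree D = 0) : idx D ≤ genusFF K F := by
  have h1 := riemann_roch_H1 h D
  have h2 := ell_le_degree_add_one h (D := D) (by rw [hD])
  rw [hD] at h1 h2
  omega

/-- **Good `E`.** For finitely many divisors of degree `0` there are `g` places, off a given
finite set, whose sum `E` satisfies `ℓ(D + E) = 1` for every `D` of the family. -/
theorem ff_exists_good_E (h : IsRRField K F) [Infinite (Place K F)]
    (𝒟 : Finset (Divisor K F)) (h0 : ∀ D ∈ 𝒟, Divisor.degree D = 0)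
    (T : Finset (Place K F)) :
    ∃ S : Finset (Place K F), Disjoint S T ∧ S.card = genusFF K F ∧
      ∀ D ∈ 𝒟, ell (D + sumPlaces S) = 1 ∧ idx (D + sumPlaces S) = 0 := by
  obtain ⟨S, hST, hcard, hS⟩ := ff_exists_sumPlaces_idx h 𝒟 T (genusFF K F)
  refine ⟨S, hST, hcard, fun D hD => ?_⟩
  have h1 := hS D hD
  have h2 := ff_idx_le_genus_of_degree_zero h (h0 D hD)
  have h3 : idx (D + sumPlaces S) = 0 := by omega
  refine ⟨?_, h3⟩
  have h4 := riemann_roch_H1 h (D + sumPlaces S)
  rw [h3, map_add, degree_sumPlaces h, hcard, h0 D hD] at h4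
  have : (ell (D + sumPlaces S) : ℤ) = 1 := by
    rw [h4]
    push_cast
    ring
  exact_mod_cast this

end Fermat.Agent.FF
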