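/-
FF / S19, seat D4 (helper24): UNIQUENESS and EQUIVARIANCE of Deuring's reduction map (abstract).

Setting: `S : Deuring.ValSetup K F k Fk` a constant reduction, `r : Place K F → Place k Fk` a map
of places with property (GR) of `Deuring.exists_reduction`:
  `redSpace S (L(B)) = L_k(r_* B)` for every divisor `B` of degree `≥ 2g`.

* `IsGR S r`                 -- the property (GR)
* `IsGR.unique`              -- a map with (GR) is UNIQUE
* `RedCompat S g gbar`       -- a semilinear automorphism `g` of `F/K` preserving `Ov`, inducing the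
                                semilinear automorphism `gbar` of `Fk/k` on residues
* `IsGR.map_smul`            -- EQUIVARIANCE: `r (g • P) = gbar • r P`
* `IsGR.mapDomain_smul`      -- the same for divisors: `r_* (g • D) = gbar • r_* D`
* `smul_mem_riemannRochSpace_iff`, `riemannRochSpace_smul` -- `L(g • D) = g (L(D))`
-/
import Mathlib
import Fermat.Agent.Lib.Deuring.Main
import Fermat.Prelude.Def_AlgebraicCurve_BaseChangeGalois

set_option autoImplicit false

noncomputable section

namespace Fermat.Agent.FF

open AlgebraicCurve Fermat.Agent.RR Fermat.Agent.Deuring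

variable {K F k Fk : Type*} [Field K] [Field F] [Algebra K F]
  [Field k] [Field Fk] [Algebra k Fk]

/-! ### Semilinear automorphisms and Riemann-Roch spaces -/

/-- `g f ∈ L(g D) ↔ f ∈ L(D)` for a semilinear automorphism `g`. -/
theorem smul_mem_riemannRochSpace_iff (g : SemilinearAut K F) (D : Divisor K F) (f : F) :
    g • f ∈ riemannRochSpace (g • D) ↔ f ∈ riemannRochSpace D := by
  rw [mem_riemannRochSpace_iff, mem_riemannRochSpace_iff]
  constructor
  · intro h v
    rcases h (g • v) with h0 | h1
    · left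
      exact (smul_eq_zero_iff_eq g).mp h0
    · right
      rwa [SemilinearAut.divisor_smul_apply_smul, SemilinearAut.ord_smul] at h1
  · intro h w
    rcases h (g⁻¹ • w) with h0 | h1
    · left
      rw [h0, smul_zero]
    · right
      have e1 : (g • D) w = D (g⁻¹ • w) := SemilinearAut.divisor_smul_apply g D w
      have e2 : w.ord (g • f) = (g⁻¹ • w).ord f := by
        have := SemilinearAut.ord_smul g (g⁻¹ • w) f
        rwa [smul_inv_smul] at this
      rw [e1, e2]
      exact h1

/-- `y ∈ L(g D) ↔ g⁻¹ y ∈ L(D)`. -/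
theorem mem_riemannRochSpace_smul_iff (g : SemilinearAut K F) (D : Divisor K F) (y : F) :
    y ∈ riemannRochSpace (g • D) ↔ g⁻¹ • y ∈ riemannRochSpace D := by
  rw [← smul_mem_riemannRochSpace_iff g D (g⁻¹ • y), smul_inv_smul]

/-- `y ∈ L(g⁻¹ D) ↔ g y ∈ L(D)`. -/
theorem mem_riemannRochSpace_inv_smul_iff (g : SemilinearAut K F) (D : Divisor K F) (y : F) :
    y ∈ riemannRochSpace (g⁻¹ • D) ↔ g • y ∈ riemannRochSpace D := by
  rw [mem_riemannRochSpace_smul_iff, inv_inv]

/-- `L(g D)` is the image of `L(D)` under `g` (as sets). -/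
theorem riemannRochSpace_smul (g : SemilinearAut K F) (D : Divisor K F) :
    (riemannRochSpace (g • D) : Set F) = (fun f => g • f) '' (riemannRochSpace D : Set F) := by
  ext y
  constructor
  · intro hy
    exact ⟨g⁻¹ • y, (mem_riemannRochSpace_smul_iff g D y).mp hy, smul_inv_smul g y⟩
  · rintro ⟨f, hf, rfl⟩
    exact (smul_mem_riemannRochSpace_iff g D f).mpr hf

/-! ### Property (GR) and uniqueness -/

/-- Property (GR) of a map of places: `red (L(B) ∩ Ov) = L_k(r_* B)` for `deg B ≥ 2g`. -/
def IsGR (S : ValSetup K F k Fk) (r : Place K F → Place k Fk) : Prop :=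
  ∀ B : Divisor K F, 2 * (genusFF K F : ℤ) ≤ Divisor.degree B →
    redSpace S (riemannRochSpace B) = riemannRochSpace (Finsupp.mapDomain r B)

/-- The reduction map of `Deuring.exists_reduction` exists with (GR) (restatement). -/
theorem exists_isGR (S : ValSetup K F k Fk) (hL : HasLattice S) [Infinite k]
    (hg : genusFF K F = genusFF k Fk) : ∃ r : Place K F → Place k Fk, IsGR S r := by
  obtain ⟨r, -, hGR, -⟩ := exists_reduction S hL hg
  exact ⟨r, hGR⟩

/-- **Uniqueness of the reduction map**: two maps of places with (GR) agree. -/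
theorem IsGR.unique {S : ValSetup K F k Fk} {r r' : Place K F → Place k Fk}
    (hr : IsGR S r) (hr' : IsGR S r') : r = r' := by
  funext P
  set m : ℤ := 2 * (genusFF K F : ℤ) + 2 * (genusFF k Fk : ℤ) + 1 with hm
  have hm0 : m ≠ 0 := by
    have : (0 : ℤ) ≤ (genusFF K F : ℤ) := Int.natCast_nonneg _
    have : (0 : ℤ) ≤ (genusFF k Fk : ℤ) := Int.natCast_nonneg _
    omega
  have hdeg : Divisor.degree (Finsupp.single P m : Divisor K F) = m :=
    degree_single_one S.hF P m
  have hB : 2 * (genusFF K F : ℤ) ≤ Divisor.degree (Finsupp.single P m : Divisor K F) := by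
    rw [hdeg]
    have : (0 : ℤ) ≤ (genusFF k Fk : ℤ) := Int.natCast_nonneg _
    omega
  have h1 := hr _ hB
  have h2 := hr' _ hB
  rw [Finsupp.mapDomain_single] at h1 h2
  have hk : ∀ Q : Place k Fk,
      2 * (genusFF k Fk : ℤ) ≤ Divisor.degree (Finsupp.single Q m : Divisor k Fk) := by
    intro Q
    rw [degree_single_one S.hFk Q m]
    have : (0 : ℤ) ≤ (genusFF K F : ℤ) := Int.natCast_nonneg _
    omega
  have heq : (Finsupp.single (r P) m : Divisor k Fk) = Finsupp.single (r' P) m :=
    eq_of_riemannRochSpace_eq S.hFk (hk _) (hk _) (h1.symm.trans h2)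
  by_contra hne
  have := congrArg (fun D : Divisor k Fk => D (r P)) heq
  simp only [Finsupp.single_eq_same] at this
  rw [Finsupp.single_eq_of_ne (fun h => hne h)] at this
  exact hm0 this

/-! ### Compatible semilinear automorphisms -/

/-- A semilinear automorphism `g` of `F / K` that preserves the valuation ring `Ov` and induces
the semilinear automorphism `gbar` of `Fk / k` on residues. -/
structure RedCompat (S : ValSetup K F k Fk) (g : SemilinearAut K F)
    (gbar : SemilinearAut k Fk) : Prop where
  /-- `g` preserves `Ov` -/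
  mem : ∀ f : F, f ∈ S.Ov → g • f ∈ S.Ov
  /-- `g⁻¹` preserves `Ov` -/
  mem_inv : ∀ f : F, f ∈ S.Ov → g⁻¹ • f ∈ S.Ov
  /-- the residue map is equivariant -/
  red : ∀ f : F, f ∈ S.Ov → S.red (g • f) = gbar • S.red f

namespace RedCompat

variable {S : ValSetup K F k Fk} {g : SemilinearAut K F} {gbar : SemilinearAut k Fk}

theorem smul_mem_iff (hc : RedCompat S g gbar) (f : F) : g • f ∈ S.Ov ↔ f ∈ S.Ov := by
  constructor
  · intro h
    have := hc.mem_inv _ h
    rwa [inv_smul_smul] at this
  · exact hc.mem f

/-- the residue map is equivariant, total form (no integrality hypothesis). -/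
theorem red_smul (hc : RedCompat S g gbar) (f : F) : S.red (g • f) = gbar • S.red f := by
  by_cases hf : f ∈ S.Ov
  · exact hc.red f hf
  · rw [S.red_of_not_mem hf, S.red_of_not_mem (fun h => hf ((hc.smul_mem_iff f).mp h)), smul_zero]

/-- compatibility of the inverses. -/
theorem inv (hc : RedCompat S g gbar) : RedCompat S g⁻¹ gbar⁻¹ where
  mem := hc.mem_inv
  mem_inv := fun f hf => by rw [inv_inv]; exact hc.mem f hf
  red := fun f _ => by
    have h := hc.red_smul (g⁻¹ • f)
    rw [smul_inv_smul] at h
    rw [h, inv_smul_smul]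

/-- compatibility of the identity. -/
theorem one (S : ValSetup K F k Fk) : RedCompat S 1 1 where
  mem := fun f hf => by rwa [one_smul]
  mem_inv := fun f hf => by rwa [inv_one, one_smul]
  red := fun f _ => by rw [one_smul, one_smul]

/-- compatibility of products. -/
theorem mul {g' : SemilinearAut K F} {gbar' : SemilinearAut k Fk} (hc : RedCompat S g gbar)
    (hc' : RedCompat S g' gbar') : RedCompat S (g * g') (gbar * gbar') where
  mem := fun f hf => by rw [mul_smul]; exact hc.mem _ (hc'.mem f hf)
  mem_inv := fun f hf => by rw [mul_inv_rev, mul_smul]; exact hc'.mem_inv _ (hc.mem_inv f hf)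
  red := fun f _ => by rw [mul_smul, mul_smul, hc.red_smul, hc'.red_smul]

/-- `red (L(g B) ∩ Ov) = gbar (red (L(B) ∩ Ov))`, in membership form. -/
theorem mem_redSpace_smul_iff (hc : RedCompat S g gbar) (B : Divisor K F) (y : Fk) :
    gbar • y ∈ redSpace S (riemannRochSpace (g • B)) ↔ y ∈ redSpace S (riemannRochSpace B) := by
  rw [mem_redSpace_iff, mem_redSpace_iff]
  constructor
  · rintro ⟨x, hxL, hxO, hx⟩
    refine ⟨g⁻¹ • x, (mem_riemannRochSpace_smul_iff g B x).mp hxL, hc.mem_inv x hxO, ?_⟩
    rw [hc.inv.red_smul, hx, inv_smul_smul]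
  · rintro ⟨x, hxL, hxO, hx⟩
    exact ⟨g • x, (smul_mem_riemannRochSpace_iff g B x).mpr hxL, hc.mem x hxO, by
      rw [hc.red_smul, hx]⟩

end RedCompat

/-! ### Equivariance -/

/-- the twisted map `P ↦ gbar⁻¹ (r (g P))` has (GR) as well. -/
theorem IsGR.twist {S : ValSetup K F k Fk} {r : Place K F → Place k Fk} (hr : IsGR S r)
    {g : SemilinearAut K F} {gbar : SemilinearAut k Fk} (hc : RedCompat S g gbar) :
    IsGR S (fun P => gbar⁻¹ • r (g • P)) := by
  intro B hB
  have hB' : 2 * (genusFF K F : ℤ) ≤ Divisor.degree (g • B) := by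
    rwa [SemilinearAut.degree_smul]
  have h1 := hr (g • B) hB'
  have hmap : Finsupp.mapDomain (fun P => gbar⁻¹ • r (g • P)) B =
      gbar⁻¹ • Finsupp.mapDomain r (g • B) := by
    rw [SemilinearAut.divisor_smul_def, SemilinearAut.divisor_smul_def,
      ← Finsupp.mapDomain_comp, ← Finsupp.mapDomain_comp]
    rfl
  ext y
  rw [hmap, mem_riemannRochSpace_inv_smul_iff, ← h1, hc.mem_redSpace_smul_iff]

/-- **Equivariance of the reduction map**: `r (g • P) = gbar • r P`. -/
theorem IsGR.map_smul {S : ValSetup K F k Fk} {r : Place K F → Place k Fk} (hr : IsGR S r)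
    {g : SemilinearAut K F} {gbar : SemilinearAut k Fk} (hc : RedCompat S g gbar)
    (P : Place K F) : r (g • P) = gbar • r P := by
  have h : gbar⁻¹ • r (g • P) = r P := congrFun ((hr.twist hc).unique hr) P
  rw [← h, smul_inv_smul]

/-- Equivariance for divisors: `r_* (g • D) = gbar • r_* D`. -/
theorem IsGR.mapDomain_smul {S : ValSetup K F k Fk} {r : Place K F → Place k Fk}
    (hr : IsGR S r) {g : SemilinearAut K F} {gbar : SemilinearAut k Fk}
    (hc : RedCompat S g gbar) (D : Divisor K F) :
    Finsupp.mapDomain r (g • D) = gbar • Finsupp.mapDomain r D := by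
  rw [SemilinearAut.divisor_smul_def, SemilinearAut.divisor_smul_def,
    ← Finsupp.mapDomain_comp, ← Finsupp.mapDomain_comp]
  congr 1
  funext P
  exact hr.map_smul hc P

end Fermat.Agent.FF
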